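/-
Programme JAC (S25), work package B4 (Zariski descent for `Scheme.Modules`), part G1:
morphisms of sheaves of modules glue along open covers ("Hom is a sheaf").

Everything is phrased with sections over opens of one fixed scheme `X`:
a `LocalHom M N U` is a family of additive, `𝒪`-linear, restriction-compatible maps
`Γ(M, V) → Γ(N, V)` for all opens `V ≤ U`.  Global morphisms `M ⟶ N` are the same as
`LocalHom M N ⊤`, local homs restrict to smaller opens and glue along arbitrary covers.
-/
import Mathlib.AlgebraicGeometry.Modules.Tilde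

set_option autoImplicit false

universe u

open CategoryTheory AlgebraicGeometry TopologicalSpace Opposite

namespace Fermat.Agent.JAC.Glue.HomGlue1

noncomputable section

variable {X : Scheme.{u}}

/-! ### Restriction of sections as plain additive maps, and the sheaf property -/

/-- Restriction of sections of a sheaf of modules, as an additive map. -/
def res (M : X.Modules) {V W : X.Opens} (h : W ≤ V) : Γ(M, V) →+ Γ(M, W) :=
  (M.presheaf.map (homOfLE h).op).hom

@[simp] lemma res_self (M : X.Modules) {V : X.Opens} (x : Γ(M, V)) : res M (le_refl V) x = x := by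
  simp [res]

@[simp] lemma res_res (M : X.Modules) {V W Z : X.Opens} (h : W ≤ V) (h' : Z ≤ W) (x : Γ(M, V)) :
    res M h' (res M h x) = res M (h'.trans h) x := by
  have : M.presheaf.map (homOfLE (h'.trans h)).op =
      M.presheaf.map (homOfLE h).op ≫ M.presheaf.map (homOfLE h').op := by
    rw [← M.presheaf.map_comp]; rfl
  simp [res, this]

/-- Restriction of functions (sections of the structure sheaf). -/
def resO (X : Scheme.{u}) {V W : X.Opens} (h : W ≤ V) : Γ(X, V) →+* Γ(X, W) :=
  (X.presheaf.map (homOfLE h).op).hom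

@[simp] lemma resO_self {V : X.Opens} (r : Γ(X, V)) : resO X (le_refl V) r = r := by
  simp [resO]

@[simp] lemma resO_resO {V W Z : X.Opens} (h : W ≤ V) (h' : Z ≤ W) (r : Γ(X, V)) :
    resO X h' (resO X h r) = resO X (h'.trans h) r := by
  have : X.presheaf.map (homOfLE (h'.trans h)).op =
      X.presheaf.map (homOfLE h).op ≫ X.presheaf.map (homOfLE h').op := by
    rw [← X.presheaf.map_comp]; rfl
  simp [resO, this]

lemma res_smul (M : X.Modules) {V W : X.Opens} (h : W ≤ V) (r : Γ(X, V)) (x : Γ(M, V)) :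
    res M h (r • x) = resO X h r • res M h x :=
  M.map_smul (homOfLE h) r x

lemma res_eq_map (M : X.Modules) {V W : X.Opens} (i : W ⟶ V) (x : Γ(M, V)) :
    M.presheaf.map i.op x = res M (leOfHom i) x := rfl

/-- Separatedness: two sections agreeing on a cover are equal. -/
lemma eq_of_res_eq (M : X.Modules) {ι : Type*} (U : ι → X.Opens) {V : X.Opens}
    (hV : V ≤ ⨆ i, U i) (s t : Γ(M, V))
    (h : ∀ i, res M (inf_le_left : V ⊓ U i ≤ V) s = res M inf_le_left t) : s = t := by
  let F : TopCat.Sheaf Ab X := ⟨M.presheaf, M.isSheaf⟩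
  refine F.eq_of_locally_eq' (fun i => V ⊓ U i) V (fun i => homOfLE inf_le_left) ?_ s t h
  intro x hx
  obtain ⟨i, hi⟩ := Opens.mem_iSup.mp (hV hx)
  exact Opens.mem_iSup.mpr ⟨i, hx, hi⟩

/-- Gluing of sections along a cover. -/
lemma existsUnique_glue (M : X.Modules) {ι : Type*} (U : ι → X.Opens) {V : X.Opens}
    (hV : V ≤ ⨆ i, U i) (s : ∀ i, Γ(M, V ⊓ U i))
    (h : ∀ i j, res M (inf_le_left : (V ⊓ U i) ⊓ (V ⊓ U j) ≤ V ⊓ U i) (s i) =
      res M (inf_le_right : (V ⊓ U i) ⊓ (V ⊓ U j) ≤ V ⊓ U j) (s j)) :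
    ∃! t : Γ(M, V), ∀ i, res M (inf_le_left : V ⊓ U i ≤ V) t = s i := by
  let F : TopCat.Sheaf Ab X := ⟨M.presheaf, M.isSheaf⟩
  refine F.existsUnique_gluing' (fun i => V ⊓ U i) V (fun i => homOfLE inf_le_left) ?_ s h
  intro x hx
  obtain ⟨i, hi⟩ := Opens.mem_iSup.mp (hV hx)
  exact Opens.mem_iSup.mpr ⟨i, hx, hi⟩

/-! ### Local homomorphisms -/

/-- A morphism `M|_U ⟶ N|_U`, described on sections over opens `V ≤ U`. -/
structure LocalHom (M N : X.Modules) (U : X.Opens) where
  /-- the maps on sections -/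
  app : ∀ V : X.Opens, V ≤ U → (Γ(M, V) →+ Γ(N, V))
  naturality : ∀ {V W : X.Opens} (hV : V ≤ U) (hWV : W ≤ V) (x : Γ(M, V)),
    res N hWV (app V hV x) = app W (hWV.trans hV) (res M hWV x)
  map_smul : ∀ {V : X.Opens} (hV : V ≤ U) (r : Γ(X, V)) (x : Γ(M, V)),
    app V hV (r • x) = r • app V hV x

namespace LocalHom

variable {M N P : X.Modules} {U : X.Opens}

@[ext]
lemma ext {a b : LocalHom M N U} (h : ∀ V (hV : V ≤ U) (x : Γ(M, V)), a.app V hV x = b.app V hV x) :
    a = b := by
  cases a; cases b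
  congr
  funext V hV
  exact AddMonoidHom.ext (h V hV)

/-- The identity local homomorphism. -/
def id (M : X.Modules) (U : X.Opens) : LocalHom M M U where
  app _ _ := AddMonoidHom.id _
  naturality _ _ _ := rfl
  map_smul _ _ _ := rfl

/-- Composition of local homomorphisms. -/
def comp (a : LocalHom M N U) (b : LocalHom N P U) : LocalHom M P U where
  app V hV := (b.app V hV).comp (a.app V hV)
  naturality hV hWV x := by
    simp only [AddMonoidHom.comp_apply]
    rw [b.naturality, a.naturality]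
  map_smul hV r x := by
    simp only [AddMonoidHom.comp_apply]
    rw [a.map_smul, b.map_smul]

@[simp] lemma id_app (V : X.Opens) (hV : V ≤ U) (x : Γ(M, V)) : (id M U).app V hV x = x := rfl

@[simp] lemma comp_app (a : LocalHom M N U) (b : LocalHom N P U) (V : X.Opens) (hV : V ≤ U)
    (x : Γ(M, V)) : (a.comp b).app V hV x = b.app V hV (a.app V hV x) := rfl

/-- Restriction of a local homomorphism to a smaller open. -/
def restrict (a : LocalHom M N U) {U' : X.Opens} (h : U' ≤ U) : LocalHom M N U' where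
  app V hV := a.app V (hV.trans h)
  naturality _ hWV x := a.naturality _ hWV x
  map_smul _ r x := a.map_smul _ r x

@[simp] lemma restrict_app (a : LocalHom M N U) {U' : X.Opens} (h : U' ≤ U) (V : X.Opens)
    (hV : V ≤ U') (x : Γ(M, V)) : (a.restrict h).app V hV x = a.app V (hV.trans h) x := rfl

/-- A global morphism induces a local homomorphism on every open. -/
def ofHom (φ : M ⟶ N) (U : X.Opens) : LocalHom M N U where
  app V _ := (φ.app V).hom
  naturality {V W} hV hWV x := by
    have := φ.mapPresheaf.naturality (homOfLE hWV).op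
    exact (congr($this x)).symm
  map_smul hV r x := φ.app_smul r x

@[simp] lemma ofHom_app (φ : M ⟶ N) (U V : X.Opens) (hV : V ≤ U) (x : Γ(M, V)) :
    (ofHom φ U).app V hV x = φ.app V x := rfl

/-- A local homomorphism on `⊤` is a global morphism. -/
def toHom (a : LocalHom M N ⊤) : M ⟶ N :=
  ⟨PresheafOfModules.homMk
    { app := fun V => AddCommGrpCat.ofHom (a.app V.unop le_top)
      naturality := fun V W i => by
        ext x
        exact (a.naturality (le_top : V.unop ≤ ⊤) (leOfHom i.unop) x).symm }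
    (fun V r x => a.map_smul (le_top : V.unop ≤ ⊤) r x)⟩

@[simp] lemma toHom_app (a : LocalHom M N ⊤) (V : X.Opens) (x : Γ(M, V)) :
    (toHom a).app V x = a.app V le_top x := rfl

@[simp] lemma ofHom_toHom (a : LocalHom M N ⊤) : ofHom (toHom a) ⊤ = a := by
  ext V hV x; rfl

@[simp] lemma toHom_ofHom (φ : M ⟶ N) : toHom (ofHom φ ⊤) = φ := by
  ext V x; rfl


/-! ### Locality and gluing -/

/-- Two local homomorphisms on `U` that agree on a cover of `U` are equal. -/
lemma eq_of_cover {ι : Type*} (𝒰 : ι → X.Opens) (hU : U ≤ ⨆ i, 𝒰 i) (a b : LocalHom M N U)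
    (h : ∀ i (V : X.Opens) (hV : V ≤ U) (_ : V ≤ 𝒰 i) (x : Γ(M, V)), a.app V hV x = b.app V hV x) :
    a = b := by
  ext V hV x
  refine eq_of_res_eq N 𝒰 (hV.trans hU) _ _ (fun i => ?_)
  rw [a.naturality, b.naturality]
  exact h i _ _ inf_le_right _

section Glue

variable {ι : Type*} (𝒰 : ι → X.Opens) (a : ∀ i, LocalHom M N (𝒰 i))
  (ha : ∀ i j (V : X.Opens) (hi : V ≤ 𝒰 i) (hj : V ≤ 𝒰 j) (x : Γ(M, V)),
    (a i).app V hi x = (a j).app V hj x)

include ha in
lemma glue_aux {V : X.Opens} (hV : V ≤ ⨆ i, 𝒰 i) (x : Γ(M, V)) :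
    ∃! t : Γ(N, V), ∀ i, res N (inf_le_left : V ⊓ 𝒰 i ≤ V) t =
      (a i).app (V ⊓ 𝒰 i) inf_le_right (res M inf_le_left x) := by
  refine existsUnique_glue N 𝒰 hV _ (fun i j => ?_)
  rw [(a i).naturality, (a j).naturality, res_res, res_res]
  exact ha i j _ _ _ _

/-- The value of the glued local homomorphism on a section. -/
def glueFun {V : X.Opens} (hV : V ≤ ⨆ i, 𝒰 i) (x : Γ(M, V)) : Γ(N, V) :=
  (glue_aux 𝒰 a ha hV x).choose

lemma res_glueFun {V : X.Opens} (hV : V ≤ ⨆ i, 𝒰 i) (x : Γ(M, V)) (i : ι) :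
    res N (inf_le_left : V ⊓ 𝒰 i ≤ V) (glueFun 𝒰 a ha hV x) =
      (a i).app (V ⊓ 𝒰 i) inf_le_right (res M inf_le_left x) :=
  (glue_aux 𝒰 a ha hV x).choose_spec.1 i

lemma glueFun_eq {V : X.Opens} (hV : V ≤ ⨆ i, 𝒰 i) (x : Γ(M, V)) (t : Γ(N, V))
    (ht : ∀ i, res N (inf_le_left : V ⊓ 𝒰 i ≤ V) t =
      (a i).app (V ⊓ 𝒰 i) inf_le_right (res M inf_le_left x)) :
    glueFun 𝒰 a ha hV x = t :=
  ((glue_aux 𝒰 a ha hV x).choose_spec.2 t ht).symm

/-- Gluing of a compatible family of local homomorphisms. -/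
def glue : LocalHom M N (⨆ i, 𝒰 i) where
  app V hV :=
    { toFun := glueFun 𝒰 a ha hV
      map_zero' := glueFun_eq 𝒰 a ha hV _ _ (fun i => by simp)
      map_add' := fun x y => glueFun_eq 𝒰 a ha hV _ _ (fun i => by
        simp only [map_add, res_glueFun]) }
  naturality {V W} hV hWV x := by
    change res N hWV (glueFun 𝒰 a ha hV x) = glueFun 𝒰 a ha (hWV.trans hV) (res M hWV x)
    refine (glueFun_eq 𝒰 a ha _ _ _ (fun i => ?_)).symm
    have hle : W ⊓ 𝒰 i ≤ V ⊓ 𝒰 i := inf_le_inf_right _ hWV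
    rw [res_res, res_res]
    have := congrArg (res N hle) (res_glueFun 𝒰 a ha hV x i)
    rw [res_res, (a i).naturality, res_res] at this
    exact this
  map_smul {V} hV r x := by
    change glueFun 𝒰 a ha hV (r • x) = r • glueFun 𝒰 a ha hV x
    refine glueFun_eq 𝒰 a ha _ _ _ (fun i => ?_)
    rw [res_smul, res_smul, (a i).map_smul, res_glueFun]

lemma glue_app_of_le {V : X.Opens} (i : ι) (hV : V ≤ 𝒰 i) (x : Γ(M, V)) :
    (glue 𝒰 a ha).app V (hV.trans (le_iSup 𝒰 i)) x = (a i).app V hV x := by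
  change glueFun 𝒰 a ha (hV.trans (le_iSup 𝒰 i)) x = _
  refine glueFun_eq 𝒰 a ha _ _ _ (fun j => ?_)
  rw [(a i).naturality]
  exact ha i j _ _ _ _

lemma glue_restrict (i : ι) : (glue 𝒰 a ha).restrict (le_iSup 𝒰 i) = a i := by
  ext V hV x
  exact glue_app_of_le 𝒰 a ha i hV x

end Glue

@[simp] lemma id_comp (a : LocalHom M N U) : (LocalHom.id M U).comp a = a := by
  ext V hV x; rfl

@[simp] lemma comp_id (a : LocalHom M N U) : a.comp (LocalHom.id N U) = a := by
  ext V hV x; rfl

lemma comp_assoc {Q : X.Modules} (a : LocalHom M N U) (b : LocalHom N P U) (c : LocalHom P Q U) :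
    (a.comp b).comp c = a.comp (b.comp c) := by
  ext V hV x; rfl

@[simp] lemma restrict_id {U' : X.Opens} (h : U' ≤ U) :
    (LocalHom.id M U).restrict h = LocalHom.id M U' := by
  ext V hV x; rfl

lemma restrict_comp (a : LocalHom M N U) (b : LocalHom N P U) {U' : X.Opens} (h : U' ≤ U) :
    (a.comp b).restrict h = (a.restrict h).comp (b.restrict h) := by
  ext V hV x; rfl

@[simp] lemma restrict_restrict (a : LocalHom M N U) {U' U'' : X.Opens} (h : U' ≤ U)
    (h' : U'' ≤ U') : (a.restrict h).restrict h' = a.restrict (h'.trans h) := by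
  ext V hV x; rfl

@[simp] lemma restrict_self (a : LocalHom M N U) : a.restrict (le_refl U) = a := by
  ext V hV x; rfl

@[simp] lemma ofHom_id (M : X.Modules) (U : X.Opens) : ofHom (𝟙 M) U = LocalHom.id M U := by
  ext V hV x; rfl

lemma ofHom_comp (φ : M ⟶ N) (ψ : N ⟶ P) (U : X.Opens) :
    ofHom (φ ≫ ψ) U = (ofHom φ U).comp (ofHom ψ U) := by
  ext V hV x; rfl

@[simp] lemma ofHom_restrict (φ : M ⟶ N) {U U' : X.Opens} (h : U' ≤ U) :
    (ofHom φ U).restrict h = ofHom φ U' := by
  ext V hV x; rfl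

@[simp] lemma toHom_id (M : X.Modules) : toHom (LocalHom.id M ⊤) = 𝟙 M := by
  ext V x; rfl

lemma toHom_comp (a : LocalHom M N ⊤) (b : LocalHom N P ⊤) :
    toHom (a.comp b) = toHom a ≫ toHom b := by
  ext V x; rfl

/-- Global morphisms are the same as local homomorphisms on `⊤`. -/
def homEquiv : (M ⟶ N) ≃ LocalHom M N ⊤ where
  toFun φ := ofHom φ ⊤
  invFun := toHom
  left_inv := toHom_ofHom
  right_inv := ofHom_toHom

end LocalHom

/-! ### Local isomorphisms -/

/-- An isomorphism `M|_U ≅ N|_U`, described on sections over opens `V ≤ U`. -/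
structure LocalIso (M N : X.Modules) (U : X.Opens) where
  /-- the forward map -/
  hom : LocalHom M N U
  /-- the inverse map -/
  inv : LocalHom N M U
  hom_inv_id : hom.comp inv = LocalHom.id M U
  inv_hom_id : inv.comp hom = LocalHom.id N U

namespace LocalIso

variable {M N P : X.Modules} {U : X.Opens}

@[ext]
lemma ext {e e' : LocalIso M N U} (h : e.hom = e'.hom) : e = e' := by
  have : e.inv = e'.inv := by
    calc e.inv = e.inv.comp (e'.hom.comp e'.inv) := by rw [e'.hom_inv_id, LocalHom.comp_id]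
      _ = (e.inv.comp e.hom).comp e'.inv := by rw [← h, LocalHom.comp_assoc]
      _ = e'.inv := by rw [e.inv_hom_id, LocalHom.id_comp]
  cases e; cases e'
  simp only at h this
  subst h this
  rfl

/-- The identity local isomorphism. -/
def refl (M : X.Modules) (U : X.Opens) : LocalIso M M U where
  hom := LocalHom.id M U
  inv := LocalHom.id M U
  hom_inv_id := LocalHom.id_comp _
  inv_hom_id := LocalHom.id_comp _

/-- The inverse local isomorphism. -/
def symm (e : LocalIso M N U) : LocalIso N M U where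
  hom := e.inv
  inv := e.hom
  hom_inv_id := e.inv_hom_id
  inv_hom_id := e.hom_inv_id

/-- Composition of local isomorphisms. -/
def trans (e : LocalIso M N U) (e' : LocalIso N P U) : LocalIso M P U where
  hom := e.hom.comp e'.hom
  inv := e'.inv.comp e.inv
  hom_inv_id := by
    rw [LocalHom.comp_assoc, ← LocalHom.comp_assoc e'.hom, e'.hom_inv_id, LocalHom.id_comp,
      e.hom_inv_id]
  inv_hom_id := by
    rw [LocalHom.comp_assoc, ← LocalHom.comp_assoc e.inv, e.inv_hom_id, LocalHom.id_comp,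
      e'.inv_hom_id]

/-- Restriction of a local isomorphism to a smaller open. -/
def restrict (e : LocalIso M N U) {U' : X.Opens} (h : U' ≤ U) : LocalIso M N U' where
  hom := e.hom.restrict h
  inv := e.inv.restrict h
  hom_inv_id := by rw [← LocalHom.restrict_comp, e.hom_inv_id, LocalHom.restrict_id]
  inv_hom_id := by rw [← LocalHom.restrict_comp, e.inv_hom_id, LocalHom.restrict_id]

@[simp] lemma refl_hom (M : X.Modules) (U : X.Opens) : (refl M U).hom = LocalHom.id M U := rfl
@[simp] lemma symm_hom (e : LocalIso M N U) : e.symm.hom = e.inv := rfl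
@[simp] lemma symm_inv (e : LocalIso M N U) : e.symm.inv = e.hom := rfl
@[simp] lemma trans_hom (e : LocalIso M N U) (e' : LocalIso N P U) :
    (e.trans e').hom = e.hom.comp e'.hom := rfl
@[simp] lemma trans_inv (e : LocalIso M N U) (e' : LocalIso N P U) :
    (e.trans e').inv = e'.inv.comp e.inv := rfl
@[simp] lemma restrict_hom (e : LocalIso M N U) {U' : X.Opens} (h : U' ≤ U) :
    (e.restrict h).hom = e.hom.restrict h := rfl
@[simp] lemma restrict_inv (e : LocalIso M N U) {U' : X.Opens} (h : U' ≤ U) :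
    (e.restrict h).inv = e.inv.restrict h := rfl

lemma inv_hom_apply (e : LocalIso M N U) (V : X.Opens) (hV : V ≤ U) (x : Γ(M, V)) :
    e.inv.app V hV (e.hom.app V hV x) = x := by
  have := congrArg (fun a : LocalHom M M U => a.app V hV x) e.hom_inv_id
  exact this

lemma hom_inv_apply (e : LocalIso M N U) (V : X.Opens) (hV : V ≤ U) (x : Γ(N, V)) :
    e.hom.app V hV (e.inv.app V hV x) = x := by
  have := congrArg (fun a : LocalHom N N U => a.app V hV x) e.inv_hom_id
  exact this

/-- A global isomorphism induces a local isomorphism on every open. -/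
def ofIso (e : M ≅ N) (U : X.Opens) : LocalIso M N U where
  hom := LocalHom.ofHom e.hom U
  inv := LocalHom.ofHom e.inv U
  hom_inv_id := by rw [← LocalHom.ofHom_comp, e.hom_inv_id, LocalHom.ofHom_id]
  inv_hom_id := by rw [← LocalHom.ofHom_comp, e.inv_hom_id, LocalHom.ofHom_id]

/-- A local isomorphism on `⊤` is a global isomorphism. -/
def toIso (e : LocalIso M N ⊤) : M ≅ N where
  hom := LocalHom.toHom e.hom
  inv := LocalHom.toHom e.inv
  hom_inv_id := by rw [← LocalHom.toHom_comp, e.hom_inv_id, LocalHom.toHom_id]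
  inv_hom_id := by rw [← LocalHom.toHom_comp, e.inv_hom_id, LocalHom.toHom_id]

@[simp] lemma toIso_hom (e : LocalIso M N ⊤) : (toIso e).hom = LocalHom.toHom e.hom := rfl
@[simp] lemma toIso_inv (e : LocalIso M N ⊤) : (toIso e).inv = LocalHom.toHom e.inv := rfl

section Glue

variable {ι : Type*} (𝒰 : ι → X.Opens) (e : ∀ i, LocalIso M N (𝒰 i))
  (he : ∀ i j (V : X.Opens) (hi : V ≤ 𝒰 i) (hj : V ≤ 𝒰 j) (x : Γ(M, V)),
    (e i).hom.app V hi x = (e j).hom.app V hj x)

include he in
lemma inv_compat (i j : ι) (V : X.Opens) (hi : V ≤ 𝒰 i) (hj : V ≤ 𝒰 j) (y : Γ(N, V)) :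
    (e i).inv.app V hi y = (e j).inv.app V hj y := by
  have h1 := (e j).hom_inv_apply V hj y
  have h2 := he i j V hi hj ((e j).inv.app V hj y)
  rw [h1] at h2
  calc (e i).inv.app V hi y
      = (e i).inv.app V hi ((e i).hom.app V hi ((e j).inv.app V hj y)) := by rw [h2]
    _ = (e j).inv.app V hj y := (e i).inv_hom_apply V hi _

/-- Gluing of a compatible family of local isomorphisms. -/
def glue : LocalIso M N (⨆ i, 𝒰 i) where
  hom := LocalHom.glue 𝒰 (fun i => (e i).hom) he
  inv := LocalHom.glue 𝒰 (fun i => (e i).inv) (inv_compat 𝒰 e he)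
  hom_inv_id := by
    refine LocalHom.eq_of_cover 𝒰 le_rfl _ _ (fun i V hV hVi x => ?_)
    rw [LocalHom.comp_app, LocalHom.glue_app_of_le 𝒰 _ he i hVi,
      LocalHom.glue_app_of_le 𝒰 _ (inv_compat 𝒰 e he) i hVi, (e i).inv_hom_apply]
    rfl
  inv_hom_id := by
    refine LocalHom.eq_of_cover 𝒰 le_rfl _ _ (fun i V hV hVi x => ?_)
    rw [LocalHom.comp_app, LocalHom.glue_app_of_le 𝒰 _ (inv_compat 𝒰 e he) i hVi,
      LocalHom.glue_app_of_le 𝒰 _ he i hVi, (e i).hom_inv_apply]
    rfl

lemma glue_restrict (i : ι) : (glue 𝒰 e he).restrict (le_iSup 𝒰 i) = e i := by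
  ext : 1
  exact LocalHom.glue_restrict 𝒰 _ he i

end Glue

end LocalIso

end

end Fermat.Agent.JAC.Glue.HomGlue1
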