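/-
Programme JAC (S25), work package B4 (Zariski descent for `Scheme.Modules`), part G1b:
dictionary between morphisms of restrictions `M.restrict f ⟶ N.restrict f` along an open
immersion `f : Y ⟶ X` and local homomorphisms `LocalHom M N f.opensRange` (HomGlue1);
local isomorphisms; gluing of morphisms / isomorphisms along a `Scheme.OpenCover`.
-/
import Fermat.Agent.JAC.Glue.HomGlue1
import Mathlib.AlgebraicGeometry.Cover.Open

set_option autoImplicit false

universe u

open CategoryTheory AlgebraicGeometry TopologicalSpace Opposite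

namespace Fermat.Agent.JAC.Glue.RestrictHom1

open Fermat.Agent.JAC.Glue.HomGlue1

noncomputable section

lemma hom_res {Y : Scheme.{u}} {M N : Y.Modules} (φ : M ⟶ N) {W W' : Y.Opens} (h : W' ≤ W)
    (x : Γ(M, W)) :
    res N h (φ.app W x) = φ.app W' (res M h x) := by
  have := φ.mapPresheaf.naturality (homOfLE h).op
  exact (congr($this x)).symm

lemma resO_eq_map {X : Scheme.{u}} {V W : X.Opens} (i : W ⟶ V) (r : Γ(X, V)) :
    X.presheaf.map i.op r = resO X (leOfHom i) r := rfl

variable {X Y : Scheme.{u}} (f : Y ⟶ X) [IsOpenImmersion f] {M N : X.Modules}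

/-- Sections of a restriction, read on `X`. -/
def ofR (M : X.Modules) (W : Y.Opens) : Γ(M.restrict f, W) →+ Γ(M, f ''ᵁ W) :=
  (M.restrictAppIso f W).hom.hom

/-- Sections on `X` over an image, read as sections of the restriction. -/
def toR (M : X.Modules) (W : Y.Opens) : Γ(M, f ''ᵁ W) →+ Γ(M.restrict f, W) :=
  (M.restrictAppIso f W).inv.hom

@[simp] lemma ofR_toR (W : Y.Opens) (x : Γ(M, f ''ᵁ W)) : ofR f M W (toR f M W x) = x := rfl
@[simp] lemma toR_ofR (W : Y.Opens) (x : Γ(M.restrict f, W)) : toR f M W (ofR f M W x) = x := rfl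

lemma ofR_res {W W' : Y.Opens} (h : W' ≤ W) (x : Γ(M.restrict f, W)) :
    ofR f M W' (res (M.restrict f) h x) = res M (f.image_mono h) (ofR f M W x) := rfl

lemma toR_res {W W' : Y.Opens} (h : W' ≤ W) (x : Γ(M, f ''ᵁ W)) :
    toR f M W' (res M (f.image_mono h) x) = res (M.restrict f) h (toR f M W x) := rfl

lemma ofR_smul (W : Y.Opens) (r : Γ(Y, W)) (x : Γ(M.restrict f, W)) :
    ofR f M W (r • x) = (f.appIso W).inv r • ofR f M W x := rfl

lemma toR_smul (W : Y.Opens) (r : Γ(X, f ''ᵁ W)) (x : Γ(M, f ''ᵁ W)) :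
    toR f M W (r • x) = (f.appIso W).hom r • toR f M W x := by
  apply (show Function.Injective (ofR f M W) from fun a b h => h)
  rw [ofR_smul, ofR_toR, ofR_toR]
  congr 1
  simp

/-- A local homomorphism on the range of an open immersion gives a morphism between
the restrictions. -/
def toRestrictHom (a : LocalHom M N f.opensRange) : M.restrict f ⟶ N.restrict f :=
  ⟨PresheafOfModules.homMk
    { app := fun W => AddCommGrpCat.ofHom (a.app (f ''ᵁ W.unop) (f.image_le_opensRange _))
      naturality := fun V W i => by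
        ext x
        exact (a.naturality (f.image_le_opensRange V.unop)
          (f.image_mono (leOfHom i.unop)) x).symm }
    (fun W r x => a.map_smul (f.image_le_opensRange W.unop) _ x)⟩

lemma toRestrictHom_app (a : LocalHom M N f.opensRange) (W : Y.Opens)
    (x : Γ(M.restrict f, W)) :
    (toRestrictHom f a).app W x =
      toR f N W (a.app (f ''ᵁ W) (f.image_le_opensRange _) (ofR f M W x)) := rfl

lemma image_preimage_of_le {V : X.Opens} (hV : V ≤ f.opensRange) : f ''ᵁ (f ⁻¹ᵁ V) = V := by
  rw [Scheme.Hom.image_preimage_eq_opensRange_inf]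
  exact inf_eq_right.mpr hV

/-- A morphism between restrictions along an open immersion gives a local homomorphism on
its range. -/
def ofRestrictHom (φ : M.restrict f ⟶ N.restrict f) : LocalHom M N f.opensRange where
  app V hV :=
    (res N (image_preimage_of_le f hV).ge).comp <| (ofR f N (f ⁻¹ᵁ V)).comp <|
      ((φ.app (f ⁻¹ᵁ V)).hom).comp <| (toR f M (f ⁻¹ᵁ V)).comp <|
        res M (image_preimage_of_le f hV).le
  naturality {V W} hV hWV x := by
    simp only [AddMonoidHom.comp_apply]
    have h1 : f ⁻¹ᵁ W ≤ f ⁻¹ᵁ V := fun _ hx => hWV hx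
    rw [res_res]
    have e1 : res M (image_preimage_of_le f (hWV.trans hV)).le (res M hWV x) =
        res M (f.image_mono h1) (res M (image_preimage_of_le f hV).le x) := by
      rw [res_res, res_res]
    rw [e1, toR_res f h1, ← hom_res φ h1, ofR_res f h1, res_res]
  map_smul {V} hV r x := by
    simp only [AddMonoidHom.comp_apply]
    rw [res_smul, toR_smul, Scheme.Modules.Hom.app_smul, ofR_smul, res_smul]
    congr 1
    have : (f.appIso (f ⁻¹ᵁ V)).inv ((f.appIso (f ⁻¹ᵁ V)).hom
      (resO X (image_preimage_of_le f hV).le r)) = resO X (image_preimage_of_le f hV).le r := by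
      simp
    rw [this, resO_resO, resO_self]


lemma ofRestrictHom_app (φ : M.restrict f ⟶ N.restrict f) {V : X.Opens}
    (hV : V ≤ f.opensRange) (x : Γ(M, V)) :
    (ofRestrictHom f φ).app V hV x =
      res N (image_preimage_of_le f hV).ge (ofR f N (f ⁻¹ᵁ V)
        (φ.app (f ⁻¹ᵁ V) (toR f M (f ⁻¹ᵁ V) (res M (image_preimage_of_le f hV).le x)))) := rfl

@[simp] lemma ofRestrictHom_toRestrictHom (a : LocalHom M N f.opensRange) :
    ofRestrictHom f (toRestrictHom f a) = a := by
  ext V hV x
  rw [ofRestrictHom_app, toRestrictHom_app, ofR_toR, ofR_toR,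
    a.naturality, res_res, res_self]

@[simp] lemma toRestrictHom_ofRestrictHom (φ : M.restrict f ⟶ N.restrict f) :
    toRestrictHom f (ofRestrictHom f φ) = φ := by
  ext W x
  rw [toRestrictHom_app, ofRestrictHom_app]
  have hW : W ≤ f ⁻¹ᵁ (f ''ᵁ W) := (f.preimage_image_eq W).ge
  have hW' : f ⁻¹ᵁ (f ''ᵁ W) ≤ W := (f.preimage_image_eq W).le
  have e1 : res M (image_preimage_of_le f (f.image_le_opensRange W)).le (ofR f M W x) =
      ofR f M _ (res (M.restrict f) hW' x) := by
    rw [ofR_res f hW']
  rw [e1, toR_ofR, ← hom_res φ hW', ofR_res f hW', res_res, res_self, toR_ofR]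

/-- Morphisms between restrictions along an open immersion are the same as local
homomorphisms on its range. -/
def restrictHomEquiv : (M.restrict f ⟶ N.restrict f) ≃ LocalHom M N f.opensRange where
  toFun := ofRestrictHom f
  invFun a := toRestrictHom f a
  left_inv := toRestrictHom_ofRestrictHom f
  right_inv := ofRestrictHom_toRestrictHom f


/-! ### Functoriality of the dictionary -/

@[simp] lemma toRestrictHom_id (M : X.Modules) :
    toRestrictHom f (LocalHom.id M f.opensRange) = 𝟙 (M.restrict f) := by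
  ext W x; rfl

lemma toRestrictHom_comp {P : X.Modules} (a : LocalHom M N f.opensRange)
    (b : LocalHom N P f.opensRange) :
    toRestrictHom f (a.comp b) = toRestrictHom f a ≫ toRestrictHom f b := by
  ext W x; rfl

@[simp] lemma ofRestrictHom_id (M : X.Modules) :
    ofRestrictHom f (𝟙 (M.restrict f)) = LocalHom.id M f.opensRange := by
  rw [← toRestrictHom_id, ofRestrictHom_toRestrictHom]

lemma ofRestrictHom_comp {P : X.Modules} (φ : M.restrict f ⟶ N.restrict f)
    (ψ : N.restrict f ⟶ P.restrict f) :
    ofRestrictHom f (φ ≫ ψ) = (ofRestrictHom f φ).comp (ofRestrictHom f ψ) := by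
  apply (restrictHomEquiv f).symm.injective
  change toRestrictHom f _ = toRestrictHom f _
  rw [toRestrictHom_comp, toRestrictHom_ofRestrictHom, toRestrictHom_ofRestrictHom,
    toRestrictHom_ofRestrictHom]

lemma toRestrictHom_ofHom (ψ : M ⟶ N) :
    toRestrictHom f (LocalHom.ofHom ψ f.opensRange) =
      (Scheme.Modules.restrictFunctor f).map ψ := by
  ext W x; rfl

lemma ofRestrictHom_map (ψ : M ⟶ N) :
    ofRestrictHom f ((Scheme.Modules.restrictFunctor f).map ψ) =
      LocalHom.ofHom ψ f.opensRange := by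
  rw [← toRestrictHom_ofHom, ofRestrictHom_toRestrictHom]


/-! ### Isomorphisms -/

/-- An isomorphism between restrictions gives a local isomorphism on the range. -/
def ofRestrictIso (e : M.restrict f ≅ N.restrict f) : LocalIso M N f.opensRange where
  hom := ofRestrictHom f e.hom
  inv := ofRestrictHom f e.inv
  hom_inv_id := by rw [← ofRestrictHom_comp, e.hom_inv_id, ofRestrictHom_id]
  inv_hom_id := by rw [← ofRestrictHom_comp, e.inv_hom_id, ofRestrictHom_id]

/-- A local isomorphism on the range gives an isomorphism between restrictions. -/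
def toRestrictIso (e : LocalIso M N f.opensRange) : M.restrict f ≅ N.restrict f where
  hom := toRestrictHom f e.hom
  inv := toRestrictHom f e.inv
  hom_inv_id := by rw [← toRestrictHom_comp, e.hom_inv_id, toRestrictHom_id]
  inv_hom_id := by rw [← toRestrictHom_comp, e.inv_hom_id, toRestrictHom_id]

@[simp] lemma ofRestrictIso_hom (e : M.restrict f ≅ N.restrict f) :
    (ofRestrictIso f e).hom = ofRestrictHom f e.hom := rfl
@[simp] lemma toRestrictIso_hom (e : LocalIso M N f.opensRange) :
    (toRestrictIso f e).hom = toRestrictHom f e.hom := rfl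

/-- Isomorphisms between restrictions along an open immersion are the same as local
isomorphisms on its range. -/
def restrictIsoEquiv : (M.restrict f ≅ N.restrict f) ≃ LocalIso M N f.opensRange where
  toFun := ofRestrictIso f
  invFun := toRestrictIso f
  left_inv e := by ext : 1; exact toRestrictHom_ofRestrictHom f e.hom
  right_inv e := by ext : 1; exact ofRestrictHom_toRestrictHom f e.hom

end

/-! ### Gluing along an open cover -/

noncomputable section OpenCover

universe v

variable {X : Scheme.{u}} (𝒰 : Scheme.OpenCover.{v} X) {M N : X.Modules}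

/-- Two morphisms that agree after restriction to all members of an open cover are equal. -/
theorem hom_ext_of_openCover {φ ψ : M ⟶ N}
    (h : ∀ i, (Scheme.Modules.restrictFunctor (𝒰.f i)).map φ =
      (Scheme.Modules.restrictFunctor (𝒰.f i)).map ψ) : φ = ψ := by
  apply LocalHom.homEquiv.injective
  refine LocalHom.eq_of_cover (fun i => (𝒰.f i).opensRange)
    (by rw [𝒰.iSup_opensRange]) _ _ ?_
  intro i V hV hVi x
  have := congrArg (ofRestrictHom (𝒰.f i)) (h i)
  rw [ofRestrictHom_map, ofRestrictHom_map] at this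
  exact congrArg (fun a : LocalHom M N _ => a.app V hVi x) this

/-- A family of morphisms between the restrictions to the members of an open cover is
compatible if the induced maps on sections over any open `V` of `X` contained in two members
agree. -/
def CompatibleHoms (g : ∀ i, M.restrict (𝒰.f i) ⟶ N.restrict (𝒰.f i)) : Prop :=
  ∀ i j (V : X.Opens) (hi : V ≤ (𝒰.f i).opensRange) (hj : V ≤ (𝒰.f j).opensRange) (x : Γ(M, V)),
    (ofRestrictHom (𝒰.f i) (g i)).app V hi x = (ofRestrictHom (𝒰.f j) (g j)).app V hj x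

variable {𝒰}

/-- Gluing a compatible family of morphisms. -/
def glueHom (g : ∀ i, M.restrict (𝒰.f i) ⟶ N.restrict (𝒰.f i)) (hg : CompatibleHoms 𝒰 g) :
    M ⟶ N :=
  LocalHom.toHom ((LocalHom.glue (fun i => (𝒰.f i).opensRange)
    (fun i => ofRestrictHom (𝒰.f i) (g i)) hg).restrict (by rw [𝒰.iSup_opensRange]))

theorem restrict_glueHom (g : ∀ i, M.restrict (𝒰.f i) ⟶ N.restrict (𝒰.f i))
    (hg : CompatibleHoms 𝒰 g) (i : 𝒰.I₀) :
    (Scheme.Modules.restrictFunctor (𝒰.f i)).map (glueHom g hg) = g i := by
  apply (restrictHomEquiv (𝒰.f i)).injective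
  change ofRestrictHom _ _ = ofRestrictHom _ _
  rw [ofRestrictHom_map]
  ext V hV x
  exact LocalHom.glue_app_of_le (fun i => (𝒰.f i).opensRange)
    (fun i => ofRestrictHom (𝒰.f i) (g i)) hg i hV x

theorem compatibleHoms_restrict (φ : M ⟶ N) :
    CompatibleHoms 𝒰 (fun i => (Scheme.Modules.restrictFunctor (𝒰.f i)).map φ) := by
  intro i j V hi hj x
  rw [ofRestrictHom_map, ofRestrictHom_map]
  rfl

/-- Morphisms of sheaves of modules glue uniquely along open covers. -/
theorem existsUnique_hom_of_openCover (g : ∀ i, M.restrict (𝒰.f i) ⟶ N.restrict (𝒰.f i))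
    (hg : CompatibleHoms 𝒰 g) :
    ∃! φ : M ⟶ N, ∀ i, (Scheme.Modules.restrictFunctor (𝒰.f i)).map φ = g i :=
  ⟨glueHom g hg, restrict_glueHom g hg, fun _ hψ =>
    hom_ext_of_openCover 𝒰 (fun i => (hψ i).trans (restrict_glueHom g hg i).symm)⟩

/-- Gluing a family of isomorphisms whose forward maps are compatible. -/
def glueIso (e : ∀ i, M.restrict (𝒰.f i) ≅ N.restrict (𝒰.f i))
    (he : CompatibleHoms 𝒰 (fun i => (e i).hom)) : M ≅ N :=
  LocalIso.toIso ((LocalIso.glue (fun i => (𝒰.f i).opensRange)
    (fun i => ofRestrictIso (𝒰.f i) (e i)) he).restrict (by rw [𝒰.iSup_opensRange]))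

theorem glueIso_hom (e : ∀ i, M.restrict (𝒰.f i) ≅ N.restrict (𝒰.f i))
    (he : CompatibleHoms 𝒰 (fun i => (e i).hom)) :
    (glueIso e he).hom = glueHom (fun i => (e i).hom) he := rfl

theorem restrict_glueIso_hom (e : ∀ i, M.restrict (𝒰.f i) ≅ N.restrict (𝒰.f i))
    (he : CompatibleHoms 𝒰 (fun i => (e i).hom)) (i : 𝒰.I₀) :
    (Scheme.Modules.restrictFunctor (𝒰.f i)).map (glueIso e he).hom = (e i).hom :=
  restrict_glueHom _ he i

/-- A morphism which is an isomorphism on each member of an open cover is an isomorphism. -/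
theorem isIso_of_openCover (φ : M ⟶ N)
    (h : ∀ i, IsIso ((Scheme.Modules.restrictFunctor (𝒰.f i)).map φ)) : IsIso φ := by
  let e : ∀ i, M.restrict (𝒰.f i) ≅ N.restrict (𝒰.f i) := fun i => @asIso _ _ _ _ _ (h i)
  have he : CompatibleHoms 𝒰 (fun i => (e i).hom) := compatibleHoms_restrict φ
  have hφ : φ = (glueIso e he).hom :=
    hom_ext_of_openCover 𝒰 (fun i => (restrict_glueIso_hom e he i).symm)
  rw [hφ]
  exact Iso.isIso_hom _

end OpenCover

end Fermat.Agent.JAC.Glue.RestrictHom1
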