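/-
JAC programme, work package B4b (helper23), bricks (P) + (I):
**bridge `restrictFunctor` ↔ `pullback` and stability of invertibility.**

* `restrictIsoPullback f M : M.restrict f ≅ (pullback f).obj M` (natural: `restrictIsoPullback_naturality`),
  `trivRestrictEquivPullback` : trivialisations of the restriction ≃ trivialisations of the pullback.
* `trivComp`, `trivCongr`, `trivOfLE`, `trivOpensRange` : transport of trivialisations
  `M.restrict f ≅ 𝒪` along compositions, equalities, smaller opens, the range of an open immersion.
* `isInvertible_iff_restrict` : the Prelude's `Scheme.Modules.IsInvertible` in `restrict` form.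
* `IsInvertible.of_iso`, `IsInvertible.restrict`, `isInvertible_of_cover` (invertibility is local
  for jointly surjective families of open immersions), `IsInvertible.exists_triv_le`.
-/
import Mathlib
import Fermat.Prelude.Def_AlgebraicGeometry_RelativePicardFunctor

set_option autoImplicit false

open CategoryTheory TopologicalSpace Opposite TopCat AlgebraicGeometry

universe u

namespace Fermat.Agent.JAC.Glue.InvStab23

open AlgebraicGeometry.Scheme.Modules

variable {X Y Z : Scheme.{u}}

/-- the structure sheaf as a module over itself -/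
noncomputable abbrev unitMod (X : Scheme.{u}) : X.Modules := SheafOfModules.unit X.ringCatSheaf

section Bridge

variable (f : Y ⟶ X) [IsOpenImmersion f]

/-- restriction along an open immersion is the pullback -/
noncomputable def restrictIsoPullback (M : X.Modules) :
    M.restrict f ≅ (Scheme.Modules.pullback f).obj M :=
  (restrictFunctorIsoPullback f).app M

lemma restrictIsoPullback_naturality {M N : X.Modules} (g : M ⟶ N) :
    (restrictFunctor f).map g ≫ (restrictIsoPullback f N).hom =
      (restrictIsoPullback f M).hom ≫ (Scheme.Modules.pullback f).map g :=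
  (restrictFunctorIsoPullback f).hom.naturality g

lemma restrictIsoPullback_inv_naturality {M N : X.Modules} (g : M ⟶ N) :
    (Scheme.Modules.pullback f).map g ≫ (restrictIsoPullback f N).inv =
      (restrictIsoPullback f M).inv ≫ (restrictFunctor f).map g :=
  (restrictFunctorIsoPullback f).inv.naturality g

/-- a trivialisation of the restriction is the same as a trivialisation of the pullback -/
noncomputable def trivRestrictEquivPullback (M : X.Modules) :
    (M.restrict f ≅ unitMod Y) ≃ ((Scheme.Modules.pullback f).obj M ≅ unitMod Y) where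
  toFun t := (restrictIsoPullback f M).symm ≪≫ t
  invFun t := restrictIsoPullback f M ≪≫ t
  left_inv t := by ext1; simp
  right_inv t := by ext1; simp

end Bridge

section Triv

/-- a trivialisation over `f` restricts to a trivialisation over `g ≫ f` -/
noncomputable def trivComp (g : Z ⟶ Y) (f : Y ⟶ X) [IsOpenImmersion g] [IsOpenImmersion f]
    {M : X.Modules} (t : M.restrict f ≅ unitMod Y) : M.restrict (g ≫ f) ≅ unitMod Z :=
  (restrictFunctorComp g f).app M ≪≫ (restrictFunctor g).mapIso t ≪≫ restrictUnitIso g

/-- transport a trivialisation along an equality of open immersions -/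
noncomputable def trivCongr {f f' : Y ⟶ X} [IsOpenImmersion f] [IsOpenImmersion f'] (h : f = f')
    {M : X.Modules} (t : M.restrict f ≅ unitMod Y) : M.restrict f' ≅ unitMod Y :=
  (restrictFunctorCongr h).symm.app M ≪≫ t

/-- a trivialisation over `U` restricts to a trivialisation over any smaller open -/
noncomputable def trivOfLE {U V : X.Opens} (h : V ≤ U) {M : X.Modules}
    (t : M.restrict U.ι ≅ unitMod U.toScheme) : M.restrict V.ι ≅ unitMod V.toScheme :=
  trivCongr (X.homOfLE_ι h) (trivComp (X.homOfLE h) U.ι t)

/-- a trivialisation over an open immersion gives one over its range -/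
noncomputable def trivOpensRange (f : Y ⟶ X) [IsOpenImmersion f] {M : X.Modules}
    (t : M.restrict f ≅ unitMod Y) :
    M.restrict f.opensRange.ι ≅ unitMod f.opensRange.toScheme :=
  trivCongr f.isoOpensRange_inv_comp (trivComp f.isoOpensRange.inv f t)

end Triv


section Invertible

variable {M N : X.Modules}

/-- `IsInvertible` in terms of `restrictFunctor` instead of `pullback` -/
theorem isInvertible_iff_restrict :
    Scheme.Modules.IsInvertible M ↔
      ∀ x : X, ∃ U : X.Opens, x ∈ U ∧ Nonempty (M.restrict U.ι ≅ unitMod U.toScheme) := by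
  constructor
  · intro h x
    obtain ⟨U, hx, ⟨t⟩⟩ := h.exists_trivialization x
    exact ⟨U, hx, ⟨(trivRestrictEquivPullback U.ι M).symm t⟩⟩
  · intro h
    refine ⟨fun x => ?_⟩
    obtain ⟨U, hx, ⟨t⟩⟩ := h x
    exact ⟨U, hx, ⟨trivRestrictEquivPullback U.ι M t⟩⟩

/-- invertibility is invariant under isomorphism -/
theorem IsInvertible.of_iso (e : M ≅ N) (hM : Scheme.Modules.IsInvertible M) :
    Scheme.Modules.IsInvertible N := by
  refine ⟨fun x => ?_⟩
  obtain ⟨U, hx, ⟨t⟩⟩ := hM.exists_trivialization x
  exact ⟨U, hx, ⟨(Scheme.Modules.pullback U.ι).mapIso e.symm ≪≫ t⟩⟩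

theorem isInvertible_iff_of_iso (e : M ≅ N) :
    Scheme.Modules.IsInvertible M ↔ Scheme.Modules.IsInvertible N :=
  ⟨IsInvertible.of_iso e, IsInvertible.of_iso e.symm⟩

/-- the restriction of an invertible module along an open immersion is invertible -/
theorem IsInvertible.restrict (f : Y ⟶ X) [IsOpenImmersion f]
    (hM : Scheme.Modules.IsInvertible M) : Scheme.Modules.IsInvertible (M.restrict f) :=
  IsInvertible.of_iso (restrictIsoPullback f M).symm (hM.pullback f)

/-- a module which is trivial over an open immersion containing `x` in its range is trivial on an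
open neighbourhood of `x` -/
theorem exists_triv_of_openImmersion (f : Y ⟶ X) [IsOpenImmersion f]
    (t : M.restrict f ≅ unitMod Y) (x : X) (hx : x ∈ f.opensRange) :
    ∃ U : X.Opens, x ∈ U ∧ Nonempty (M.restrict U.ι ≅ unitMod U.toScheme) :=
  ⟨f.opensRange, hx, ⟨trivOpensRange f t⟩⟩

/-- **invertibility is local**: a module whose restrictions to the members of a jointly
surjective family of open immersions are invertible is invertible -/
theorem isInvertible_of_cover {ι : Type*} {Y : ι → Scheme.{u}} (j : ∀ i, Y i ⟶ X)
    [∀ i, IsOpenImmersion (j i)] (hj : ∀ x : X, ∃ i, x ∈ (j i).opensRange)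
    (h : ∀ i, Scheme.Modules.IsInvertible (M.restrict (j i))) :
    Scheme.Modules.IsInvertible M := by
  rw [isInvertible_iff_restrict]
  intro x
  obtain ⟨i, y, rfl⟩ := hj x
  obtain ⟨V, hy, ⟨t⟩⟩ := (isInvertible_iff_restrict.mp (h i)) y
  -- a trivialisation of `M` over `V.ι ≫ j i`
  let t' : M.restrict (V.ι ≫ j i) ≅ unitMod V.toScheme := (restrictFunctorComp V.ι (j i)).app M ≪≫ t
  refine exists_triv_of_openImmersion (V.ι ≫ j i) t' _ ?_
  exact ⟨⟨y, hy⟩, rfl⟩

/-- an invertible module is trivial on arbitrarily small opens -/
theorem IsInvertible.exists_triv_le (hM : Scheme.Modules.IsInvertible M) (x : X) (W : X.Opens)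
    (hxW : x ∈ W) :
    ∃ U : X.Opens, x ∈ U ∧ U ≤ W ∧ Nonempty (M.restrict U.ι ≅ unitMod U.toScheme) := by
  obtain ⟨U, hx, ⟨t⟩⟩ := (isInvertible_iff_restrict.mp hM) x
  exact ⟨U ⊓ W, ⟨hx, hxW⟩, inf_le_right, ⟨trivOfLE inf_le_left t⟩⟩

end Invertible

end Fermat.Agent.JAC.Glue.InvStab23
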