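/-
Programme JAC (S25), work package B4 (Zariski descent for `Scheme.Modules`), part G2:
gluing of OBJECTS.  Data: opens `U i` of a scheme `X`, modules `N i : X.Modules` (of which only the
sections over opens `V ≤ U i` matter; typically `N i` is the pushforward of a module living on
`U i`), transition maps `φ i j : LocalHom (N i) (N j) (U i ⊓ U j)` with `φ i i = id` and the
cocycle condition.  Output: `glued : X.Modules` with local isomorphisms
`iso i : LocalIso glued (N i) (U i)` compatible with the transitions.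
-/
import Fermat.Agent.JAC.Glue.HomGlue1

set_option autoImplicit false

universe u

open CategoryTheory AlgebraicGeometry TopologicalSpace Opposite

namespace Fermat.Agent.JAC.Glue.ModGlue1

open Fermat.Agent.JAC.Glue.HomGlue1

noncomputable section

/-- Gluing data for sheaves of modules on a scheme, in the language of `LocalHom`. -/
structure GlueData (X : Scheme.{u}) where
  /-- index type -/
  ι : Type u
  /-- the opens -/
  U : ι → X.Opens
  /-- the modules; only sections over opens contained in `U i` are used -/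
  N : ι → X.Modules
  /-- the transition maps -/
  φ : ∀ i j, LocalHom (N i) (N j) (U i ⊓ U j)
  φ_self : ∀ i (V : X.Opens) (hV : V ≤ U i ⊓ U i) (x : Γ(N i, V)), (φ i i).app V hV x = x
  cocycle : ∀ i j k (V : X.Opens) (hi : V ≤ U i) (hj : V ≤ U j) (hk : V ≤ U k) (x : Γ(N i, V)),
    (φ j k).app V (le_inf hj hk) ((φ i j).app V (le_inf hi hj) x) = (φ i k).app V (le_inf hi hk) x

namespace GlueData

variable {X : Scheme.{u}} (D : GlueData X)

lemma φ_symm (i j : D.ι) (V : X.Opens) (hi : V ≤ D.U i) (hj : V ≤ D.U j) (x : Γ(D.N i, V)) :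
    (D.φ j i).app V (le_inf hj hi) ((D.φ i j).app V (le_inf hi hj) x) = x := by
  rw [D.cocycle i j i V hi hj hi, D.φ_self]

/-- The compatibility condition defining sections of the glued module. -/
def IsSection (V : X.Opens) (s : ∀ i, Γ(D.N i, V ⊓ D.U i)) : Prop :=
  ∀ i j (W : X.Opens) (hi : W ≤ V ⊓ D.U i) (hj : W ≤ V ⊓ D.U j),
    (D.φ i j).app W (le_inf (hi.trans inf_le_right) (hj.trans inf_le_right)) (res (D.N i) hi (s i)) =
      res (D.N j) hj (s j)

/-- It suffices to check the compatibility on the triple intersections. -/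
lemma isSection_of_inf (V : X.Opens) (s : ∀ i, Γ(D.N i, V ⊓ D.U i))
    (h : ∀ i j, (D.φ i j).app (V ⊓ D.U i ⊓ D.U j)
        (le_inf (inf_le_left.trans inf_le_right) inf_le_right)
        (res (D.N i) inf_le_left (s i)) =
      res (D.N j) (le_inf (inf_le_left.trans inf_le_left) inf_le_right) (s j)) :
    D.IsSection V s := by
  intro i j W hi hj
  have hW : W ≤ V ⊓ D.U i ⊓ D.U j := le_inf hi (hj.trans inf_le_right)
  have := congrArg (res (D.N j) hW) (h i j)
  rw [(D.φ i j).naturality, res_res, res_res] at this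
  exact this

/-- The sections of the glued module over `V`, as a subgroup of the product. -/
def secSubgroup (V : X.Opens) : AddSubgroup (∀ i, Γ(D.N i, V ⊓ D.U i)) where
  carrier := {s | D.IsSection V s}
  zero_mem' := by
    intro i j W hi hj
    simp
  add_mem' := by
    intro s t hs ht i j W hi hj
    simp only [Pi.add_apply, map_add]
    rw [hs i j W hi hj, ht i j W hi hj]
  neg_mem' := by
    intro s hs i j W hi hj
    simp only [Pi.neg_apply, map_neg]
    rw [hs i j W hi hj]

/-- The sections of the glued module over `V`. -/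
abbrev Sec (V : X.Opens) : Type u := D.secSubgroup V

variable {D}

lemma Sec.isSection {V : X.Opens} (s : D.Sec V) : D.IsSection V s.1 := s.2

@[ext] lemma Sec.ext {V : X.Opens} {s t : D.Sec V} (h : ∀ i, s.1 i = t.1 i) : s = t :=
  Subtype.ext (funext h)

variable (D)

/-- Restriction of sections of the glued module. -/
def secRes {V V' : X.Opens} (h : V' ≤ V) : D.Sec V →+ D.Sec V' where
  toFun s := ⟨fun i => res (D.N i) (inf_le_inf_right _ h) (s.1 i), by
    intro i j W hi hj
    rw [res_res, res_res]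
    exact s.2 i j W (hi.trans (inf_le_inf_right _ h)) (hj.trans (inf_le_inf_right _ h))⟩
  map_zero' := by ext i; simp
  map_add' s t := by ext i; simp

@[simp] lemma secRes_val {V V' : X.Opens} (h : V' ≤ V) (s : D.Sec V) (i : D.ι) :
    (D.secRes h s).1 i = res (D.N i) (inf_le_inf_right _ h) (s.1 i) := rfl

lemma secRes_self {V : X.Opens} (s : D.Sec V) : D.secRes (le_refl V) s = s := by
  ext i; simp

lemma secRes_secRes {V V' V'' : X.Opens} (h : V' ≤ V) (h' : V'' ≤ V') (s : D.Sec V) :
    D.secRes h' (D.secRes h s) = D.secRes (h'.trans h) s := by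
  ext i; simp

/-- The restriction `Γ(X, V) → Γ(X, V ⊓ U i)`. -/
def rU (V : X.Opens) (i : D.ι) : Γ(X, V) →+* Γ(X, V ⊓ D.U i) := resO X inf_le_left

/-- The module structure on sections. -/
instance secModule (V : X.Opens) : Module Γ(X, V) (D.Sec V) where
  smul r s := ⟨fun i => D.rU V i r • s.1 i, by
    intro i j W hi hj
    rw [res_smul, res_smul, (D.φ i j).map_smul, s.2 i j W hi hj]
    simp only [rU, resO_resO]⟩
  one_smul s := by
    ext i
    change D.rU V i 1 • s.1 i = s.1 i
    rw [map_one, one_smul]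
  mul_smul r r' s := by
    ext i
    change D.rU V i (r * r') • s.1 i = D.rU V i r • (D.rU V i r' • s.1 i)
    rw [map_mul, mul_smul]
  smul_zero r := by
    ext i
    change D.rU V i r • (0 : Γ(D.N i, V ⊓ D.U i)) = 0
    rw [smul_zero]
  smul_add r s t := by
    ext i
    change D.rU V i r • (s.1 i + t.1 i) = D.rU V i r • s.1 i + D.rU V i r • t.1 i
    rw [smul_add]
  add_smul r r' s := by
    ext i
    change D.rU V i (r + r') • s.1 i = D.rU V i r • s.1 i + D.rU V i r' • s.1 i
    rw [map_add, add_smul]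
  zero_smul s := by
    ext i
    change D.rU V i 0 • s.1 i = 0
    rw [map_zero, zero_smul]

@[simp] lemma smul_val {V : X.Opens} (r : Γ(X, V)) (s : D.Sec V) (i : D.ι) :
    (r • s).1 i = D.rU V i r • s.1 i := rfl

lemma secRes_smul {V V' : X.Opens} (h : V' ≤ V) (r : Γ(X, V)) (s : D.Sec V) :
    D.secRes h (r • s) = resO X h r • D.secRes h s := by
  ext i
  simp only [secRes_val, smul_val]
  rw [res_smul]
  simp only [rU, resO_resO]

/-! ### The glued presheaf of modules -/

/-- The underlying presheaf of abelian groups of the glued module. -/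
def abPresheaf : TopCat.Presheaf Ab X where
  obj V := AddCommGrpCat.of (D.Sec V.unop)
  map {V W} i := AddCommGrpCat.ofHom (D.secRes (leOfHom i.unop))
  map_id V := by
    refine AddCommGrpCat.hom_ext (AddMonoidHom.ext fun s => ?_)
    exact D.secRes_self s
  map_comp i j := by
    refine AddCommGrpCat.hom_ext (AddMonoidHom.ext fun s => ?_)
    exact (D.secRes_secRes (leOfHom i.unop) (leOfHom j.unop) s).symm

lemma abPresheaf_map_apply {V W : X.Opens} (i : W ⟶ V) (s : D.Sec V) :
    D.abPresheaf.map i.op s = D.secRes (leOfHom i) s := rfl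

instance (V : (Opens X)ᵒᵖ) : Module (X.ringCatSheaf.obj.obj V) (D.abPresheaf.obj V) :=
  D.secModule V.unop

/-- The glued presheaf of modules. -/
def presheafOfModules : PresheafOfModules X.ringCatSheaf.obj :=
  PresheafOfModules.ofPresheaf D.abPresheaf (fun _ _ i r s => D.secRes_smul (leOfHom i.unop) r s)

section Sheaf

variable {κ : Type u} (𝒱 : κ → X.Opens) (sf : ∀ a, D.Sec (𝒱 a))
  (hsf : ∀ a b, D.secRes (inf_le_left : 𝒱 a ⊓ 𝒱 b ≤ 𝒱 a) (sf a) =
    D.secRes (inf_le_right : 𝒱 a ⊓ 𝒱 b ≤ 𝒱 b) (sf b))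

include hsf in
lemma sheaf_aux (i : D.ι) :
    ∃! t : Γ(D.N i, (⨆ a, 𝒱 a) ⊓ D.U i), ∀ a,
      res (D.N i) (inf_le_left : ((⨆ a, 𝒱 a) ⊓ D.U i) ⊓ 𝒱 a ≤ (⨆ a, 𝒱 a) ⊓ D.U i) t =
        res (D.N i) (le_inf inf_le_right (inf_le_left.trans inf_le_right)) ((sf a).1 i) := by
  refine existsUnique_glue (D.N i) 𝒱 inf_le_left _ (fun a b => ?_)
  rw [res_res, res_res]
  have h := congrArg (fun t : D.Sec (𝒱 a ⊓ 𝒱 b) => t.1 i) (hsf a b)
  simp only [secRes_val] at h
  have hle : ((⨆ a, 𝒱 a) ⊓ D.U i) ⊓ 𝒱 a ⊓ (((⨆ a, 𝒱 a) ⊓ D.U i) ⊓ 𝒱 b) ≤ 𝒱 a ⊓ 𝒱 b ⊓ D.U i :=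
    le_inf (le_inf (inf_le_left.trans inf_le_right) (inf_le_right.trans inf_le_right))
      (inf_le_left.trans (inf_le_left.trans inf_le_right))
  have h' := congrArg (res (D.N i) hle) h
  rw [res_res, res_res] at h'
  exact h'

/-- The components of the glued section. -/
def sheafGlueVal (i : D.ι) : Γ(D.N i, (⨆ a, 𝒱 a) ⊓ D.U i) := (D.sheaf_aux 𝒱 sf hsf i).choose

lemma res_sheafGlueVal (i : D.ι) (a : κ) :
    res (D.N i) (inf_le_inf_right _ (le_iSup 𝒱 a)) (D.sheafGlueVal 𝒱 sf hsf i) = (sf a).1 i := by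
  have h := (D.sheaf_aux 𝒱 sf hsf i).choose_spec.1 a
  have hle : 𝒱 a ⊓ D.U i ≤ ((⨆ a, 𝒱 a) ⊓ D.U i) ⊓ 𝒱 a :=
    le_inf (inf_le_inf_right _ (le_iSup 𝒱 a)) inf_le_left
  have h' := congrArg (res (D.N i) hle) h
  rw [res_res, res_res, res_self] at h'
  exact h'

lemma sheafGlueVal_unique (i : D.ι) (t : Γ(D.N i, (⨆ a, 𝒱 a) ⊓ D.U i))
    (ht : ∀ a, res (D.N i) (inf_le_inf_right _ (le_iSup 𝒱 a)) t = (sf a).1 i) :
    t = D.sheafGlueVal 𝒱 sf hsf i := by
  refine (D.sheaf_aux 𝒱 sf hsf i).choose_spec.2 t (fun a => ?_)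
  rw [← ht a, res_res]

lemma isSection_sheafGlueVal : D.IsSection (⨆ a, 𝒱 a) (D.sheafGlueVal 𝒱 sf hsf) := by
  intro i j W hi hj
  refine eq_of_res_eq (D.N j) 𝒱 (hi.trans inf_le_left) _ _ (fun a => ?_)
  rw [(D.φ i j).naturality, res_res, res_res]
  have hWi : W ⊓ 𝒱 a ≤ 𝒱 a ⊓ D.U i := le_inf inf_le_right (inf_le_left.trans (hi.trans inf_le_right))
  have hWj : W ⊓ 𝒱 a ≤ 𝒱 a ⊓ D.U j := le_inf inf_le_right (inf_le_left.trans (hj.trans inf_le_right))
  have e1 : res (D.N i) (inf_le_left.trans hi : W ⊓ 𝒱 a ≤ _) (D.sheafGlueVal 𝒱 sf hsf i) =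
      res (D.N i) hWi ((sf a).1 i) := by
    rw [← D.res_sheafGlueVal 𝒱 sf hsf i a, res_res]
  have e2 : res (D.N j) (inf_le_left.trans hj : W ⊓ 𝒱 a ≤ _) (D.sheafGlueVal 𝒱 sf hsf j) =
      res (D.N j) hWj ((sf a).1 j) := by
    rw [← D.res_sheafGlueVal 𝒱 sf hsf j a, res_res]
  rw [e1, e2]
  exact (sf a).2 i j _ hWi hWj

end Sheaf

lemma isSheaf_abPresheaf : D.abPresheaf.IsSheaf := by
  rw [TopCat.Presheaf.isSheaf_iff_isSheafUniqueGluing]
  intro κ 𝒱 sf hsf
  have hcomp : ∀ a b, D.secRes (inf_le_left : 𝒱 a ⊓ 𝒱 b ≤ 𝒱 a) (sf a) =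
      D.secRes (inf_le_right : 𝒱 a ⊓ 𝒱 b ≤ 𝒱 b) (sf b) := fun a b => hsf a b
  refine ⟨⟨D.sheafGlueVal 𝒱 sf hcomp, D.isSection_sheafGlueVal 𝒱 sf hcomp⟩, ?_, ?_⟩
  · intro a
    refine Sec.ext (fun i => ?_)
    exact D.res_sheafGlueVal 𝒱 sf hcomp i a
  · intro t ht
    refine Sec.ext (fun i => ?_)
    refine D.sheafGlueVal_unique 𝒱 sf hcomp i _ (fun a => ?_)
    exact congrArg (fun t : D.Sec (𝒱 a) => t.1 i) (ht a)

/-- The glued sheaf of modules. -/
def glued : X.Modules where
  val := D.presheafOfModules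
  isSheaf := D.isSheaf_abPresheaf

/-! ### Sections of the glued module and the local isomorphisms -/

/-- Sections of the glued module are compatible families. -/
def ofSec {V : X.Opens} : D.Sec V →+ Γ(D.glued, V) := AddMonoidHom.id _

/-- Sections of the glued module are compatible families. -/
def toSec {V : X.Opens} : Γ(D.glued, V) →+ D.Sec V := AddMonoidHom.id _

@[simp] lemma toSec_ofSec {V : X.Opens} (s : D.Sec V) : D.toSec (D.ofSec s) = s := rfl
@[simp] lemma ofSec_toSec {V : X.Opens} (s : Γ(D.glued, V)) : D.ofSec (D.toSec s) = s := rfl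

lemma toSec_injective {V : X.Opens} {s t : Γ(D.glued, V)} (h : D.toSec s = D.toSec t) : s = t := h

lemma toSec_res {V V' : X.Opens} (h : V' ≤ V) (s : Γ(D.glued, V)) :
    D.toSec (res D.glued h s) = D.secRes h (D.toSec s) := rfl

lemma toSec_smul {V : X.Opens} (r : Γ(X, V)) (s : Γ(D.glued, V)) :
    D.toSec (r • s) = r • D.toSec s := rfl

/-- The projection of the glued module to the `i`-th piece, over `U i`. -/
def isoHom (i : D.ι) : LocalHom D.glued (D.N i) (D.U i) where
  app V hV :=
    { toFun := fun s => res (D.N i) (le_inf le_rfl hV) ((D.toSec s).1 i)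
      map_zero' := by simp
      map_add' := fun s t => by
        rw [map_add]
        change res (D.N i) _ ((D.toSec s).1 i + (D.toSec t).1 i) = _
        rw [map_add] }
  naturality {V W} hV hWV s := by
    change res (D.N i) hWV (res (D.N i) _ ((D.toSec s).1 i)) =
      res (D.N i) _ ((D.toSec (res D.glued hWV s)).1 i)
    rw [toSec_res, secRes_val, res_res, res_res]
  map_smul {V} hV r s := by
    change res (D.N i) _ ((D.toSec (r • s)).1 i) = r • res (D.N i) _ ((D.toSec s).1 i)
    rw [toSec_smul, smul_val, res_smul]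
    simp only [rU, resO_resO, resO_self]

lemma isoHom_app (i : D.ι) {V : X.Opens} (hV : V ≤ D.U i) (s : Γ(D.glued, V)) :
    (D.isoHom i).app V hV s = res (D.N i) (le_inf le_rfl hV) ((D.toSec s).1 i) := rfl

/-- The family of sections over `V ≤ U i` of all pieces induced by a section of the `i`-th piece. -/
def isoInvSec (i : D.ι) {V : X.Opens} (hV : V ≤ D.U i) (t : Γ(D.N i, V)) : D.Sec V :=
  ⟨fun j => (D.φ i j).app (V ⊓ D.U j) (le_inf (inf_le_left.trans hV) inf_le_right)
      (res (D.N i) inf_le_left t), by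
    intro j k W hj hk
    rw [(D.φ i j).naturality, (D.φ i k).naturality, res_res, res_res]
    exact D.cocycle i j k W ((hj.trans inf_le_left).trans hV) (hj.trans inf_le_right)
      (hk.trans inf_le_right) _⟩

lemma isoInvSec_val (i : D.ι) {V : X.Opens} (hV : V ≤ D.U i) (t : Γ(D.N i, V)) (j : D.ι) :
    (D.isoInvSec i hV t).1 j = (D.φ i j).app (V ⊓ D.U j)
      (le_inf (inf_le_left.trans hV) inf_le_right) (res (D.N i) inf_le_left t) := rfl

/-- The inclusion of the `i`-th piece into the glued module, over `U i`. -/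
def isoInv (i : D.ι) : LocalHom (D.N i) D.glued (D.U i) where
  app V hV :=
    { toFun := fun t => D.ofSec (D.isoInvSec i hV t)
      map_zero' := by
        apply D.toSec_injective
        apply Sec.ext
        intro j
        change (D.isoInvSec i hV 0).1 j = 0
        rw [isoInvSec_val]
        simp
      map_add' := fun s t => by
        apply D.toSec_injective
        apply Sec.ext
        intro j
        change (D.isoInvSec i hV (s + t)).1 j = (D.isoInvSec i hV s).1 j + (D.isoInvSec i hV t).1 j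
        simp only [isoInvSec_val, map_add] }
  naturality {V W} hV hWV t := by
    apply D.toSec_injective
    apply Sec.ext
    intro j
    change res (D.N j) _ ((D.isoInvSec i hV t).1 j) = (D.isoInvSec i (hWV.trans hV) _).1 j
    rw [isoInvSec_val, isoInvSec_val, (D.φ i j).naturality, res_res, res_res]
  map_smul {V} hV r t := by
    apply D.toSec_injective
    apply Sec.ext
    intro j
    change (D.isoInvSec i hV (r • t)).1 j = D.rU V j r • (D.isoInvSec i hV t).1 j
    rw [isoInvSec_val, isoInvSec_val, res_smul, (D.φ i j).map_smul]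
    rfl

lemma toSec_isoInv_app (i : D.ι) {V : X.Opens} (hV : V ≤ D.U i) (t : Γ(D.N i, V)) :
    D.toSec ((D.isoInv i).app V hV t) = D.isoInvSec i hV t := rfl

/-- The glued module is isomorphic to the `i`-th piece over `U i`. -/
def iso (i : D.ι) : LocalIso D.glued (D.N i) (D.U i) where
  hom := D.isoHom i
  inv := D.isoInv i
  hom_inv_id := by
    ext V hV s
    rw [LocalHom.comp_app, LocalHom.id_app]
    apply D.toSec_injective
    apply Sec.ext
    intro j
    change (D.isoInvSec i hV ((D.isoHom i).app V hV s)).1 j = (D.toSec s).1 j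
    rw [isoInvSec_val, isoHom_app, res_res]
    have := (D.toSec s).2 i j (V ⊓ D.U j) (le_inf inf_le_left (inf_le_left.trans hV)) le_rfl
    rw [res_self] at this
    exact this
  inv_hom_id := by
    ext V hV t
    rw [LocalHom.comp_app, LocalHom.id_app, isoHom_app, toSec_isoInv_app, isoInvSec_val,
      (D.φ i i).naturality, res_res, res_self, D.φ_self]

/-- The local isomorphisms are compatible with the transition maps. -/
lemma iso_compat (i j : D.ι) (V : X.Opens) (hi : V ≤ D.U i) (hj : V ≤ D.U j)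
    (s : Γ(D.glued, V)) :
    (D.φ i j).app V (le_inf hi hj) ((D.iso i).hom.app V hi s) = (D.iso j).hom.app V hj s :=
  (D.toSec s).2 i j V (le_inf le_rfl hi) (le_inf le_rfl hj)

lemma iso_compat' (i j : D.ι) :
    ((D.iso i).hom.restrict (inf_le_left : D.U i ⊓ D.U j ≤ D.U i)).comp (D.φ i j) =
      (D.iso j).hom.restrict inf_le_right := by
  ext V hV s
  exact D.iso_compat i j V (hV.trans inf_le_left) (hV.trans inf_le_right) s

end GlueData

end

end Fermat.Agent.JAC.Glue.ModGlue1
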