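/-
Programme JAC (S25), work package B4: gluing two sheaves of modules along a LOCAL isomorphism
on the overlap (sections language; no cocycle condition).  Companion of `ModGlue1`.
-/
import Fermat.Agent.JAC.Glue.ModGlue1

set_option autoImplicit false

universe u

open CategoryTheory AlgebraicGeometry TopologicalSpace Opposite

namespace Fermat.Agent.JAC.Glue.TwoGlue1

open Fermat.Agent.JAC.Glue.HomGlue1 Fermat.Agent.JAC.Glue.ModGlue1

noncomputable section

variable {X : Scheme.{u}} {U₀ U₁ : X.Opens} {L₀ L₁ : X.Modules}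

/-- the two opens, indexed by `Bool` (`false ↦ U₀`, `true ↦ U₁`) -/
def twoU (U₀ U₁ : X.Opens) (b : Bool) : X.Opens := cond b U₁ U₀

/-- the two modules, indexed by `Bool` -/
def twoL (L₀ L₁ : X.Modules) (b : Bool) : X.Modules := cond b L₁ L₀

variable (e : LocalIso L₀ L₁ (U₀ ⊓ U₁))

/-- the transition maps for two opens -/
def twoφ : ∀ b b' : Bool,
    LocalHom (twoL L₀ L₁ b) (twoL L₀ L₁ b') (twoU U₀ U₁ b ⊓ twoU U₀ U₁ b')
  | false, false => LocalHom.id L₀ (U₀ ⊓ U₀)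
  | false, true => e.hom
  | true, false => e.inv.restrict (le_of_eq (inf_comm U₁ U₀))
  | true, true => LocalHom.id L₁ (U₁ ⊓ U₁)

/-- The gluing data attached to two opens and a local isomorphism on the overlap. -/
def twoGlueData : GlueData X where
  ι := ULift.{u} Bool
  U b := twoU U₀ U₁ b.down
  N b := twoL L₀ L₁ b.down
  φ b b' := twoφ e b.down b'.down
  φ_self := by
    rintro ⟨_ | _⟩ V hV x <;> rfl
  cocycle := by
    rintro ⟨_ | _⟩ ⟨_ | _⟩ ⟨_ | _⟩ V hi hj hk x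
    · rfl
    · rfl
    · exact e.inv_hom_apply V (le_inf hi hj) x
    · rfl
    · rfl
    · exact e.hom_inv_apply V (le_inf hj hi) x
    · rfl
    · rfl

/-- The module obtained by gluing `L₀|_{U₀}` and `L₁|_{U₁}` along `e`. -/
def glueTwo : X.Modules := (twoGlueData e).glued

/-- The glued module is `L₀` over `U₀`. -/
def glueTwoIso₀ : LocalIso (glueTwo e) L₀ U₀ := (twoGlueData e).iso ⟨false⟩

/-- The glued module is `L₁` over `U₁`. -/
def glueTwoIso₁ : LocalIso (glueTwo e) L₁ U₁ := (twoGlueData e).iso ⟨true⟩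

/-- The two local isomorphisms are compatible with `e` on the overlap. -/
lemma glueTwoIso_compat :
    ((glueTwoIso₀ e).hom.restrict (inf_le_left : U₀ ⊓ U₁ ≤ U₀)).comp e.hom =
      (glueTwoIso₁ e).hom.restrict inf_le_right :=
  (twoGlueData e).iso_compat' ⟨false⟩ ⟨true⟩

lemma glueTwoIso_compat_apply (V : X.Opens) (h₀ : V ≤ U₀) (h₁ : V ≤ U₁) (s : Γ(glueTwo e, V)) :
    e.hom.app V (le_inf h₀ h₁) ((glueTwoIso₀ e).hom.app V h₀ s) =
      (glueTwoIso₁ e).hom.app V h₁ s :=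
  (twoGlueData e).iso_compat ⟨false⟩ ⟨true⟩ V h₀ h₁ s

/-! ### Explicit description of the sections -/

/-- The pairs of sections that match under `e`. -/
def IsPair (V : X.Opens) (s₀ : Γ(L₀, V ⊓ U₀)) (s₁ : Γ(L₁, V ⊓ U₁)) : Prop :=
  e.hom.app (V ⊓ U₀ ⊓ U₁) (le_inf (inf_le_left.trans inf_le_right) inf_le_right)
      (res L₀ inf_le_left s₀) =
    res L₁ (le_inf (inf_le_left.trans inf_le_left) inf_le_right) s₁

/-- The components of a section of the glued module. -/
def fst {V : X.Opens} (s : Γ(glueTwo e, V)) : Γ(L₀, V ⊓ U₀) :=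
  ((twoGlueData e).toSec s).1 ⟨false⟩

/-- The components of a section of the glued module. -/
def snd {V : X.Opens} (s : Γ(glueTwo e, V)) : Γ(L₁, V ⊓ U₁) :=
  ((twoGlueData e).toSec s).1 ⟨true⟩

lemma isPair_fst_snd {V : X.Opens} (s : Γ(glueTwo e, V)) : IsPair e V (fst e s) (snd e s) :=
  ((twoGlueData e).toSec s).2 ⟨false⟩ ⟨true⟩ _ inf_le_left
    (le_inf (inf_le_left.trans inf_le_left) inf_le_right)

lemma ext_fst_snd {V : X.Opens} {s s' : Γ(glueTwo e, V)} (h₀ : fst e s = fst e s')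
    (h₁ : snd e s = snd e s') : s = s' := by
  apply (twoGlueData e).toSec_injective
  apply GlueData.Sec.ext
  rintro ⟨_ | _⟩
  · exact h₀
  · exact h₁

/-- A matching pair of sections defines a section of the glued module. -/
def mkSec {V : X.Opens} (s₀ : Γ(L₀, V ⊓ U₀)) (s₁ : Γ(L₁, V ⊓ U₁)) (h : IsPair e V s₀ s₁) :
    Γ(glueTwo e, V) :=
  (twoGlueData e).ofSec ⟨fun b => match b with
      | ⟨false⟩ => s₀
      | ⟨true⟩ => s₁, by
    rintro ⟨_ | _⟩ ⟨_ | _⟩ W hi hj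
    · rfl
    · have hW : W ≤ V ⊓ U₀ ⊓ U₁ := le_inf hi (hj.trans inf_le_right)
      have := congrArg (res L₁ hW) h
      rw [e.hom.naturality, res_res, res_res] at this
      exact this
    · have hW : W ≤ V ⊓ U₀ ⊓ U₁ := le_inf hj (hi.trans inf_le_right)
      have := congrArg (res L₁ hW) h
      rw [e.hom.naturality, res_res, res_res] at this
      change e.inv.app W _ (res L₁ hi s₁) = res L₀ hj s₀
      exact (congrArg (e.inv.app W _) this).symm.trans (e.inv_hom_apply W _ _)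
    · rfl⟩

@[simp] lemma fst_mkSec {V : X.Opens} (s₀ : Γ(L₀, V ⊓ U₀)) (s₁ : Γ(L₁, V ⊓ U₁))
    (h : IsPair e V s₀ s₁) : fst e (mkSec e s₀ s₁ h) = s₀ := rfl

@[simp] lemma snd_mkSec {V : X.Opens} (s₀ : Γ(L₀, V ⊓ U₀)) (s₁ : Γ(L₁, V ⊓ U₁))
    (h : IsPair e V s₀ s₁) : snd e (mkSec e s₀ s₁ h) = s₁ := rfl

lemma fst_res {V V' : X.Opens} (h : V' ≤ V) (s : Γ(glueTwo e, V)) :
    fst e (res (glueTwo e) h s) = res L₀ (inf_le_inf_right _ h) (fst e s) := rfl

lemma snd_res {V V' : X.Opens} (h : V' ≤ V) (s : Γ(glueTwo e, V)) :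
    snd e (res (glueTwo e) h s) = res L₁ (inf_le_inf_right _ h) (snd e s) := rfl

lemma fst_add {V : X.Opens} (s s' : Γ(glueTwo e, V)) : fst e (s + s') = fst e s + fst e s' := rfl

lemma snd_add {V : X.Opens} (s s' : Γ(glueTwo e, V)) : snd e (s + s') = snd e s + snd e s' := rfl

lemma fst_smul {V : X.Opens} (r : Γ(X, V)) (s : Γ(glueTwo e, V)) :
    fst e (r • s) = resO X (inf_le_left : V ⊓ U₀ ≤ V) r • fst e s := rfl

lemma snd_smul {V : X.Opens} (r : Γ(X, V)) (s : Γ(glueTwo e, V)) :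
    snd e (r • s) = resO X (inf_le_left : V ⊓ U₁ ≤ V) r • snd e s := rfl

lemma glueTwoIso₀_hom_app {V : X.Opens} (hV : V ≤ U₀) (s : Γ(glueTwo e, V)) :
    (glueTwoIso₀ e).hom.app V hV s = res L₀ (le_inf le_rfl hV) (fst e s) := rfl

lemma glueTwoIso₁_hom_app {V : X.Opens} (hV : V ≤ U₁) (s : Γ(glueTwo e, V)) :
    (glueTwoIso₁ e).hom.app V hV s = res L₁ (le_inf le_rfl hV) (snd e s) := rfl

end

end Fermat.Agent.JAC.Glue.TwoGlue1
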