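/-
Programme JAC (S25), work package B4 (a): gluing sheaves of modules on a scheme along an open cover.
This file realises the hand-off statement list `origin/helper36:Fermat/Agent/JAC/Glue/Stmts.lean`
(every name and statement EXACTLY as there) as thin adapters over the engines
`HomGlue1` (local homomorphisms glue), `RestrictHom1` (dictionary with `restrictFunctor`) and
`ModGlue1` (gluing of objects).
-/
import Fermat.Agent.JAC.Glue.RestrictHom1
import Fermat.Agent.JAC.Glue.ModGlue1

set_option autoImplicit false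

universe u

open CategoryTheory AlgebraicGeometry

namespace Fermat.Agent.JAC.Glue

open Fermat.Agent.JAC.Glue.HomGlue1 Fermat.Agent.JAC.Glue.RestrictHom1

variable {X : Scheme.{u}}

open Scheme.Modules in
/-- Restrict a morphism between restrictions to `V` further down to `W ≤ V`. -/
noncomputable def restrictHomOfLE {M N : X.Modules} {W V : X.Opens} (h : W ≤ V)
    (f : M.restrict V.ι ⟶ N.restrict V.ι) : M.restrict W.ι ⟶ N.restrict W.ι :=
  (restrictFunctorCongr (X.homOfLE_ι h).symm).hom.app M ≫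
    (restrictFunctorComp (X.homOfLE h) V.ι).hom.app M ≫
    (restrictFunctor (X.homOfLE h)).map f ≫
    (restrictFunctorComp (X.homOfLE h) V.ι).inv.app N ≫
    (restrictFunctorCongr (X.homOfLE_ι h).symm).inv.app N

open Scheme.Modules in
lemma restrictHomOfLE_id {M : X.Modules} {W V : X.Opens} (h : W ≤ V) :
    restrictHomOfLE h (𝟙 (M.restrict V.ι)) = 𝟙 _ := by
  simp [restrictHomOfLE]

open Scheme.Modules in
lemma restrictHomOfLE_comp {M N P : X.Modules} {W V : X.Opens} (h : W ≤ V)
    (f : M.restrict V.ι ⟶ N.restrict V.ι) (g : N.restrict V.ι ⟶ P.restrict V.ι) :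
    restrictHomOfLE h (f ≫ g) = restrictHomOfLE h f ≫ restrictHomOfLE h g := by
  simp [restrictHomOfLE]

/-- Restrict an isomorphism between restrictions to `V` further down to `W ≤ V`. -/
noncomputable def restrictIsoOfLE {M N : X.Modules} {W V : X.Opens} (h : W ≤ V)
    (e : M.restrict V.ι ≅ N.restrict V.ι) : M.restrict W.ι ≅ N.restrict W.ι where
  hom := restrictHomOfLE h e.hom
  inv := restrictHomOfLE h e.inv
  hom_inv_id := by rw [← restrictHomOfLE_comp, e.hom_inv_id, restrictHomOfLE_id]
  inv_hom_id := by rw [← restrictHomOfLE_comp, e.inv_hom_id, restrictHomOfLE_id]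

lemma ofRestrictHom_app_image {X Y : Scheme.{u}} (f : Y ⟶ X) [IsOpenImmersion f] {M N : X.Modules}
    (φ : M.restrict f ⟶ N.restrict f) (Z : Y.Opens) (x : Γ(M, f ''ᵁ Z)) :
    (ofRestrictHom f φ).app (f ''ᵁ Z) (f.image_le_opensRange Z) x =
      ofR f N Z (φ.app Z (toR f M Z x)) := by
  have h := congrArg (fun ψ : M.restrict f ⟶ N.restrict f => ψ.app Z (toR f M Z x))
    (toRestrictHom_ofRestrictHom f φ)
  simp only [toRestrictHom_app, ofR_toR] at h
  rw [← h, ofR_toR]

/-- transport of the value of a local hom along an equality of opens -/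
lemma LocalHom_app_congr {M N : X.Modules} {U : X.Opens} (a : LocalHom M N U) {V₁ V₂ : X.Opens}
    (e : V₁ = V₂) (h₁ : V₁ ≤ U) (x : Γ(M, V₁)) :
    a.app V₁ h₁ x = res N e.le (a.app V₂ (e ▸ h₁) (res M e.ge x)) := by
  subst e
  simp

lemma res_conj_aux {M N : X.Modules} {A B C : X.Opens} (F : Γ(M, C) →+ Γ(N, C))
    (p1 : B ≤ A) (p2 : C ≤ B) (p3 : B ≤ C) (p4 : A ≤ B) (q1 : C ≤ A) (q2 : A ≤ C) (x : Γ(M, A)) :
    res N p4 (res N p3 (F (res M p2 (res M p1 x)))) = res N q2 (F (res M q1 x)) := by
  rw [res_res, res_res]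

open Scheme.Modules in
lemma restrictHomOfLE_app {M N : X.Modules} {W V : X.Opens} (h : W ≤ V)
    (f : M.restrict V.ι ⟶ N.restrict V.ι) (Z : W.toScheme.Opens) (x : Γ(M.restrict W.ι, Z)) :
    (restrictHomOfLE h f).app Z x =
      toR W.ι N Z ((ofRestrictHom V.ι f).app (W.ι ''ᵁ Z)
        ((W.ι.image_le_opensRange Z).trans (by simpa using h)) (ofR W.ι M Z x)) := by
  have e : V.ι ''ᵁ ((X.homOfLE h) ''ᵁ Z) = W.ι ''ᵁ Z := by
    rw [← Scheme.Hom.comp_image]
    simp only [Scheme.homOfLE_ι]
  rw [LocalHom_app_congr _ e.symm, ofRestrictHom_app_image]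
  simp only [restrictHomOfLE, Hom.comp_app, restrictFunctorCongr_hom_app_app,
    restrictFunctorCongr_inv_app_app, restrictFunctorComp_hom_app_app,
    restrictFunctorComp_inv_app_app]
  change res N _ (res N _ (f.app (X.homOfLE h ''ᵁ Z) (res M _ (res M _ x)))) = _
  exact res_conj_aux (M := M) (N := N) (A := W.ι ''ᵁ Z) (B := (X.homOfLE h ≫ V.ι) ''ᵁ Z)
    (C := V.ι ''ᵁ (X.homOfLE h ''ᵁ Z)) (f.app (X.homOfLE h ''ᵁ Z)).hom _ _ _ _ _ _ x


lemma opensRange_ι_le {W V : X.Opens} (h : W ≤ V) : W.ι.opensRange ≤ V.ι.opensRange := by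
  simpa using h

/-- The dictionary `restrictHomOfLE` ↔ `LocalHom.restrict`. -/
lemma ofRestrictHom_restrictHomOfLE {M N : X.Modules} {W V : X.Opens} (h : W ≤ V)
    (f : M.restrict V.ι ⟶ N.restrict V.ι) :
    ofRestrictHom W.ι (restrictHomOfLE h f) =
      (ofRestrictHom V.ι f).restrict (opensRange_ι_le h) := by
  apply (restrictHomEquiv W.ι).symm.injective
  change toRestrictHom W.ι _ = toRestrictHom W.ι _
  rw [toRestrictHom_ofRestrictHom]
  ext Z x
  rw [restrictHomOfLE_app, toRestrictHom_app]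
  rfl

/-- The local homomorphism on `U` attached to a morphism between the restrictions to `U`. -/
noncomputable def localHomOfRestrict {M N : X.Modules} {U : X.Opens}
    (f : M.restrict U.ι ⟶ N.restrict U.ι) : LocalHom M N U :=
  (ofRestrictHom U.ι f).restrict (by simp)

lemma localHomOfRestrict_app {M N : X.Modules} {U : X.Opens}
    (f : M.restrict U.ι ⟶ N.restrict U.ι) (V : X.Opens) (hV : V ≤ U) (x : Γ(M, V)) :
    (localHomOfRestrict f).app V hV x = (ofRestrictHom U.ι f).app V (by simpa using hV) x := rfl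

lemma localHomOfRestrict_injective {M N : X.Modules} {U : X.Opens}
    {f g : M.restrict U.ι ⟶ N.restrict U.ι} (h : localHomOfRestrict f = localHomOfRestrict g) :
    f = g := by
  apply (restrictHomEquiv U.ι).injective
  change ofRestrictHom U.ι f = ofRestrictHom U.ι g
  ext V hV x
  have hV' : V ≤ U := by simpa using hV
  exact congrArg (fun a : LocalHom M N U => a.app V hV' x) h

lemma localHomOfRestrict_restrictHomOfLE {M N : X.Modules} {W V : X.Opens} (h : W ≤ V)
    (f : M.restrict V.ι ⟶ N.restrict V.ι) :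
    localHomOfRestrict (restrictHomOfLE h f) = (localHomOfRestrict f).restrict h := by
  ext Z hZ x
  rw [localHomOfRestrict_app, ofRestrictHom_restrictHomOfLE]
  rfl

lemma localHomOfRestrict_map {M N : X.Modules} (U : X.Opens) (g : M ⟶ N) :
    localHomOfRestrict ((Scheme.Modules.restrictFunctor U.ι).map g) = LocalHom.ofHom g U := by
  ext Z hZ x
  rw [localHomOfRestrict_app, ofRestrictHom_map]
  rfl

lemma localHomOfRestrict_id {M : X.Modules} (U : X.Opens) :
    localHomOfRestrict (𝟙 (M.restrict U.ι)) = LocalHom.id M U := by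
  ext Z hZ x
  rw [localHomOfRestrict_app, ofRestrictHom_id]
  rfl

lemma localHomOfRestrict_comp {M N P : X.Modules} {U : X.Opens}
    (f : M.restrict U.ι ⟶ N.restrict U.ι) (g : N.restrict U.ι ⟶ P.restrict U.ι) :
    localHomOfRestrict (f ≫ g) = (localHomOfRestrict f).comp (localHomOfRestrict g) := by
  ext Z hZ x
  rw [localHomOfRestrict_app, ofRestrictHom_comp]
  rfl

/-- (G1') Morphisms of sheaves of modules glue along an open cover. -/
theorem existsUnique_hom_of_cover {M N : X.Modules} {ι : Type*} (U : ι → X.Opens)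
    (hU : ⨆ i, U i = ⊤)
    (f : ∀ i, M.restrict (U i).ι ⟶ N.restrict (U i).ι)
    (hf : ∀ i j, restrictHomOfLE (inf_le_left : U i ⊓ U j ≤ U i) (f i) =
      restrictHomOfLE (inf_le_right : U i ⊓ U j ≤ U j) (f j)) :
    ∃! g : M ⟶ N, ∀ i, (Scheme.Modules.restrictFunctor (U i).ι).map g = f i := by
  have ha : ∀ i j (V : X.Opens) (hi : V ≤ U i) (hj : V ≤ U j) (x : Γ(M, V)),
      (localHomOfRestrict (f i)).app V hi x = (localHomOfRestrict (f j)).app V hj x := by
    intro i j V hi hj x
    have h := congrArg localHomOfRestrict (hf i j)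
    rw [localHomOfRestrict_restrictHomOfLE, localHomOfRestrict_restrictHomOfLE] at h
    exact congrArg (fun a : LocalHom M N (U i ⊓ U j) => a.app V (le_inf hi hj) x) h
  let G : LocalHom M N ⊤ :=
    (LocalHom.glue U (fun i => localHomOfRestrict (f i)) ha).restrict (by rw [hU])
  have hG : ∀ i, (Scheme.Modules.restrictFunctor (U i).ι).map (LocalHom.toHom G) = f i := by
    intro i
    apply localHomOfRestrict_injective
    rw [localHomOfRestrict_map]
    ext V hV x
    exact LocalHom.glue_app_of_le U (fun i => localHomOfRestrict (f i)) ha i hV x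
  refine ⟨LocalHom.toHom G, hG, fun g hg => ?_⟩
  apply LocalHom.homEquiv.injective
  refine LocalHom.eq_of_cover U (by rw [hU]) _ _ (fun i V hV hVi x => ?_)
  have h1 := congrArg localHomOfRestrict ((hg i).trans (hG i).symm)
  rw [localHomOfRestrict_map, localHomOfRestrict_map] at h1
  exact congrArg (fun a : LocalHom M N (U i) => a.app V hVi x) h1

/-- (G1') Isomorphisms of sheaves of modules glue along an open cover. -/
theorem exists_iso_of_cover {M N : X.Modules} {ι : Type*} (U : ι → X.Opens)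
    (hU : ⨆ i, U i = ⊤)
    (e : ∀ i, M.restrict (U i).ι ≅ N.restrict (U i).ι)
    (he : ∀ i j, restrictIsoOfLE (inf_le_left : U i ⊓ U j ≤ U i) (e i) =
      restrictIsoOfLE (inf_le_right : U i ⊓ U j ≤ U j) (e j)) :
    ∃ g : M ≅ N, ∀ i, (Scheme.Modules.restrictFunctor (U i).ι).mapIso g = e i := by
  have hf : ∀ i j, restrictHomOfLE (inf_le_left : U i ⊓ U j ≤ U i) (e i).hom =
      restrictHomOfLE (inf_le_right : U i ⊓ U j ≤ U j) (e j).hom :=
    fun i j => congrArg Iso.hom (he i j)
  have hf' : ∀ i j, restrictHomOfLE (inf_le_left : U i ⊓ U j ≤ U i) (e i).inv =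
      restrictHomOfLE (inf_le_right : U i ⊓ U j ≤ U j) (e j).inv :=
    fun i j => congrArg Iso.inv (he i j)
  obtain ⟨g, hg, -⟩ := existsUnique_hom_of_cover U hU (fun i => (e i).hom) hf
  obtain ⟨g', hg', -⟩ := existsUnique_hom_of_cover U hU (fun i => (e i).inv) hf'
  have h1 : g ≫ g' = 𝟙 M := by
    obtain ⟨k, -, hk⟩ := existsUnique_hom_of_cover U hU (fun i => 𝟙 (M.restrict (U i).ι))
      (fun i j => by rw [restrictHomOfLE_id, restrictHomOfLE_id])
    rw [hk (g ≫ g') (fun i => by rw [Functor.map_comp, hg, hg', Iso.hom_inv_id]),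
      hk (𝟙 M) (fun i => CategoryTheory.Functor.map_id _ _)]
  have h2 : g' ≫ g = 𝟙 N := by
    obtain ⟨k, -, hk⟩ := existsUnique_hom_of_cover U hU (fun i => 𝟙 (N.restrict (U i).ι))
      (fun i j => by rw [restrictHomOfLE_id, restrictHomOfLE_id])
    rw [hk (g' ≫ g) (fun i => by rw [Functor.map_comp, hg, hg', Iso.inv_hom_id]),
      hk (𝟙 N) (fun i => CategoryTheory.Functor.map_id _ _)]
  exact ⟨⟨g, g', h1, h2⟩, fun i => Iso.ext (hg i)⟩

@[simp] lemma restrictIsoOfLE_hom {M N : X.Modules} {W V : X.Opens} (h : W ≤ V)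
    (e : M.restrict V.ι ≅ N.restrict V.ι) :
    (restrictIsoOfLE h e).hom = restrictHomOfLE h e.hom := rfl

@[simp] lemma restrictIsoOfLE_inv {M N : X.Modules} {W V : X.Opens} (h : W ≤ V)
    (e : M.restrict V.ι ≅ N.restrict V.ι) :
    (restrictIsoOfLE h e).inv = restrictHomOfLE h e.inv := rfl

/-- The morphism between restrictions to `U` attached to a local homomorphism on `U`. -/
noncomputable def restrictOfLocalHom {M N : X.Modules} {U : X.Opens} (a : LocalHom M N U) :
    M.restrict U.ι ⟶ N.restrict U.ι :=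
  toRestrictHom U.ι (a.restrict (by simp))

@[simp] lemma localHomOfRestrict_restrictOfLocalHom {M N : X.Modules} {U : X.Opens}
    (a : LocalHom M N U) : localHomOfRestrict (restrictOfLocalHom a) = a := by
  ext V hV x
  rw [localHomOfRestrict_app]
  unfold restrictOfLocalHom
  rw [ofRestrictHom_toRestrictHom]
  rfl

@[simp] lemma restrictOfLocalHom_localHomOfRestrict {M N : X.Modules} {U : X.Opens}
    (f : M.restrict U.ι ⟶ N.restrict U.ι) : restrictOfLocalHom (localHomOfRestrict f) = f := by
  apply localHomOfRestrict_injective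
  rw [localHomOfRestrict_restrictOfLocalHom]

lemma restrictOfLocalHom_id {M : X.Modules} (U : X.Opens) :
    restrictOfLocalHom (LocalHom.id M U) = 𝟙 (M.restrict U.ι) := by
  apply localHomOfRestrict_injective
  rw [localHomOfRestrict_restrictOfLocalHom, localHomOfRestrict_id]

lemma restrictOfLocalHom_comp {M N P : X.Modules} {U : X.Opens} (a : LocalHom M N U)
    (b : LocalHom N P U) :
    restrictOfLocalHom (a.comp b) = restrictOfLocalHom a ≫ restrictOfLocalHom b := by
  apply localHomOfRestrict_injective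
  rw [localHomOfRestrict_restrictOfLocalHom, localHomOfRestrict_comp,
    localHomOfRestrict_restrictOfLocalHom, localHomOfRestrict_restrictOfLocalHom]

/-- The isomorphism between restrictions to `U` attached to a local isomorphism on `U`. -/
noncomputable def restrictOfLocalIso {M N : X.Modules} {U : X.Opens} (e : LocalIso M N U) :
    M.restrict U.ι ≅ N.restrict U.ι where
  hom := restrictOfLocalHom e.hom
  inv := restrictOfLocalHom e.inv
  hom_inv_id := by rw [← restrictOfLocalHom_comp, e.hom_inv_id, restrictOfLocalHom_id]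
  inv_hom_id := by rw [← restrictOfLocalHom_comp, e.inv_hom_id, restrictOfLocalHom_id]

/-- Gluing data for sheaves of modules: global objects `L i` (only `L i |_ U i` matters) with
isomorphisms on the overlaps satisfying the cocycle condition on triple overlaps. -/
structure ModuleGlueData (X : Scheme.{u}) where
  ι : Type u
  U : ι → X.Opens
  iSup_U : ⨆ i, U i = ⊤
  L : ι → X.Modules
  φ : ∀ i j, (L i).restrict (U i ⊓ U j).ι ≅ (L j).restrict (U i ⊓ U j).ι
  φ_self : ∀ i, φ i i = Iso.refl _
  cocycle : ∀ i j l,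
    restrictIsoOfLE (show U i ⊓ U j ⊓ U l ≤ U i ⊓ U j from inf_le_left) (φ i j) ≪≫
      restrictIsoOfLE (show U i ⊓ U j ⊓ U l ≤ U j ⊓ U l from
        le_inf (inf_le_left.trans inf_le_right) inf_le_right) (φ j l) =
      restrictIsoOfLE (show U i ⊓ U j ⊓ U l ≤ U i ⊓ U l from
        le_inf (inf_le_left.trans inf_le_left) inf_le_right) (φ i l)

namespace ModuleGlueData

/-- The gluing data in the language of local homomorphisms. -/
noncomputable def toGlueData (D : ModuleGlueData X) : ModGlue1.GlueData X where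
  ι := D.ι
  U := D.U
  N := D.L
  φ i j := localHomOfRestrict (D.φ i j).hom
  φ_self i V hV x := by
    rw [D.φ_self, Iso.refl_hom, localHomOfRestrict_id]
    rfl
  cocycle i j l V hi hj hl x := by
    have h := congrArg (fun e => localHomOfRestrict (Iso.hom e)) (D.cocycle i j l)
    simp only [Iso.trans_hom, restrictIsoOfLE_hom] at h
    rw [localHomOfRestrict_comp, localHomOfRestrict_restrictHomOfLE,
      localHomOfRestrict_restrictHomOfLE, localHomOfRestrict_restrictHomOfLE] at h
    exact congrArg (fun a : LocalHom (D.L i) (D.L l) (D.U i ⊓ D.U j ⊓ D.U l) =>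
      a.app V (le_inf (le_inf hi hj) hl) x) h

/-- (G1) The glued sheaf of modules. -/
noncomputable def glued (D : ModuleGlueData X) : X.Modules := D.toGlueData.glued

/-- (G1) The glued sheaf restricts to the given pieces. -/
noncomputable def gluedIso (D : ModuleGlueData X) (i : D.ι) :
    D.glued.restrict (D.U i).ι ≅ (D.L i).restrict (D.U i).ι :=
  restrictOfLocalIso (D.toGlueData.iso i)

/-- (G1) Compatibility of the restriction isomorphisms with the gluing isomorphisms. -/
theorem gluedIso_comp_φ (D : ModuleGlueData X) (i j : D.ι) :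
    restrictIsoOfLE (inf_le_left : D.U i ⊓ D.U j ≤ D.U i) (D.gluedIso i) ≪≫ D.φ i j =
      restrictIsoOfLE (inf_le_right : D.U i ⊓ D.U j ≤ D.U j) (D.gluedIso j) := by
  apply Iso.ext
  apply localHomOfRestrict_injective
  simp only [Iso.trans_hom, restrictIsoOfLE_hom]
  rw [localHomOfRestrict_comp, localHomOfRestrict_restrictHomOfLE,
    localHomOfRestrict_restrictHomOfLE]
  change ((localHomOfRestrict (restrictOfLocalHom (D.toGlueData.iso i).hom)).restrict _).comp
    (D.toGlueData.φ i j) = (localHomOfRestrict (restrictOfLocalHom (D.toGlueData.iso j).hom)).restrict _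
  rw [localHomOfRestrict_restrictOfLocalHom, localHomOfRestrict_restrictOfLocalHom]
  exact D.toGlueData.iso_compat' i j

end ModuleGlueData

section Two

variable (U₀ U₁ : X.Opens) (L₀ L₁ : X.Modules)
  (φ : L₀.restrict (U₀ ⊓ U₁).ι ≅ L₁.restrict (U₀ ⊓ U₁).ι)

/-- the two opens, indexed by `Bool` -/
def twoU (b : Bool) : X.Opens := cond b U₁ U₀

/-- the two modules, indexed by `Bool` -/
def twoL (b : Bool) : X.Modules := cond b L₁ L₀

variable {U₀ U₁ L₀ L₁}

/-- the transition maps for two opens -/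
noncomputable def twoφ : ∀ b b' : Bool,
    LocalHom (twoL L₀ L₁ b) (twoL L₀ L₁ b') (twoU U₀ U₁ b ⊓ twoU U₀ U₁ b')
  | false, false => LocalHom.id L₀ (U₀ ⊓ U₀)
  | false, true => localHomOfRestrict φ.hom
  | true, false => (localHomOfRestrict φ.inv).restrict (le_of_eq (inf_comm U₁ U₀))
  | true, true => LocalHom.id L₁ (U₁ ⊓ U₁)

lemma two_inv_hom (V : X.Opens) (hV : V ≤ U₀ ⊓ U₁) (x : Γ(L₀, V)) :
    (localHomOfRestrict φ.inv).app V hV ((localHomOfRestrict φ.hom).app V hV x) = x := by
  have h := congrArg localHomOfRestrict φ.hom_inv_id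
  rw [localHomOfRestrict_comp, localHomOfRestrict_id] at h
  exact congrArg (fun a : LocalHom L₀ L₀ (U₀ ⊓ U₁) => a.app V hV x) h

lemma two_hom_inv (V : X.Opens) (hV : V ≤ U₀ ⊓ U₁) (x : Γ(L₁, V)) :
    (localHomOfRestrict φ.hom).app V hV ((localHomOfRestrict φ.inv).app V hV x) = x := by
  have h := congrArg localHomOfRestrict φ.inv_hom_id
  rw [localHomOfRestrict_comp, localHomOfRestrict_id] at h
  exact congrArg (fun a : LocalHom L₁ L₁ (U₀ ⊓ U₁) => a.app V hV x) h

/-- The gluing data attached to two opens and an isomorphism on the overlap. -/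
noncomputable def twoGlueData : ModGlue1.GlueData X where
  ι := ULift.{u} Bool
  U b := twoU U₀ U₁ b.down
  N b := twoL L₀ L₁ b.down
  φ b b' := twoφ φ b.down b'.down
  φ_self := by
    rintro ⟨_ | _⟩ V hV x <;> rfl
  cocycle := by
    rintro ⟨_ | _⟩ ⟨_ | _⟩ ⟨_ | _⟩ V hi hj hk x
    · rfl
    · rfl
    · exact two_inv_hom φ V (le_inf hi hj) x
    · rfl
    · rfl
    · exact two_hom_inv φ V (le_inf hj hi) x
    · rfl
    · rfl

end Two

/-- (G1, two opens) Gluing two sheaves of modules along an isomorphism on the overlap: no cocycle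
condition. -/
theorem exists_glue_two (U₀ U₁ : X.Opens) (h : U₀ ⊔ U₁ = ⊤) (L₀ L₁ : X.Modules)
    (φ : L₀.restrict (U₀ ⊓ U₁).ι ≅ L₁.restrict (U₀ ⊓ U₁).ι) :
    ∃ (L : X.Modules) (e₀ : L.restrict U₀.ι ≅ L₀.restrict U₀.ι)
      (e₁ : L.restrict U₁.ι ≅ L₁.restrict U₁.ι),
      restrictIsoOfLE (inf_le_left : U₀ ⊓ U₁ ≤ U₀) e₀ ≪≫ φ =
        restrictIsoOfLE (inf_le_right : U₀ ⊓ U₁ ≤ U₁) e₁ := by
  let D := twoGlueData φ
  refine ⟨D.glued, restrictOfLocalIso (D.iso ⟨false⟩), restrictOfLocalIso (D.iso ⟨true⟩), ?_⟩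
  apply Iso.ext
  apply localHomOfRestrict_injective
  simp only [Iso.trans_hom, restrictIsoOfLE_hom]
  rw [localHomOfRestrict_comp, localHomOfRestrict_restrictHomOfLE,
    localHomOfRestrict_restrictHomOfLE]
  change ((localHomOfRestrict (restrictOfLocalHom (D.iso ⟨false⟩).hom)).restrict _).comp
    (D.φ ⟨false⟩ ⟨true⟩) = (localHomOfRestrict (restrictOfLocalHom (D.iso ⟨true⟩).hom)).restrict _
  rw [localHomOfRestrict_restrictOfLocalHom, localHomOfRestrict_restrictOfLocalHom]
  exact D.iso_compat' ⟨false⟩ ⟨true⟩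

end Fermat.Agent.JAC.Glue
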