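import Fermat.Agent.JAC.Glue.HomGlue50
set_option autoImplicit false
open AlgebraicGeometry CategoryTheory TopologicalSpace Opposite
universe u
namespace Fermat.Agent.JAC.Glue.LocalIso50
open Fermat.Agent.JAC.Glue.Sec50 Fermat.Agent.JAC.Glue.HomGlue50
noncomputable section
variable {X : Scheme.{u}} {M N P : X.Modules}

theorem isIso_of_cover {κ : Type*} (U : κ → X.Opens) (hcov : ⊤ ≤ ⨆ i, U i) (φ : M ⟶ N)
    (h : ∀ i, IsIso ((Scheme.Modules.restrictFunctor (U i).ι).map φ)) : IsIso φ := by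
  let F : TopCat.Sheaf Ab.{u} X := ⟨M.presheaf, M.isSheaf⟩
  let G : TopCat.Sheaf Ab.{u} X := ⟨N.presheaf, N.isSheaf⟩
  let f : F ⟶ G := ⟨(Scheme.Modules.toPresheaf X).map φ⟩
  have hstalk : ∀ x : X, IsIso ((TopCat.Presheaf.stalkFunctor Ab.{u} x).map f.hom) := by
    intro x
    have hx : x ∈ (⨆ i, U i : X.Opens) := hcov (by trivial)
    obtain ⟨i, hi⟩ := Opens.mem_iSup.mp hx
    have := h i
    let e := Scheme.Modules.restrictStalkNatIso (U i).ι ⟨x, hi⟩
    have hnat := e.hom.naturality φ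
    have h1 : IsIso ((Scheme.Modules.restrictFunctor (U i).ι ⋙ Scheme.Modules.toPresheaf _ ⋙
      TopCat.Presheaf.stalkFunctor _ (⟨x, hi⟩ : (U i).toScheme)).map φ) := by
      dsimp only [Functor.comp_map]
      infer_instance
    have h2 : IsIso ((Scheme.Modules.toPresheaf X ⋙
        TopCat.Presheaf.stalkFunctor Ab.{u} ((U i).ι ⟨x, hi⟩)).map φ) := by
      have : (Scheme.Modules.toPresheaf X ⋙
        TopCat.Presheaf.stalkFunctor Ab.{u} ((U i).ι ⟨x, hi⟩)).map φ =
          e.inv.app M ≫ (Scheme.Modules.restrictFunctor (U i).ι ⋙ Scheme.Modules.toPresheaf _ ⋙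
      TopCat.Presheaf.stalkFunctor _ (⟨x, hi⟩ : (U i).toScheme)).map φ ≫ e.hom.app N := by
        rw [hnat, Iso.inv_hom_id_app_assoc]
      rw [this]
      infer_instance
    exact h2
  rw [Scheme.Modules.Hom.isIso_iff_isIso_app]
  intro V
  have : ∀ x : V, IsIso ((TopCat.Presheaf.stalkFunctor Ab.{u} x.val).map f.1) :=
    fun x => hstalk x.1
  exact TopCat.Presheaf.app_isIso_of_stalkFunctor_map_iso f V

lemma map_restrict_eq_toRestrict (U : X.Opens) (φ : M ⟶ N) :
    (Scheme.Modules.restrictFunctor U.ι).map φ = SecHom.toRestrict (SecHom.ofHom U φ) := by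
  apply Scheme.Modules.hom_ext
  intro A
  ext s
  rfl

lemma ofRestrict_map_restrict (U : X.Opens) (φ : M ⟶ N) :
    SecHom.ofRestrict ((Scheme.Modules.restrictFunctor U.ι).map φ) = SecHom.ofHom U φ := by
  rw [map_restrict_eq_toRestrict, SecHom.ofRestrict_toRestrict]

lemma ofHom_restrict {U U' : X.Opens} (h : U' ≤ U) (φ : M ⟶ N) :
    (SecHom.ofHom U φ).restrict h = SecHom.ofHom U' φ := rfl

/-- Two morphisms of modules that agree on the members of an open cover are equal. -/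
theorem hom_ext_of_cover {κ : Type*} (U : κ → X.Opens) (hcov : ⊤ ≤ ⨆ i, U i) (φ ψ : M ⟶ N)
    (h : ∀ i, (Scheme.Modules.restrictFunctor (U i).ι).map φ =
      (Scheme.Modules.restrictFunctor (U i).ι).map ψ) : φ = ψ := by
  apply topEquiv.injective
  refine SecHom.ext_of_cover U (fun _ => le_top) hcov _ _ (fun i => ?_)
  show (SecHom.ofHom ⊤ φ).restrict _ = (SecHom.ofHom ⊤ ψ).restrict _
  rw [ofHom_restrict, ofHom_restrict, ← ofRestrict_map_restrict, ← ofRestrict_map_restrict, h i]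

/-- Morphisms of modules glue along an open cover (`Hom` is a sheaf). The compatibility on
overlaps is expressed sectionwise. -/
theorem existsUnique_hom_of_cover {κ : Type*} (U : κ → X.Opens) (hcov : ⊤ ≤ ⨆ i, U i)
    (f : ∀ i, M.restrict (U i).ι ⟶ N.restrict (U i).ι)
    (hf : ∀ i j, (SecHom.ofRestrict (f i)).restrict (inf_le_left : U i ⊓ U j ≤ U i) =
      (SecHom.ofRestrict (f j)).restrict (inf_le_right : U i ⊓ U j ≤ U j)) :
    ∃! φ : M ⟶ N, ∀ i, (Scheme.Modules.restrictFunctor (U i).ι).map φ = f i := by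
  have hf' : ∀ i j (V : X.Opens) (hi : V ≤ U i) (hj : V ≤ U j) (s : Γ(M, V)),
      (SecHom.ofRestrict (f i)).app V hi s = (SecHom.ofRestrict (f j)).app V hj s := by
    intro i j V hi hj s
    exact congrArg (fun K : SecHom (U i ⊓ U j) M N => K.app V (le_inf hi hj) s) (hf i j)
  obtain ⟨F, hF, hF'⟩ := SecHom.existsUnique_glue U hcov (fun i => SecHom.ofRestrict (f i)) hf'
    (fun _ => le_top)
  refine ⟨toHom F, fun i => ?_, fun ψ hψ => ?_⟩
  · rw [map_restrict_eq_toRestrict]
    have : SecHom.ofHom (U i) (toHom F) = F.restrict le_top := by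
      rw [← ofHom_restrict (le_top : U i ≤ ⊤), ofHom_toHom]
    rw [this, hF i, SecHom.toRestrict_ofRestrict]
  · apply topEquiv.injective
    show SecHom.ofHom ⊤ ψ = SecHom.ofHom ⊤ (toHom F)
    rw [ofHom_toHom]
    apply hF'
    intro i
    rw [ofHom_restrict, ← ofRestrict_map_restrict, hψ i]

/-- Isomorphisms of modules glue along an open cover. -/
theorem existsUnique_iso_of_cover {κ : Type*} (U : κ → X.Opens) (hcov : ⊤ ≤ ⨆ i, U i)
    (f : ∀ i, M.restrict (U i).ι ≅ N.restrict (U i).ι)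
    (hf : ∀ i j, (SecHom.ofRestrict (f i).hom).restrict (inf_le_left : U i ⊓ U j ≤ U i) =
      (SecHom.ofRestrict (f j).hom).restrict (inf_le_right : U i ⊓ U j ≤ U j)) :
    ∃! φ : M ≅ N, ∀ i, (Scheme.Modules.restrictFunctor (U i).ι).mapIso φ = f i := by
  obtain ⟨φ, hφ, hφ'⟩ := existsUnique_hom_of_cover U hcov (fun i => (f i).hom) hf
  have : IsIso φ := isIso_of_cover U hcov φ (fun i => by rw [hφ i]; infer_instance)
  refine ⟨asIso φ, fun i => ?_, fun ψ hψ => ?_⟩
  · ext1
    exact hφ i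
  · ext1
    apply hφ'
    intro i
    exact congrArg Iso.hom (hψ i)

end
end Fermat.Agent.JAC.Glue.LocalIso50
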