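/-
JAC programme, work package B4b (helper23), brick (E): **endomorphisms of invertible modules**.

For a scheme `X` and `M : X.Modules`:
* `smulHom r M : M ⟶ M` : multiplication by a global function `r : Γ(X, ⊤)`; it is central
  (`smulHom_comp`), additive and multiplicative in `r` (`smulHom_add`, `smulHom_mul`, `smulHom_one`,
  `smulHom_zero`); `smulIso` for units.
* `smulHom_unit_bijective` : `End(𝒪_X) = Γ(X, 𝒪_X)`.
* `restrict_smulHom` : compatibility with `restrictFunctor f` for an open immersion `f`.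
* `pushforward_map_smulHom`, `pullback_map_smulHom` : compatibility with pushforward and with
  `Scheme.Modules.pullback e` for an arbitrary morphism `e` (`r ↦ e.appTop r`).
* `IsGen L U e` / `LocallyGen L` : `L` is (locally) freely generated by one section;
  `isGen_genOn` : a trivialisation `L.restrict f ≅ 𝒪_Y` over an open immersion gives a generator;
  `locallyGen_of_isInvertible` : the Prelude's `Scheme.Modules.IsInvertible` implies `LocallyGen`.
* `smulHom_bijective_of_isInvertible` : **`End(L) = Γ(X, 𝒪_X)` for invertible `L`**;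
  `existsUnique_smulHom_eq`; `existsUnique_unit_of_iso` : two isomorphisms `L ≅ L'` differ by a
  unique global unit.
-/
import Mathlib
import Fermat.Prelude.Def_AlgebraicGeometry_RelativePicardFunctor

set_option autoImplicit false

open CategoryTheory TopologicalSpace Opposite TopCat AlgebraicGeometry

universe u

namespace Fermat.Agent.JAC.Glue.EndInv23

open AlgebraicGeometry.Scheme.Modules

variable {X : Scheme.{u}}

/-- restriction of a global function to an open -/
noncomputable def resTop (X : Scheme.{u}) (V : X.Opens) : Γ(X, ⊤) ⟶ Γ(X, V) :=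
  X.presheaf.map (homOfLE le_top).op

lemma resTop_map {V W : X.Opens} (i : W ⟶ V) (r : Γ(X, ⊤)) :
    X.presheaf.map i.op (resTop X V r) = resTop X W r := by
  dsimp only [resTop]
  rw [← ConcreteCategory.comp_apply, ← Functor.map_comp]
  rfl

/-- multiplication by a global function, on the underlying presheaf of abelian groups -/
noncomputable def smulPresheafHom (r : Γ(X, ⊤)) (M : X.Modules) : M.presheaf ⟶ M.presheaf where
  app V := M.smul (resTop X V.unop r)
  naturality V W f := by
    have h := map_comp_smul (M := M) f.unop (resTop X V.unop r)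
    rw [resTop_map] at h
    exact h.symm

lemma smulPresheafHom_app_apply (r : Γ(X, ⊤)) (M : X.Modules) (V : X.Opens) (s : Γ(M, V)) :
    (smulPresheafHom r M).app (op V) s = resTop X V r • s := rfl

lemma smulPresheafHom_smul (r : Γ(X, ⊤)) (M : X.Modules) (V : X.Opens) (a : Γ(X, V))
    (m : Γ(M, V)) :
    (smulPresheafHom r M).app (op V) (a • m) = a • (smulPresheafHom r M).app (op V) m := by
  rw [smulPresheafHom_app_apply, smulPresheafHom_app_apply, smul_smul, smul_smul, mul_comm]

/-- multiplication by a global function as an endomorphism of a sheaf of modules -/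
noncomputable def smulHom (r : Γ(X, ⊤)) (M : X.Modules) : M ⟶ M :=
  (⟨PresheafOfModules.homMk (smulPresheafHom r M)
    (fun V a m => smulPresheafHom_smul r M V.unop a m)⟩ : SheafOfModules.Hom M M)

@[simp]
lemma smulHom_app_apply (r : Γ(X, ⊤)) (M : X.Modules) (V : X.Opens) (s : Γ(M, V)) :
    (smulHom r M).app V s = resTop X V r • s := rfl


variable {M N : X.Modules}

/-- multiplication by a global function is central -/
lemma smulHom_comp (r : Γ(X, ⊤)) (f : M ⟶ N) : smulHom r M ≫ f = f ≫ smulHom r N := by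
  ext V s
  change f.app V (resTop X V r • s) = resTop X V r • f.app V s
  exact Scheme.Modules.Hom.app_smul f _ _

lemma smulHom_one (M : X.Modules) : smulHom (1 : Γ(X, ⊤)) M = 𝟙 M := by
  ext V s
  change resTop X V 1 • s = s
  rw [map_one, one_smul]

lemma smulHom_mul (r r' : Γ(X, ⊤)) (M : X.Modules) :
    smulHom (r * r') M = smulHom r' M ≫ smulHom r M := by
  ext V s
  change resTop X V (r * r') • s = resTop X V r • (resTop X V r' • s)
  rw [map_mul, mul_smul]

lemma smulHom_zero (M : X.Modules) : smulHom (0 : Γ(X, ⊤)) M = 0 := by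
  ext V s
  change resTop X V 0 • s = 0
  rw [map_zero, zero_smul]

lemma smulHom_add (r r' : Γ(X, ⊤)) (M : X.Modules) :
    smulHom (r + r') M = smulHom r M + smulHom r' M := by
  ext V s
  change resTop X V (r + r') • s = resTop X V r • s + resTop X V r' • s
  rw [map_add, add_smul]

/-- multiplication by a unit, as an automorphism -/
noncomputable def smulIso (r : Γ(X, ⊤)ˣ) (M : X.Modules) : M ≅ M where
  hom := smulHom (r : Γ(X, ⊤)) M
  inv := smulHom ((r⁻¹ : Γ(X, ⊤)ˣ) : Γ(X, ⊤)) M
  hom_inv_id := by rw [← smulHom_mul, Units.inv_mul, smulHom_one]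
  inv_hom_id := by rw [← smulHom_mul, Units.mul_inv, smulHom_one]


/-- the structure sheaf as a module over itself -/
noncomputable abbrev unitMod (X : Scheme.{u}) : X.Modules := SheafOfModules.unit X.ringCatSheaf

example (V : X.Opens) : (Γ(unitMod X, V) : Type u) = Γ(X, V) := rfl

/-- sections of the unit module are functions -/
def toFn {V : X.Opens} (s : Γ(unitMod X, V)) : Γ(X, V) := s

/-- functions are sections of the unit module -/
def ofFn {V : X.Opens} (s : Γ(X, V)) : Γ(unitMod X, V) := s

lemma smul_ofFn {V : X.Opens} (a b : Γ(X, V)) : a • ofFn b = ofFn (a * b) := rfl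

lemma map_ofFn {V W : X.Opens} (i : W ⟶ V) (a : Γ(X, V)) :
    (unitMod X).presheaf.map i.op (ofFn a) = ofFn (X.presheaf.map i.op a) := rfl


lemma app_map_apply (ψ : M ⟶ N) {V W : X.Opens} (i : W ⟶ V) (s : Γ(M, V)) :
    ψ.app W (M.presheaf.map i.op s) = N.presheaf.map i.op (ψ.app V s) := by
  have := ψ.mapPresheaf.naturality i.op
  simp only [mapPresheaf_app] at this
  exact congr($this s)

/-- the global function attached to an endomorphism of the unit module -/
noncomputable def unitEndFn (ψ : unitMod X ⟶ unitMod X) : Γ(X, ⊤) := toFn (ψ.app ⊤ (ofFn 1))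

/-- every endomorphism of the unit module is multiplication by a global function -/
lemma eq_smulHom_unitEndFn (ψ : unitMod X ⟶ unitMod X) :
    ψ = smulHom (unitEndFn ψ) (unitMod X) := by
  ext V s
  have hs : s = (toFn s) • ofFn (1 : Γ(X, V)) := by rw [smul_ofFn, mul_one]; rfl
  have h1 : ofFn (1 : Γ(X, V)) =
      (unitMod X).presheaf.map (homOfLE (le_top : V ≤ ⊤)).op (ofFn (1 : Γ(X, ⊤))) := by
    rw [map_ofFn, map_one]
  have h2 : ψ.app V (ofFn (1 : Γ(X, V))) = ofFn (resTop X V (unitEndFn ψ)) := by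
    rw [h1, app_map_apply]
    rfl
  calc ψ.app V s = ψ.app V ((toFn s) • ofFn (1 : Γ(X, V))) := by rw [← hs]
    _ = (toFn s) • ψ.app V (ofFn (1 : Γ(X, V))) := Scheme.Modules.Hom.app_smul ψ _ _
    _ = ofFn (toFn s * resTop X V (unitEndFn ψ)) := by rw [h2, smul_ofFn]
    _ = ofFn (resTop X V (unitEndFn ψ) * toFn s) := by rw [mul_comm]
    _ = (smulHom (unitEndFn ψ) (unitMod X)).app V s := rfl

lemma unitEndFn_smulHom (r : Γ(X, ⊤)) : unitEndFn (smulHom r (unitMod X)) = r := by
  change toFn (resTop X ⊤ r • ofFn (1 : Γ(X, ⊤))) = r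
  rw [smul_ofFn, mul_one]
  change resTop X ⊤ r = r
  dsimp only [resTop]
  have : (homOfLE (le_top : (⊤ : X.Opens) ≤ ⊤)).op = 𝟙 _ := rfl
  rw [this, X.presheaf.map_id]
  rfl

/-- `End(𝒪_X) = Γ(X, 𝒪_X)`. -/
theorem smulHom_unit_bijective :
    Function.Bijective (fun r : Γ(X, ⊤) => smulHom r (unitMod X)) :=
  ⟨fun r r' h => by
    have := congrArg unitEndFn h
    simpa only [unitEndFn_smulHom] using this,
   fun ψ => ⟨unitEndFn ψ, (eq_smulHom_unitEndFn ψ).symm⟩⟩


section Restrict

variable {Y : Scheme.{u}} (f : Y ⟶ X) [IsOpenImmersion f]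

lemma appIso_inv_resTop_appTop (W : Y.Opens) (r : Γ(X, ⊤)) :
    (f.appIso W).inv (resTop Y W (f.appTop r)) = resTop X (f ''ᵁ W) r := by
  have h : f.appTop ≫ resTop Y W ≫ (f.appIso W).inv = resTop X (f ''ᵁ W) := by
    have e : W ≤ f ⁻¹ᵁ ⊤ := fun _ _ => trivial
    have h1 : f.appTop ≫ resTop Y W = f.appLE ⊤ W e := rfl
    rw [← Category.assoc, h1, Scheme.Hom.appLE_appIso_inv]
    rfl
  exact congr($h r)

/-- restriction along an open immersion is compatible with multiplication by functions -/
lemma restrict_smulHom (r : Γ(X, ⊤)) (M : X.Modules) :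
    (restrictFunctor f).map (smulHom r M) = smulHom (f.appTop r) (M.restrict f) := by
  ext W s
  change resTop X (f ''ᵁ W) r • (show Γ(M, f ''ᵁ W) from s) =
    (f.appIso W).inv (resTop Y W (f.appTop r)) • (show Γ(M, f ''ᵁ W) from s)
  rw [appIso_inv_resTop_appTop]

end Restrict


section Gen

/-- restriction of sections of a module -/
noncomputable abbrev resM (L : X.Modules) {V U : X.Opens} (h : V ≤ U) : Γ(L, U) ⟶ Γ(L, V) :=
  L.presheaf.map (homOfLE h).op

/-- restriction of functions -/
noncomputable abbrev resO (X : Scheme.{u}) {V U : X.Opens} (h : V ≤ U) : Γ(X, U) ⟶ Γ(X, V) :=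
  X.presheaf.map (homOfLE h).op

lemma resM_resM (L : X.Modules) {W V U : X.Opens} (h : W ≤ V) (h' : V ≤ U) (s : Γ(L, U)) :
    resM L h (resM L h' s) = resM L (h.trans h') s := by
  dsimp only [resM]
  rw [← ConcreteCategory.comp_apply, ← Functor.map_comp]
  rfl

lemma resM_self (L : X.Modules) {U : X.Opens} (s : Γ(L, U)) : resM L (le_refl U) s = s := by
  dsimp only [resM]
  have : (homOfLE (le_refl U)).op = 𝟙 (op U) := rfl
  rw [this, L.presheaf.map_id]
  rfl

lemma resM_smul (L : X.Modules) {V U : X.Opens} (h : V ≤ U) (a : Γ(X, U)) (s : Γ(L, U)) :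
    resM L h (a • s) = resO X h a • resM L h s :=
  Scheme.Modules.map_smul L (homOfLE h) a s

lemma resO_resTop {V U : X.Opens} (h : V ≤ U) (r : Γ(X, ⊤)) :
    resO X h (resTop X U r) = resTop X V r :=
  resTop_map (homOfLE h) r

/-- `e` generates `L` freely over every open contained in `U`. -/
def IsGen (L : X.Modules) (U : X.Opens) (e : Γ(L, U)) : Prop :=
  ∀ (V : X.Opens) (h : V ≤ U), Function.Bijective (fun a : Γ(X, V) => a • resM L h e)

lemma IsGen.restrict {L : X.Modules} {U : X.Opens} {e : Γ(L, U)} (he : IsGen L U e)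
    {U' : X.Opens} (h : U' ≤ U) : IsGen L U' (resM L h e) := by
  intro V hV
  have := he V (hV.trans h)
  simpa only [resM_resM] using this

lemma IsGen.eq_of_smul_eq {L : X.Modules} {U : X.Opens} {e : Γ(L, U)} (he : IsGen L U e)
    {a a' : Γ(X, U)} (h : a • e = a' • e) : a = a' := by
  apply (he U le_rfl).1
  simpa only [resM_self] using h

/-- an endomorphism acts on a freely generated module by a function -/
lemma IsGen.exists_smul {L : X.Modules} {U : X.Opens} {e : Γ(L, U)} (he : IsGen L U e)
    (φ : L ⟶ L) :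
    ∃ a : Γ(X, U), ∀ (V : X.Opens) (h : V ≤ U) (s : Γ(L, V)), φ.app V s = resO X h a • s := by
  obtain ⟨a, ha⟩ := (he U le_rfl).2 (φ.app U e)
  simp only [resM_self] at ha
  refine ⟨a, fun V h s => ?_⟩
  obtain ⟨b, rfl⟩ := (he V h).2 s
  change φ.app V (b • resM L h e) = resO X h a • (b • resM L h e)
  rw [Scheme.Modules.Hom.app_smul]
  have h1 : φ.app V (resM L h e) = resM L h (φ.app U e) := app_map_apply φ (homOfLE h) e
  rw [h1, ← ha, resM_smul, smul_smul, smul_smul, mul_comm]

end Gen


section LocallyGen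

/-- `L` is locally freely generated by one section. -/
def LocallyGen (L : X.Modules) : Prop :=
  ∀ x : X, ∃ (U : X.Opens) (e : Γ(L, U)), x ∈ U ∧ IsGen L U e

variable {L : X.Modules}

lemma eq_of_resTop_eq {ι : Type*} (U : ι → X.Opens) (hU : ∀ x : X, ∃ i, x ∈ U i)
    {r r' : Γ(X, ⊤)} (h : ∀ i, resTop X (U i) r = resTop X (U i) r') : r = r' := by
  apply TopCat.Sheaf.eq_of_locally_eq' X.sheaf U ⊤ (fun i => homOfLE le_top)
  · intro x _
    obtain ⟨i, hi⟩ := hU x
    exact Opens.mem_iSup.mpr ⟨i, hi⟩
  · exact h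

lemma exists_resTop_eq {ι : Type*} (U : ι → X.Opens) (hU : ∀ x : X, ∃ i, x ∈ U i)
    (a : ∀ i, Γ(X, U i)) (ha : TopCat.Presheaf.IsCompatible X.presheaf U a) :
    ∃ r : Γ(X, ⊤), ∀ i, resTop X (U i) r = a i := by
  have hcover : (⊤ : X.Opens) ≤ iSup U := by
    intro x _
    obtain ⟨i, hi⟩ := hU x
    exact Opens.mem_iSup.mpr ⟨i, hi⟩
  obtain ⟨r, hr, -⟩ := TopCat.Sheaf.existsUnique_gluing' X.sheaf U ⊤ (fun i => homOfLE le_top)
    hcover a ha
  exact ⟨r, hr⟩

lemma smulHom_injective_of_locallyGen (hL : LocallyGen L) :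
    Function.Injective (fun r : Γ(X, ⊤) => smulHom r L) := by
  intro r r' h
  choose U e hxU he using hL
  apply eq_of_resTop_eq U (fun x => ⟨x, hxU x⟩)
  intro x
  apply (he x).eq_of_smul_eq
  have := congr($(congrArg (fun ψ : L ⟶ L => ψ.app (U x)) h) (e x))
  exact this

lemma smulHom_surjective_of_locallyGen (hL : LocallyGen L) :
    Function.Surjective (fun r : Γ(X, ⊤) => smulHom r L) := by
  intro φ
  choose U e hxU he using hL
  choose a ha using fun x => (he x).exists_smul φ
  have hcompat : TopCat.Presheaf.IsCompatible X.presheaf U a := by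
    intro x y
    have hg : IsGen L (U x ⊓ U y) (resM L inf_le_left (e x)) := (he x).restrict inf_le_left
    apply hg.eq_of_smul_eq
    have h1 := ha x (U x ⊓ U y) inf_le_left (resM L inf_le_left (e x))
    have h2 := ha y (U x ⊓ U y) inf_le_right (resM L inf_le_left (e x))
    exact h1.symm.trans h2
  obtain ⟨r, hr⟩ := exists_resTop_eq U (fun x => ⟨x, hxU x⟩) a hcompat
  refine ⟨r, ?_⟩
  symm
  ext W s
  apply TopCat.Sheaf.eq_of_locally_eq' (⟨L.presheaf, L.isSheaf⟩ : TopCat.Sheaf Ab X)
    (fun x => W ⊓ U x) W (fun _ => homOfLE inf_le_left)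
  · intro y hy
    exact Opens.mem_iSup.mpr ⟨y, hy, hxU y⟩
  · intro x
    change resM L inf_le_left (φ.app W s) = resM L inf_le_left (resTop X W r • s)
    have h1 : resM L (inf_le_left : W ⊓ U x ≤ W) (φ.app W s) =
        φ.app (W ⊓ U x) (resM L inf_le_left s) := (app_map_apply φ (homOfLE inf_le_left) s).symm
    rw [h1, ha x (W ⊓ U x) inf_le_right, resM_smul, resO_resTop]
    congr 1
    rw [← hr x, resO_resTop]

/-- **`End(L) = Γ(X, 𝒪_X)` for a locally freely generated module.** -/
theorem smulHom_bijective_of_locallyGen (hL : LocallyGen L) :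
    Function.Bijective (fun r : Γ(X, ⊤) => smulHom r L) :=
  ⟨smulHom_injective_of_locallyGen hL, smulHom_surjective_of_locallyGen hL⟩

end LocallyGen


section OfTrivialization

variable {Y : Scheme.{u}} (f : Y ⟶ X) [IsOpenImmersion f] {L : X.Modules}
  (t : L.restrict f ≅ unitMod Y)

/-- the generator attached to a trivialisation, over the image of `W` -/
noncomputable def genOn (W : Y.Opens) : Γ(L, f ''ᵁ W) :=
  (show Γ(L.restrict f, W) from t.inv.app W (ofFn 1))

lemma genOn_map {W W' : Y.Opens} (h : W' ≤ W) :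
    resM L (f.image_mono h) (genOn f t W) = genOn f t W' := by
  have h1 := app_map_apply t.inv (homOfLE h) (ofFn (1 : Γ(Y, W)))
  rw [map_ofFn, map_one] at h1
  exact h1.symm

lemma smul_genOn (W : Y.Opens) (a : Γ(X, f ''ᵁ W)) :
    a • genOn f t W =
      (show Γ(L, f ''ᵁ W) from t.inv.app W (ofFn ((f.appIso W).hom a))) := by
  have h1 : ofFn ((f.appIso W).hom a) = ((f.appIso W).hom a) • ofFn (1 : Γ(Y, W)) := by
    rw [smul_ofFn, mul_one]
  rw [h1, Scheme.Modules.Hom.app_smul]
  have e : (f.appIso W).inv ((f.appIso W).hom a) = a := by simp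
  change a • genOn f t W = (f.appIso W).inv ((f.appIso W).hom a) • genOn f t W
  rw [e]

lemma bijective_smul_genOn (W : Y.Opens) :
    Function.Bijective (fun a : Γ(X, f ''ᵁ W) => a • genOn f t W) := by
  have h : (fun a : Γ(X, f ''ᵁ W) => a • genOn f t W) =
      (fun s : Γ(unitMod Y, W) => (show Γ(L, f ''ᵁ W) from t.inv.app W s)) ∘
        (fun a : Γ(X, f ''ᵁ W) => ofFn ((f.appIso W).hom a)) := by
    funext a
    exact smul_genOn f t W a
  rw [h]
  apply Function.Bijective.comp
  · exact (ConcreteCategory.bijective_of_isIso (t.inv.app W))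
  · exact (ConcreteCategory.bijective_of_isIso (f.appIso W).hom)


lemma image_preimage_of_le_image_top {V : X.Opens} (hV : V ≤ f ''ᵁ ⊤) :
    f ''ᵁ (f ⁻¹ᵁ V) = V := by
  rw [Scheme.Hom.image_preimage_eq_opensRange_inf, ← Scheme.Hom.image_top_eq_opensRange]
  exact inf_eq_right.mpr hV

/-- a trivialisation over an open immersion gives a free generator over its image -/
theorem isGen_genOn : IsGen L (f ''ᵁ ⊤) (genOn f t ⊤) := by
  have key : ∀ (W : Y.Opens) (h : f ''ᵁ W ≤ f ''ᵁ ⊤),
      Function.Bijective (fun a : Γ(X, f ''ᵁ W) => a • resM L h (genOn f t ⊤)) := by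
    intro W h
    have := bijective_smul_genOn f t W
    rwa [← genOn_map f t (le_top : W ≤ ⊤)] at this
  intro V hV
  have hV' := image_preimage_of_le_image_top f hV
  have := key (f ⁻¹ᵁ V)
  rw [hV'] at this
  exact this hV

end OfTrivialization


section Invertible

variable {L L' : X.Modules}

/-- an invertible module (in the sense of the Prelude) is locally freely generated -/
theorem locallyGen_of_isInvertible (hL : Scheme.Modules.IsInvertible L) : LocallyGen L := by
  intro x
  obtain ⟨U, hxU, ⟨t⟩⟩ := hL.exists_trivialization x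
  let t' : L.restrict U.ι ≅ unitMod U.toScheme := (restrictFunctorIsoPullback U.ι).app L ≪≫ t
  refine ⟨U.ι ''ᵁ ⊤, genOn U.ι t' ⊤, ?_, isGen_genOn U.ι t'⟩
  rw [Scheme.Opens.ι_image_top]
  exact hxU

/-- **`End(L) = Γ(X, 𝒪_X)` for an invertible module.** -/
theorem smulHom_bijective_of_isInvertible (hL : Scheme.Modules.IsInvertible L) :
    Function.Bijective (fun r : Γ(X, ⊤) => smulHom r L) :=
  smulHom_bijective_of_locallyGen (locallyGen_of_isInvertible hL)

/-- every endomorphism of an invertible module is multiplication by a unique global function -/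
theorem existsUnique_smulHom_eq (hL : Scheme.Modules.IsInvertible L) (φ : L ⟶ L) :
    ∃! r : Γ(X, ⊤), smulHom r L = φ := by
  obtain ⟨hinj, hsurj⟩ := smulHom_bijective_of_isInvertible hL
  obtain ⟨r, hr⟩ := hsurj φ
  exact ⟨r, hr, fun r' hr' => hinj (hr'.trans hr.symm)⟩

/-- two isomorphisms out of an invertible module differ by a unique global unit -/
theorem existsUnique_unit_of_iso (hL : Scheme.Modules.IsInvertible L) (a b : L ≅ L') :
    ∃! w : Γ(X, ⊤)ˣ, b.hom = smulHom (w : Γ(X, ⊤)) L ≫ a.hom := by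
  obtain ⟨hinj, hsurj⟩ := smulHom_bijective_of_isInvertible hL
  obtain ⟨r, hr⟩ := hsurj (b.hom ≫ a.inv)
  obtain ⟨r', hr'⟩ := hsurj (a.hom ≫ b.inv)
  simp only at hr hr'
  have h1 : r * r' = 1 := by
    apply hinj
    simp only
    rw [smulHom_mul, hr, hr', smulHom_one]
    simp
  have h2 : r' * r = 1 := by rw [mul_comm]; exact h1
  refine ⟨⟨r, r', h1, h2⟩, ?_, ?_⟩
  · change b.hom = smulHom r L ≫ a.hom
    rw [hr]
    simp
  · intro w hw
    apply Units.ext
    apply hinj
    change smulHom (w : Γ(X, ⊤)) L = smulHom r L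
    rw [hr, hw]
    simp

end Invertible


section Pullback

variable {T : Scheme.{u}} (e : T ⟶ X)

lemma app_resTop (U : X.Opens) (r : Γ(X, ⊤)) :
    e.app U (resTop X U r) = resTop T (e ⁻¹ᵁ U) (e.appTop r) := by
  have := e.naturality (homOfLE (le_top : U ≤ ⊤)).op
  exact congr($this r)

lemma pushforward_smul (K : T.Modules) (U : X.Opens) (a : Γ(X, U))
    (s : Γ((pushforward e).obj K, U)) :
    a • s = (show Γ((pushforward e).obj K, U) from (e.app U a) • (show Γ(K, e ⁻¹ᵁ U) from s)) :=
  rfl

/-- pushforward is compatible with multiplication by functions -/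
lemma pushforward_map_smulHom (r : Γ(X, ⊤)) (K : T.Modules) :
    (pushforward e).map (smulHom (e.appTop r) K) = smulHom r ((pushforward e).obj K) := by
  ext U s
  change resTop T (e ⁻¹ᵁ U) (e.appTop r) • (show Γ(K, e ⁻¹ᵁ U) from s) = resTop X U r • s
  rw [pushforward_smul, app_resTop]

/-- **pullback is compatible with multiplication by functions** -/
theorem pullback_map_smulHom (r : Γ(X, ⊤)) (M : X.Modules) :
    (Scheme.Modules.pullback e).map (smulHom r M) =
      smulHom (e.appTop r) ((Scheme.Modules.pullback e).obj M) := by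
  let adj := pullbackPushforwardAdjunction e
  apply (adj.homEquiv _ _).injective
  have h1 : adj.homEquiv _ _ ((Scheme.Modules.pullback e).map (smulHom r M)) =
      smulHom r M ≫ adj.unit.app M := by
    rw [Adjunction.homEquiv_unit]
    exact (adj.unit.naturality (smulHom r M)).symm
  have h2 : adj.homEquiv _ _ (smulHom (e.appTop r) ((Scheme.Modules.pullback e).obj M)) =
      adj.unit.app M ≫ smulHom r ((pushforward e).obj ((Scheme.Modules.pullback e).obj M)) := by
    rw [Adjunction.homEquiv_unit, pushforward_map_smulHom]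
  rw [h1, h2, smulHom_comp]
  rfl

end Pullback

end Fermat.Agent.JAC.Glue.EndInv23
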