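/-
JAC programme, work package B4 (gluing on the scheme side), part G1:
**morphisms and isomorphisms of sheaves of modules on a scheme glue along an open cover.**

Part A (topological): for presheaves of abelian groups `F G` on a space, with `G` a sheaf,
a compatible family of `LocalHom F G (U i)` over an open cover glues uniquely to `F ⟶ G`
(`existsUnique_glue`, `glueHom`, `hom_ext_of_cover`).

Part B (schemes): for `M N : X.Modules` and a jointly surjective family of open immersions
`j i : Y i ⟶ X`, a family `φ i : M.restrict (j i) ⟶ N.restrict (j i)` which is `Compatible`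
(agrees sectionwise on every open of `X` contained in two of the ranges) glues uniquely to
`ψ : M ⟶ N` with `(restrictFunctor (j i)).map ψ = φ i`
(`existsUnique_glueModules`, `glueModulesHom`, `hom_ext_of_restrict`), and a compatible family
of isomorphisms glues to an isomorphism (`glueModulesIso`).

Mathlib only.
-/
import Mathlib

set_option autoImplicit false

open CategoryTheory TopologicalSpace Opposite TopCat AlgebraicGeometry

universe u

namespace Fermat.Agent.JAC.Glue.HomGlue23

variable {X : TopCat.{u}}

/-- A morphism of presheaves defined only over the opens contained in `U`. -/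
structure LocalHom (F G : TopCat.Presheaf Ab.{u} X) (U : Opens X) where
  app : ∀ V : Opens X, V ≤ U → (F.obj (op V) ⟶ G.obj (op V))
  naturality : ∀ {V W : Opens X} (hV : V ≤ U) (hWV : W ≤ V),
    app V hV ≫ G.map (homOfLE hWV).op = F.map (homOfLE hWV).op ≫ app W (hWV.trans hV)

variable {F G : TopCat.Presheaf Ab.{u} X}

namespace LocalHom

@[ext]
lemma ext {U : Opens X} {φ ψ : LocalHom F G U} (h : ∀ V hV, φ.app V hV = ψ.app V hV) : φ = ψ := by
  cases φ; cases ψ; congr; funext V hV; exact h V hV

lemma naturality_apply {U : Opens X} (φ : LocalHom F G U) {V W : Opens X} (hV : V ≤ U)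
    (hWV : W ≤ V) (s : F.obj (op V)) :
    G.map (homOfLE hWV).op (φ.app V hV s) = φ.app W (hWV.trans hV) (F.map (homOfLE hWV).op s) := by
  have := φ.naturality hV hWV
  exact congr($this s)

/-- A global morphism gives a local one. -/
def ofHom (φ : F ⟶ G) (U : Opens X) : LocalHom F G U where
  app V _ := φ.app (op V)
  naturality _ _ := (φ.naturality _).symm

/-- Restriction of a local morphism to a smaller open. -/
def restrict {U : Opens X} (φ : LocalHom F G U) {U' : Opens X} (h : U' ≤ U) : LocalHom F G U' where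
  app V hV := φ.app V (hV.trans h)
  naturality hV hWV := φ.naturality (hV.trans h) hWV

end LocalHom

section Glue

variable (hG : G.IsSheaf) {ι : Type*} (U : ι → Opens X) (hU : ∀ x : X, ∃ i, x ∈ U i)
  (φ : ∀ i, LocalHom F G (U i))
  (hφ : ∀ i j (V : Opens X) (hi : V ≤ U i) (hj : V ≤ U j), (φ i).app V hi = (φ j).app V hj)

include hU in
lemma le_iSup_inf (V : Opens X) : V ≤ ⨆ i, V ⊓ U i := by
  intro x hx
  obtain ⟨i, hi⟩ := hU x
  exact Opens.mem_iSup.mpr ⟨i, hx, hi⟩

/-- the local values of the glued morphism on a section -/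
def localVal (V : Opens X) (s : F.obj (op V)) (i : ι) : G.obj (op (V ⊓ U i)) :=
  (φ i).app (V ⊓ U i) inf_le_right (F.map (homOfLE inf_le_left).op s)

include hφ in
lemma localVal_compatible (V : Opens X) (s : F.obj (op V)) :
    TopCat.Presheaf.IsCompatible G (fun i => V ⊓ U i) (localVal U φ V s) := by
  intro i j
  dsimp only [localVal]
  have e1 := (φ i).naturality_apply (inf_le_right : V ⊓ U i ≤ U i)
    (inf_le_left : (V ⊓ U i) ⊓ (V ⊓ U j) ≤ V ⊓ U i) (F.map (homOfLE inf_le_left).op s)
  have e2 := (φ j).naturality_apply (inf_le_right : V ⊓ U j ≤ U j)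
    (inf_le_right : (V ⊓ U i) ⊓ (V ⊓ U j) ≤ V ⊓ U j) (F.map (homOfLE inf_le_left).op s)
  change G.map (homOfLE _).op _ = G.map (homOfLE _).op _
  rw [e1, e2, hφ i j _ _ (inf_le_right.trans inf_le_right)]
  congr 1
  rw [← ConcreteCategory.comp_apply, ← ConcreteCategory.comp_apply, ← F.map_comp, ← F.map_comp]
  rfl


include hG hU hφ in
lemma existsUnique_glueVal (V : Opens X) (s : F.obj (op V)) :
    ∃! t : G.obj (op V), ∀ i,
      G.map (homOfLE (inf_le_left : V ⊓ U i ≤ V)).op t = localVal U φ V s i :=
  TopCat.Sheaf.existsUnique_gluing' (⟨G, hG⟩ : TopCat.Sheaf Ab X) (fun i => V ⊓ U i) V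
    (fun _ => homOfLE inf_le_left) (le_iSup_inf U hU V) _ (localVal_compatible U φ hφ V s)

/-- the value of the glued morphism on a section -/
noncomputable def glueVal (V : Opens X) (s : F.obj (op V)) : G.obj (op V) :=
  (existsUnique_glueVal hG U hU φ hφ V s).choose

lemma glueVal_spec (V : Opens X) (s : F.obj (op V)) (i : ι) :
    G.map (homOfLE (inf_le_left : V ⊓ U i ≤ V)).op (glueVal hG U hU φ hφ V s) =
      localVal U φ V s i :=
  (existsUnique_glueVal hG U hU φ hφ V s).choose_spec.1 i

lemma glueVal_unique (V : Opens X) (s : F.obj (op V)) (t : G.obj (op V))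
    (ht : ∀ i, G.map (homOfLE (inf_le_left : V ⊓ U i ≤ V)).op t = localVal U φ V s i) :
    t = glueVal hG U hU φ hφ V s :=
  (existsUnique_glueVal hG U hU φ hφ V s).choose_spec.2 t ht

lemma localVal_add (V : Opens X) (s s' : F.obj (op V)) (i : ι) :
    localVal U φ V (s + s') i = localVal U φ V s i + localVal U φ V s' i := by
  simp [localVal]

/-- the glued morphism on sections over `V` -/
noncomputable def glueApp (V : Opens X) : F.obj (op V) ⟶ G.obj (op V) :=
  AddCommGrpCat.ofHom
    (AddMonoidHom.mk' (glueVal hG U hU φ hφ V) (by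
      intro s s'
      symm
      apply glueVal_unique
      intro i
      rw [map_add, glueVal_spec, glueVal_spec, localVal_add]))

@[simp]
lemma glueApp_apply (V : Opens X) (s : F.obj (op V)) :
    glueApp hG U hU φ hφ V s = glueVal hG U hU φ hφ V s := rfl

lemma glueVal_map {V W : Opens X} (hWV : W ≤ V) (s : F.obj (op V)) :
    G.map (homOfLE hWV).op (glueVal hG U hU φ hφ V s) =
      glueVal hG U hU φ hφ W (F.map (homOfLE hWV).op s) := by
  apply glueVal_unique
  intro i
  have h1 : G.map (homOfLE (inf_le_left : W ⊓ U i ≤ W)).op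
      (G.map (homOfLE hWV).op (glueVal hG U hU φ hφ V s)) =
      G.map (homOfLE (inf_le_inf_right (U i) hWV : W ⊓ U i ≤ V ⊓ U i)).op
        (G.map (homOfLE (inf_le_left : V ⊓ U i ≤ V)).op (glueVal hG U hU φ hφ V s)) := by
    rw [← ConcreteCategory.comp_apply, ← ConcreteCategory.comp_apply, ← G.map_comp, ← G.map_comp]
    rfl
  rw [h1, glueVal_spec]
  dsimp only [localVal]
  rw [(φ i).naturality_apply]
  congr 1
  rw [← ConcreteCategory.comp_apply, ← ConcreteCategory.comp_apply, ← F.map_comp, ← F.map_comp]
  rfl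

/-- the glued morphism -/
noncomputable def glueHom : F ⟶ G where
  app V := glueApp hG U hU φ hφ V.unop
  naturality V W f := by
    ext s
    have := glueVal_map hG U hU φ hφ (leOfHom f.unop) s
    exact this.symm

lemma glueHom_app_of_le (i : ι) (V : Opens X) (hV : V ≤ U i) :
    (glueHom hG U hU φ hφ).app (op V) = (φ i).app V hV := by
  ext s
  symm
  change (φ i).app V hV s = glueVal hG U hU φ hφ V s
  apply glueVal_unique
  intro j
  dsimp only [localVal]
  rw [(φ i).naturality_apply]
  exact congr($(hφ i j (V ⊓ U j) (inf_le_left.trans hV) inf_le_right) _)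

include hG hU in
lemma hom_ext_of_cover {ψ ψ' : F ⟶ G}
    (h : ∀ i (V : Opens X), V ≤ U i → ψ.app (op V) = ψ'.app (op V)) : ψ = ψ' := by
  ext V s
  apply TopCat.Sheaf.eq_of_locally_eq' (⟨G, hG⟩ : TopCat.Sheaf Ab X) (fun i => V ⊓ U i) V
    (fun i => homOfLE inf_le_left) (le_iSup_inf U hU V)
  intro i
  change G.map _ (ψ.app (op V) s) = G.map _ (ψ'.app (op V) s)
  have e1 := congr($(ψ.naturality (homOfLE (inf_le_left : V ⊓ U i ≤ V)).op) s)
  have e2 := congr($(ψ'.naturality (homOfLE (inf_le_left : V ⊓ U i ≤ V)).op) s)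
  simp only [ConcreteCategory.comp_apply] at e1 e2
  rw [← e1, ← e2, h i (V ⊓ U i) inf_le_right]

include hG hU hφ in
/-- **Morphisms of sheaves glue.** -/
theorem existsUnique_glue :
    ∃! ψ : F ⟶ G, ∀ i (V : Opens X) (hV : V ≤ U i), ψ.app (op V) = (φ i).app V hV := by
  refine ⟨glueHom hG U hU φ hφ, glueHom_app_of_le hG U hU φ hφ, fun ψ hψ => ?_⟩
  apply hom_ext_of_cover hG U hU
  intro i V hV
  rw [hψ i V hV, glueHom_app_of_le hG U hU φ hφ i V hV]

end Glue


/-! ## Part B: sheaves of modules on a scheme -/

section Modules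

open AlgebraicGeometry.Scheme.Modules

variable {X Y : Scheme.{u}} (j : Y ⟶ X) [IsOpenImmersion j] {M N : X.Modules}

lemma image_preimage_of_le {V : X.Opens} (hV : V ≤ j.opensRange) : j ''ᵁ (j ⁻¹ᵁ V) = V := by
  rw [Scheme.Hom.image_preimage_eq_opensRange_inf]; exact inf_eq_right.mpr hV

/-- the component of a morphism between restrictions, as a map between sections over the image -/
noncomputable def appX (φ : M.restrict j ⟶ N.restrict j) (W : Y.Opens) :
    Γ(M, j ''ᵁ W) ⟶ Γ(N, j ''ᵁ W) := φ.app W

lemma appX_naturality (φ : M.restrict j ⟶ N.restrict j) {W W' : Y.Opens} (i : W' ⟶ W) :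
    M.presheaf.map (j.opensFunctor.map i).op ≫ appX j φ W' =
      appX j φ W ≫ N.presheaf.map (j.opensFunctor.map i).op :=
  φ.mapPresheaf.naturality i.op

lemma appX_smul (φ : M.restrict j ⟶ N.restrict j) (W : Y.Opens) (r : Γ(X, j ''ᵁ W))
    (m : Γ(M, j ''ᵁ W)) :
    appX j φ W (r • m) = r • appX j φ W m := by
  have key : ∀ r' : Γ(Y, W),
      appX j φ W ((j.appIso W).inv r' • m) = (j.appIso W).inv r' • appX j φ W m := fun r' =>
    Scheme.Modules.Hom.app_smul φ r' (show Γ(M.restrict j, W) from m)
  have e : (j.appIso W).inv ((j.appIso W).hom r) = r := by simp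
  have := key ((j.appIso W).hom r)
  rwa [e] at this

lemma appX_eqToHom (φ : M.restrict j ⟶ N.restrict j) {W W' : Y.Opens} (h : W = W') :
    appX j φ W = M.presheaf.map (eqToHom (by rw [h])).op ≫ appX j φ W' ≫
      N.presheaf.map (eqToHom (by rw [h])).op := by
  subst h
  simp

/-- A morphism between the restrictions along an open immersion, as a local morphism of the
underlying presheaves over the range. -/
noncomputable def locHom (φ : M.restrict j ⟶ N.restrict j) :
    LocalHom M.presheaf N.presheaf j.opensRange where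
  app V hV := M.presheaf.map (eqToHom (image_preimage_of_le j hV)).op ≫ appX j φ (j ⁻¹ᵁ V) ≫
      N.presheaf.map (eqToHom (image_preimage_of_le j hV).symm).op
  naturality {V W} hV hWV := by
    have nat := appX_naturality j φ ((Opens.map j.base).map (homOfLE hWV))
    have h1 : M.presheaf.map (homOfLE hWV).op ≫
        M.presheaf.map (eqToHom (image_preimage_of_le j (hWV.trans hV))).op =
        M.presheaf.map (eqToHom (image_preimage_of_le j hV)).op ≫
          M.presheaf.map (j.opensFunctor.map ((Opens.map j.base).map (homOfLE hWV))).op := by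
      rw [← Functor.map_comp, ← Functor.map_comp]
      congr 1
    have h2 : N.presheaf.map (j.opensFunctor.map ((Opens.map j.base).map (homOfLE hWV))).op ≫
        N.presheaf.map (eqToHom (image_preimage_of_le j (hWV.trans hV)).symm).op =
        N.presheaf.map (eqToHom (image_preimage_of_le j hV).symm).op ≫
          N.presheaf.map (homOfLE hWV).op := by
      rw [← Functor.map_comp, ← Functor.map_comp]
      congr 1
    simp only [Category.assoc]
    rw [← h2, reassoc_of% h1, reassoc_of% nat]


lemma locHom_app_image (φ : M.restrict j ⟶ N.restrict j) (W : Y.Opens) :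
    (locHom j φ).app (j ''ᵁ W) (j.image_le_opensRange W) = appX j φ W := by
  dsimp only [locHom]
  exact (appX_eqToHom j φ (j.preimage_image_eq W).symm).symm

section GlueModules

variable {ι : Type*} {Y : ι → Scheme.{u}} (j : ∀ i, Y i ⟶ X) [∀ i, IsOpenImmersion (j i)]
  (hj : ∀ x : X, ∃ i, x ∈ (j i).opensRange)

/-- Compatibility of a family of morphisms between restrictions on the overlaps. -/
def Compatible (φ : ∀ i, M.restrict (j i) ⟶ N.restrict (j i)) : Prop :=
  ∀ i i' (V : X.Opens) (h : V ≤ (j i).opensRange) (h' : V ≤ (j i').opensRange),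
    (locHom (j i) (φ i)).app V h = (locHom (j i') (φ i')).app V h'

variable (φ : ∀ i, M.restrict (j i) ⟶ N.restrict (j i)) (hφ : Compatible j φ)

/-- the glued morphism of underlying presheaves of abelian groups -/
noncomputable def gluePresheafHom : M.presheaf ⟶ N.presheaf :=
  glueHom N.isSheaf (fun i => (j i).opensRange) hj (fun i => locHom (j i) (φ i)) hφ

lemma gluePresheafHom_app_of_le (i : ι) (V : X.Opens) (hV : V ≤ (j i).opensRange) :
    (gluePresheafHom j hj φ hφ).app (op V) = (locHom (j i) (φ i)).app V hV :=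
  glueHom_app_of_le N.isSheaf _ hj _ hφ i V hV

lemma locHom_app_smul (i : ι) (V : X.Opens) (hV : V ≤ (j i).opensRange) (r : Γ(X, V))
    (m : Γ(M, V)) :
    (locHom (j i) (φ i)).app V hV (r • m) = r • (locHom (j i) (φ i)).app V hV m := by
  dsimp only [locHom]
  simp only [ConcreteCategory.comp_apply]
  erw [Scheme.Modules.map_smul, appX_smul, Scheme.Modules.map_smul]
  congr 1
  rw [← ConcreteCategory.comp_apply, ← Functor.map_comp]
  simp


lemma gluePresheafHom_smul (V : X.Opens) (r : Γ(X, V)) (m : Γ(M, V)) :
    (gluePresheafHom j hj φ hφ).app (op V) (r • m) =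
      r • (gluePresheafHom j hj φ hφ).app (op V) m := by
  apply TopCat.Sheaf.eq_of_locally_eq' (⟨N.presheaf, N.isSheaf⟩ : TopCat.Sheaf Ab X)
    (fun i => V ⊓ (j i).opensRange) V (fun _ => homOfLE inf_le_left)
    (le_iSup_inf (fun i => (j i).opensRange) hj V)
  intro i
  have nat := fun s => congr($((gluePresheafHom j hj φ hφ).naturality
    (homOfLE (inf_le_left : V ⊓ (j i).opensRange ≤ V)).op) s)
  simp only [ConcreteCategory.comp_apply] at nat
  change N.presheaf.map _ _ = N.presheaf.map _ _
  rw [← nat]
  erw [Scheme.Modules.map_smul, Scheme.Modules.map_smul]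
  rw [← nat, gluePresheafHom_app_of_le j hj φ hφ i _ inf_le_right]
  exact locHom_app_smul j φ i _ inf_le_right _ _

/-- the glued morphism of sheaves of modules -/
noncomputable def glueModulesHom : M ⟶ N :=
  (⟨PresheafOfModules.homMk (gluePresheafHom j hj φ hφ)
    (fun V r m => gluePresheafHom_smul j hj φ hφ V.unop r m)⟩ : SheafOfModules.Hom M N)

lemma glueModulesHom_app (V : X.Opens) :
    (glueModulesHom j hj φ hφ).app V = (gluePresheafHom j hj φ hφ).app (op V) := by
  ext s
  rfl


lemma restrict_glueModulesHom (i : ι) :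
    (restrictFunctor (j i)).map (glueModulesHom j hj φ hφ) = φ i := by
  ext W : 1
  change (glueModulesHom j hj φ hφ).app ((j i) ''ᵁ W) = appX (j i) (φ i) W
  rw [glueModulesHom_app, gluePresheafHom_app_of_le j hj φ hφ i _ ((j i).image_le_opensRange W),
    locHom_app_image]

omit hj hφ in
lemma app_eq_locHom_of_restrict_eq {ψ : M ⟶ N} (i : ι)
    (hψ : (restrictFunctor (j i)).map ψ = φ i) (V : X.Opens) (hV : V ≤ (j i).opensRange) :
    ψ.app V = (locHom (j i) (φ i)).app V hV := by
  rw [← hψ]
  dsimp only [locHom]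
  change ψ.app V = M.presheaf.map _ ≫ ψ.app ((j i) ''ᵁ ((j i) ⁻¹ᵁ V)) ≫ N.presheaf.map _
  have nat := ψ.mapPresheaf.naturality (eqToHom (image_preimage_of_le (j i) hV)).op
  simp only [mapPresheaf_app] at nat
  rw [reassoc_of% nat, ← Functor.map_comp]
  simp

include hj in
omit hφ in
lemma hom_ext_of_restrict {ψ ψ' : M ⟶ N}
    (h : ∀ i, (restrictFunctor (j i)).map ψ = (restrictFunctor (j i)).map ψ') : ψ = ψ' := by
  apply (Scheme.Modules.toPresheaf X).map_injective
  apply hom_ext_of_cover N.isSheaf (fun i => (j i).opensRange) hj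
  intro i V hV
  change ψ.app V = ψ'.app V
  rw [app_eq_locHom_of_restrict_eq j (fun i => (restrictFunctor (j i)).map ψ') i (h i) V hV,
    app_eq_locHom_of_restrict_eq j (fun i => (restrictFunctor (j i)).map ψ') i rfl V hV]

include hj hφ in
/-- **Morphisms of sheaves of modules glue along an open cover.** -/
theorem existsUnique_glueModules :
    ∃! ψ : M ⟶ N, ∀ i, (restrictFunctor (j i)).map ψ = φ i := by
  refine ⟨glueModulesHom j hj φ hφ, restrict_glueModulesHom j hj φ hφ, fun ψ hψ => ?_⟩
  apply hom_ext_of_restrict j hj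
  intro i
  rw [hψ i, restrict_glueModulesHom j hj φ hφ i]


omit hj hφ in
lemma compatible_restrict (ψ : M ⟶ N) :
    Compatible j (fun i => (restrictFunctor (j i)).map ψ) := by
  intro i i' V h h'
  have e1 := app_eq_locHom_of_restrict_eq j (fun i => (restrictFunctor (j i)).map ψ) i rfl V h
  have e2 := app_eq_locHom_of_restrict_eq j (fun i => (restrictFunctor (j i)).map ψ) i' rfl V h'
  exact e1.symm.trans e2

end GlueModules

section LocHomFunctoriality

variable {K : X.Modules}

lemma appX_id (W : Y.Opens) : appX j (𝟙 (M.restrict j)) W = 𝟙 _ := rfl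

lemma appX_comp (φ : M.restrict j ⟶ N.restrict j) (ψ : N.restrict j ⟶ K.restrict j)
    (W : Y.Opens) : appX j (φ ≫ ψ) W = appX j φ W ≫ appX j ψ W := rfl

lemma locHom_id (V : X.Opens) (hV : V ≤ j.opensRange) :
    (locHom j (𝟙 (M.restrict j))).app V hV = 𝟙 _ := by
  dsimp only [locHom]
  rw [appX_id, Category.id_comp, ← CategoryTheory.Functor.map_comp]
  simp

lemma locHom_comp (φ : M.restrict j ⟶ N.restrict j) (ψ : N.restrict j ⟶ K.restrict j)
    (V : X.Opens) (hV : V ≤ j.opensRange) :
    (locHom j (φ ≫ ψ)).app V hV = (locHom j φ).app V hV ≫ (locHom j ψ).app V hV := by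
  dsimp only [locHom]
  rw [appX_comp]
  simp only [Category.assoc]
  congr 2
  rw [← CategoryTheory.Functor.map_comp_assoc]
  simp

end LocHomFunctoriality

section GlueIso

variable {ι : Type*} {Y : ι → Scheme.{u}} (j : ∀ i, Y i ⟶ X) [∀ i, IsOpenImmersion (j i)]
  (hj : ∀ x : X, ∃ i, x ∈ (j i).opensRange)
  (e : ∀ i, M.restrict (j i) ≅ N.restrict (j i)) (he : Compatible j (fun i => (e i).hom))

include he in
lemma compatible_inv : Compatible j (fun i => (e i).inv) := by
  intro i i' V h h'
  have h1 : (locHom (j i) (e i).hom).app V h ≫ (locHom (j i) (e i).inv).app V h = 𝟙 _ := by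
    rw [← locHom_comp, Iso.hom_inv_id, locHom_id]
  have h2 : (locHom (j i') (e i').inv).app V h' ≫ (locHom (j i') (e i').hom).app V h' = 𝟙 _ := by
    rw [← locHom_comp, Iso.inv_hom_id, locHom_id]
  calc (locHom (j i) (e i).inv).app V h
      = ((locHom (j i') (e i').inv).app V h' ≫ (locHom (j i') (e i').hom).app V h') ≫
          (locHom (j i) (e i).inv).app V h := by rw [h2, Category.id_comp]
    _ = (locHom (j i') (e i').inv).app V h' ≫ ((locHom (j i) (e i).hom).app V h ≫
          (locHom (j i) (e i).inv).app V h) := by rw [Category.assoc, he i i' V h h']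
    _ = (locHom (j i') (e i').inv).app V h' := by rw [h1, Category.comp_id]

/-- **Isomorphisms of sheaves of modules glue along an open cover.** -/
noncomputable def glueModulesIso : M ≅ N where
  hom := glueModulesHom j hj (fun i => (e i).hom) he
  inv := glueModulesHom j hj (fun i => (e i).inv) (compatible_inv j e he)
  hom_inv_id := by
    apply hom_ext_of_restrict j hj
    intro i
    rw [CategoryTheory.Functor.map_comp, restrict_glueModulesHom, restrict_glueModulesHom,
      Iso.hom_inv_id, CategoryTheory.Functor.map_id]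
  inv_hom_id := by
    apply hom_ext_of_restrict j hj
    intro i
    rw [CategoryTheory.Functor.map_comp, restrict_glueModulesHom, restrict_glueModulesHom,
      Iso.inv_hom_id, CategoryTheory.Functor.map_id]

lemma restrict_glueModulesIso_hom (i : ι) :
    (restrictFunctor (j i)).map (glueModulesIso j hj e he).hom = (e i).hom :=
  restrict_glueModulesHom j hj _ he i

end GlueIso
end Modules

end Fermat.Agent.JAC.Glue.HomGlue23
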