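/-
JAC programme, work package B4b (helper23), brick (S): **smallness of the relative Picard classes.**

* `coeff`, `genHom` : coordinates with respect to a free generator (`EndInv23.IsGen`) and the local
  morphism sending a generator to a given section.
* `glueLinearHom` : linear local morphisms (`HomGlue23.LocalHom`) which agree on overlaps glue to a
  morphism of sheaves of modules.
* `trans`, `nonempty_iso_of_trans_eq` : two modules with generating systems over the same opens and
  the same transition functions are isomorphic.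
* `small_invClasses : Small.{u} (Quotient (invSetoid X))` : the isomorphism classes of invertible
  modules on `X : Scheme.{u}` form a `u`-small type.
* `small_classes : Small.{u} (RigidifiedLineBundle.Classes c ε t)` : the Prelude's value of the
  relative Picard presheaf is `u`-small (so it can be shrunk to `Type u`).
-/
import Mathlib
import Fermat.Prelude.Def_AlgebraicGeometry_RelativePicardFunctor
import Fermat.Agent.JAC.Glue.HomGlue23
import Fermat.Agent.JAC.Glue.EndInv23

set_option autoImplicit false

open CategoryTheory TopologicalSpace Opposite TopCat AlgebraicGeometry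

universe u

namespace Fermat.Agent.JAC.Glue.SmallClasses23

open AlgebraicGeometry.Scheme.Modules
open Fermat.Agent.JAC.Glue.HomGlue23
open Fermat.Agent.JAC.Glue.EndInv23

variable {X : Scheme.{u}}

section Coeff

variable {L : X.Modules} {U : X.Opens} {e : Γ(L, U)} (he : IsGen L U e)

/-- the coefficient of a section with respect to a free generator -/
noncomputable def coeff {V : X.Opens} (hV : V ≤ U) (s : Γ(L, V)) : Γ(X, V) :=
  (Equiv.ofBijective _ (he V hV)).symm s

lemma coeff_smul_gen {V : X.Opens} (hV : V ≤ U) (s : Γ(L, V)) :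
    coeff he hV s • resM L hV e = s :=
  (Equiv.ofBijective _ (he V hV)).apply_symm_apply s

lemma coeff_eq_of_smul_eq {V : X.Opens} (hV : V ≤ U) {s : Γ(L, V)} {a : Γ(X, V)}
    (h : a • resM L hV e = s) : coeff he hV s = a := by
  apply (he V hV).1
  change coeff he hV s • resM L hV e = a • resM L hV e
  rw [coeff_smul_gen, h]

lemma coeff_add {V : X.Opens} (hV : V ≤ U) (s s' : Γ(L, V)) :
    coeff he hV (s + s') = coeff he hV s + coeff he hV s' := by
  apply coeff_eq_of_smul_eq
  rw [add_smul, coeff_smul_gen, coeff_smul_gen]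

lemma coeff_smul {V : X.Opens} (hV : V ≤ U) (b : Γ(X, V)) (s : Γ(L, V)) :
    coeff he hV (b • s) = b * coeff he hV s := by
  apply coeff_eq_of_smul_eq
  rw [mul_smul, coeff_smul_gen]

lemma coeff_res {V W : X.Opens} (hV : V ≤ U) (hWV : W ≤ V) (s : Γ(L, V)) :
    coeff he (hWV.trans hV) (resM L hWV s) = resO X hWV (coeff he hV s) := by
  apply coeff_eq_of_smul_eq
  rw [← resM_resM L hWV hV, ← resM_smul, coeff_smul_gen]

lemma coeff_gen {V : X.Opens} (hV : V ≤ U) : coeff he hV (resM L hV e) = 1 := by
  apply coeff_eq_of_smul_eq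
  rw [one_smul]

end Coeff


section GenHom

variable {L L' : X.Modules} {U : X.Opens} {e : Γ(L, U)} {e' : Γ(L', U)}
  (he : IsGen L U e)

lemma genFun_add (e' : Γ(L', U)) {V : X.Opens} (hV : V ≤ U) (s s' : Γ(L, V)) :
    coeff he hV (s + s') • resM L' hV e' =
      coeff he hV s • resM L' hV e' + coeff he hV s' • resM L' hV e' := by
  rw [coeff_add, add_smul]

/-- the local morphism sending a free generator `e` of `L` to a section `e'` of `L'` -/
noncomputable def genHom (e' : Γ(L', U)) : LocalHom L.presheaf L'.presheaf U where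
  app V hV := AddCommGrpCat.ofHom
    (AddMonoidHom.mk' (fun s : Γ(L, V) => coeff he hV s • resM L' hV e')
      (fun s s' => genFun_add he e' hV s s'))
  naturality {V W} hV hWV := by
    ext s
    change resM L' hWV (coeff he hV s • resM L' hV e') =
      coeff he (hWV.trans hV) (resM L hWV s) • resM L' (hWV.trans hV) e'
    rw [resM_smul, coeff_res, resM_resM]

lemma genHom_app_apply {V : X.Opens} (hV : V ≤ U) (s : Γ(L, V)) :
    (genHom he e').app V hV s = coeff he hV s • resM L' hV e' := rfl

lemma genHom_app_smul {V : X.Opens} (hV : V ≤ U) (b : Γ(X, V)) (s : Γ(L, V)) :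
    (genHom he e').app V hV (b • s) = b • (genHom he e').app V hV s := by
  rw [genHom_app_apply, genHom_app_apply, coeff_smul, mul_smul]

lemma genHom_app_gen {V : X.Opens} (hV : V ≤ U) :
    (genHom he e').app V hV (resM L hV e) = resM L' hV e' := by
  rw [genHom_app_apply, coeff_gen, one_smul]

end GenHom


section GlueLinear

variable {M N : X.Modules} {ι : Type*} (U : ι → X.Opens) (hU : ∀ x : X, ∃ i, x ∈ U i)
  (φ : ∀ i, LocalHom M.presheaf N.presheaf (U i))
  (hφ : ∀ i j (V : X.Opens) (hi : V ≤ U i) (hj : V ≤ U j), (φ i).app V hi = (φ j).app V hj)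
  (hlin : ∀ i (V : X.Opens) (hV : V ≤ U i) (b : Γ(X, V)) (s : Γ(M, V)),
    (φ i).app V hV (b • s) = b • (φ i).app V hV s)

include hlin in
lemma glueHom_smul (V : X.Opens) (r : Γ(X, V)) (m : Γ(M, V)) :
    (glueHom N.isSheaf U hU φ hφ).app (op V) (r • m) =
      r • (glueHom N.isSheaf U hU φ hφ).app (op V) m := by
  apply TopCat.Sheaf.eq_of_locally_eq' (⟨N.presheaf, N.isSheaf⟩ : TopCat.Sheaf Ab X)
    (fun i => V ⊓ U i) V (fun _ => homOfLE inf_le_left) (le_iSup_inf U hU V)
  intro i
  have nat := fun s => congr($((glueHom N.isSheaf U hU φ hφ).naturality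
    (homOfLE (inf_le_left : V ⊓ U i ≤ V)).op) s)
  simp only [ConcreteCategory.comp_apply] at nat
  change N.presheaf.map _ _ = N.presheaf.map _ _
  rw [← nat]
  erw [Scheme.Modules.map_smul, Scheme.Modules.map_smul]
  rw [← nat, glueHom_app_of_le N.isSheaf U hU φ hφ i _ inf_le_right]
  exact hlin i _ inf_le_right _ _

/-- the morphism of sheaves of modules glued from linear local morphisms -/
noncomputable def glueLinearHom : M ⟶ N :=
  (⟨PresheafOfModules.homMk (glueHom N.isSheaf U hU φ hφ)
    (fun V r m => glueHom_smul U hU φ hφ hlin V.unop r m)⟩ : SheafOfModules.Hom M N)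

lemma glueLinearHom_app_of_le (i : ι) (V : X.Opens) (hV : V ≤ U i) :
    (glueLinearHom U hU φ hφ hlin).app V = (φ i).app V hV := by
  have := glueHom_app_of_le N.isSheaf U hU φ hφ i V hV
  rw [← this]
  ext s
  rfl

end GlueLinear


section SameCocycle

variable {L L' : X.Modules} (U : X → X.Opens) (hU : ∀ x : X, x ∈ U x)
  (e : ∀ x, Γ(L, U x)) (e' : ∀ x, Γ(L', U x))
  (he : ∀ x, IsGen L (U x) (e x)) (he' : ∀ x, IsGen L' (U x) (e' x))

/-- the transition function: `e x = trans x y • e y` on `U x ⊓ U y` -/
noncomputable def trans (x y : X) : Γ(X, U x ⊓ U y) :=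
  coeff (he y) inf_le_right (resM L inf_le_left (e x))

lemma trans_smul {x y : X} {V : X.Opens} (hx : V ≤ U x) (hy : V ≤ U y) :
    resO X (le_inf hx hy) (trans U e he x y) • resM L hy (e y) = resM L hx (e x) := by
  have h := coeff_smul_gen (he y) (inf_le_right : U x ⊓ U y ≤ U y) (resM L inf_le_left (e x))
  have h2 := congrArg (resM L (le_inf hx hy)) h
  rw [resM_smul, resM_resM, resM_resM] at h2
  exact h2

variable (hg : ∀ x y, trans U e he x y = trans U e' he' x y)

include hg in
lemma genHom_compat (x y : X) (V : X.Opens) (hx : V ≤ U x) (hy : V ≤ U y) :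
    (genHom (he x) (e' x)).app V hx = (genHom (he y) (e' y)).app V hy := by
  ext s
  rw [genHom_app_apply, genHom_app_apply]
  have h1 := trans_smul U e he hx hy
  have h1' := trans_smul U e' he' hx hy
  rw [← hg] at h1'
  have h2 : coeff (he y) hy s = coeff (he x) hx s * resO X (le_inf hx hy) (trans U e he x y) := by
    apply coeff_eq_of_smul_eq
    rw [mul_smul, h1, coeff_smul_gen]
  rw [h2, mul_smul, h1']

/-- the morphism `L ⟶ L'` sending each `e x` to `e' x` -/
noncomputable def genGlobalHom : L ⟶ L' :=
  glueLinearHom U (fun x => ⟨x, hU x⟩) (fun x => genHom (he x) (e' x))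
    (genHom_compat U e e' he he' hg) (fun x _ hV b s => genHom_app_smul (he x) hV b s)

lemma genGlobalHom_app_of_le (x : X) (V : X.Opens) (hV : V ≤ U x) :
    (genGlobalHom U hU e e' he he' hg).app V = (genHom (he x) (e' x)).app V hV :=
  glueLinearHom_app_of_le U _ _ _ _ x V hV

include hU hg in
lemma genGlobalHom_comp :
    genGlobalHom U hU e e' he he' hg ≫ genGlobalHom U hU e' e he' he (fun x y => (hg x y).symm) =
      𝟙 L := by
  apply (Scheme.Modules.toPresheaf X).map_injective
  apply hom_ext_of_cover L.isSheaf U (fun x => ⟨x, hU x⟩)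
  intro x V hV
  change (genGlobalHom U hU e e' he he' hg ≫
    genGlobalHom U hU e' e he' he (fun x y => (hg x y).symm)).app V = (𝟙 L : L ⟶ L).app V
  rw [Scheme.Modules.Hom.comp_app, genGlobalHom_app_of_le _ _ _ _ _ _ _ x V hV,
    genGlobalHom_app_of_le _ _ _ _ _ _ _ x V hV]
  ext s
  change (genHom (he' x) (e x)).app V hV ((genHom (he x) (e' x)).app V hV s) = s
  rw [genHom_app_apply (he x), genHom_app_smul, genHom_app_gen, coeff_smul_gen]

include hU hg in
/-- two modules with generating systems on the same opens and the same transition functions are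
isomorphic -/
theorem nonempty_iso_of_trans_eq : Nonempty (L ≅ L') :=
  ⟨{ hom := genGlobalHom U hU e e' he he' hg
     inv := genGlobalHom U hU e' e he' he (fun x y => (hg x y).symm)
     hom_inv_id := genGlobalHom_comp U hU e e' he he' hg
     inv_hom_id := genGlobalHom_comp U hU e' e he' he (fun x y => (hg x y).symm) }⟩

end SameCocycle


section Small

/-- cocycle data: a family of opens indexed by the points, and a function on each overlap -/
def CocycleData (X : Scheme.{u}) : Type u :=
  Σ U : X → X.Opens, ∀ x y : X, Γ(X, U x ⊓ U y)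

variable {L L' : X.Modules}

/-- the chosen trivialising open around `x` -/
noncomputable def chosenOpen (hL : LocallyGen L) (x : X) : X.Opens := (hL x).choose

/-- the chosen generator over the chosen open -/
noncomputable def chosenGen (hL : LocallyGen L) (x : X) : Γ(L, chosenOpen hL x) :=
  (hL x).choose_spec.choose

lemma mem_chosenOpen (hL : LocallyGen L) (x : X) : x ∈ chosenOpen hL x :=
  (hL x).choose_spec.choose_spec.1

lemma isGen_chosenGen (hL : LocallyGen L) (x : X) :
    IsGen L (chosenOpen hL x) (chosenGen hL x) :=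
  (hL x).choose_spec.choose_spec.2

/-- the cocycle data attached to a locally generated module (depends on choices) -/
noncomputable def cocycleOf (hL : LocallyGen L) : CocycleData X :=
  ⟨chosenOpen hL, fun x y => trans (chosenOpen hL) (chosenGen hL) (isGen_chosenGen hL) x y⟩

lemma nonempty_iso_aux (U U' : X → X.Opens) (hUU' : U = U') (hU : ∀ x, x ∈ U x)
    (e : ∀ x, Γ(L, U x)) (e' : ∀ x, Γ(L', U' x))
    (he : ∀ x, IsGen L (U x) (e x)) (he' : ∀ x, IsGen L' (U' x) (e' x))
    (hg : HEq (fun x y => trans U e he x y) (fun x y => trans U' e' he' x y)) :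
    Nonempty (L ≅ L') := by
  subst hUU'
  exact nonempty_iso_of_trans_eq U hU e e' he he'
    (fun x y => congrFun (congrFun (eq_of_heq hg) x) y)

/-- modules with the same cocycle data are isomorphic -/
theorem nonempty_iso_of_cocycleOf_eq (hL : LocallyGen L) (hL' : LocallyGen L')
    (h : cocycleOf hL = cocycleOf hL') : Nonempty (L ≅ L') := by
  obtain ⟨h1, h2⟩ := Sigma.mk.inj_iff.mp h
  exact nonempty_iso_aux _ _ h1 (mem_chosenOpen hL) _ _ (isGen_chosenGen hL)
    (isGen_chosenGen hL') h2

/-- the setoid of isomorphism on invertible modules -/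
def invSetoid (X : Scheme.{u}) : Setoid {L : X.Modules // Scheme.Modules.IsInvertible L} where
  r L L' := Nonempty (L.1 ≅ L'.1)
  iseqv := ⟨fun _ => ⟨Iso.refl _⟩, fun ⟨i⟩ => ⟨i.symm⟩, fun ⟨i⟩ ⟨j⟩ => ⟨i ≪≫ j⟩⟩

/-- **the isomorphism classes of invertible modules on a scheme form a `u`-small type** -/
instance small_invClasses (X : Scheme.{u}) : Small.{u} (Quotient (invSetoid X)) := by
  let f : Quotient (invSetoid X) → CocycleData X := fun q =>
    cocycleOf (locallyGen_of_isInvertible q.out.2)
  apply small_of_injective (f := f)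
  intro q q' h
  have : Nonempty (q.out.1 ≅ q'.out.1) := nonempty_iso_of_cocycleOf_eq _ _ h
  rw [← Quotient.out_eq q, ← Quotient.out_eq q']
  exact Quotient.sound this

end Small

section Classes

open AlgebraicGeometry.RelPicard NeronModelInfra

variable {R : Type u} [CommRing R] {C : Scheme.{u}} (c : C ⟶ Spec (CommRingCat.of R))
  (ε : SchemeHomOver (𝟙 (Spec (CommRingCat.of R))) c) {T : Scheme.{u}}
  (t : T ⟶ Spec (CommRingCat.of R))

/-- **the Prelude's type of classes of rigidified line bundles is `u`-small** -/
instance small_classes : Small.{u} (RigidifiedLineBundle.Classes c ε t) := by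
  let f : RigidifiedLineBundle.Classes c ε t → Quotient (invSetoid (Limits.pullback c t)) :=
    Quotient.map (fun M => ⟨M.L, M.isInvertible⟩) (fun _ _ h => h)
  apply small_of_injective (f := f)
  intro q q' h
  induction q using Quotient.ind with | _ M => ?_
  induction q' using Quotient.ind with | _ M' => ?_
  have h' : (⟦⟨M.L, M.isInvertible⟩⟧ : Quotient (invSetoid (Limits.pullback c t))) =
      ⟦⟨M'.L, M'.isInvertible⟩⟧ := h
  have h'' : Nonempty (M.L ≅ M'.L) := Quotient.exact h'
  exact Quotient.sound h''

end Classes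

end Fermat.Agent.JAC.Glue.SmallClasses23
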