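import Fermat.Agent.JAC.Glue.Sec50
set_option autoImplicit false
open AlgebraicGeometry CategoryTheory TopologicalSpace Opposite
universe u
namespace Fermat.Agent.JAC.Glue.HomGlue50

open Fermat.Agent.JAC.Glue.Sec50

noncomputable section

variable {X : Scheme.{u}} {M N P : X.Modules}

/-- The morphism of modules attached to a sectionwise morphism over the whole space. -/
def toHom (f : SecHom ⊤ M N) : M ⟶ N :=
  ⟨PresheafOfModules.homMk
    { app := fun V => AddCommGrpCat.ofHom (f.app V.unop le_top)
      naturality := by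
        intro V V' i
        ext s
        exact (f.app_res V.unop V'.unop le_top (leOfHom i.unop) s).symm }
    (by
      intro V r m
      exact f.app_smul V.unop le_top r m)⟩

@[simp] lemma toHom_app (f : SecHom ⊤ M N) (V : X.Opens) (s : Γ(M, V)) :
    ((toHom f).app V).hom s = f.app V le_top s := rfl

@[simp] lemma ofHom_toHom (f : SecHom ⊤ M N) : SecHom.ofHom ⊤ (toHom f) = f := by
  ext V hV s
  rfl

@[simp] lemma toHom_ofHom (φ : M ⟶ N) : toHom (SecHom.ofHom ⊤ φ) = φ := by
  apply Scheme.Modules.hom_ext
  intro V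
  ext s
  rfl

/-- Morphisms of modules are the same as sectionwise morphisms over `⊤`. -/
def topEquiv : (M ⟶ N) ≃ SecHom ⊤ M N where
  toFun := SecHom.ofHom ⊤
  invFun := toHom
  left_inv := toHom_ofHom
  right_inv := ofHom_toHom

lemma ofHom_app (U : X.Opens) (φ : M ⟶ N) (V : X.Opens) (hV : V ≤ U) (s : Γ(M, V)) :
    (SecHom.ofHom U φ).app V hV s = (φ.app V).hom s := rfl

lemma le_iSup_inf_left {κ : Type*} (U : κ → X.Opens) (V : X.Opens) (h : V ≤ ⨆ i, U i) :
    V ≤ ⨆ i, V ⊓ U i := by
  rw [← inf_iSup_eq]
  exact le_inf le_rfl h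

/-- Two sectionwise morphisms over `W` that agree over the members of a cover of `W` are equal. -/
theorem SecHom.ext_of_cover {W : X.Opens} {κ : Type*} (U : κ → X.Opens) (hU : ∀ i, U i ≤ W)
    (hcov : W ≤ ⨆ i, U i) (F G : SecHom W M N)
    (h : ∀ i, F.restrict (hU i) = G.restrict (hU i)) : F = G := by
  ext V hV s
  refine Sec50.ext_of_cover N (fun i => V ⊓ U i) (fun i => inf_le_left)
    (le_iSup_inf_left U V (hV.trans hcov)) _ _ (fun i => ?_)
  rw [F.app_res, G.app_res]
  have := congrArg (fun K : SecHom (U i) M N => K.app (V ⊓ U i) inf_le_right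
    (res M inf_le_left s)) (h i)
  exact this

section glue

variable {W : X.Opens} {κ : Type*} (U : κ → X.Opens) (hcov : W ≤ ⨆ i, U i)
  (f : ∀ i, SecHom (U i) M N)
  (hf : ∀ i j (V : X.Opens) (hi : V ≤ U i) (hj : V ≤ U j) (s : Γ(M, V)),
      (f i).app V hi s = (f j).app V hj s)

include hcov hf in
lemma existsUnique_glueApp (V : X.Opens) (hV : V ≤ W) (s : Γ(M, V)) :
    ∃! t : Γ(N, V), ∀ i, res N (inf_le_left : V ⊓ U i ≤ V) t =
      (f i).app (V ⊓ U i) inf_le_right (res M inf_le_left s) := by
  refine existsUnique_glue N (fun i => V ⊓ U i) (fun i => inf_le_left)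
    (le_iSup_inf_left U V (hV.trans hcov)) _ (fun i j => ?_)
  rw [(f i).app_res, (f j).app_res, res_res, res_res]
  exact hf i j _ _ _ _

/-- The glued sectionwise map. -/
def glueApp (V : X.Opens) (hV : V ≤ W) (s : Γ(M, V)) : Γ(N, V) :=
  (existsUnique_glueApp U hcov f hf V hV s).choose

lemma glueApp_spec (V : X.Opens) (hV : V ≤ W) (s : Γ(M, V)) (i : κ) :
    res N (inf_le_left : V ⊓ U i ≤ V) (glueApp U hcov f hf V hV s) =
      (f i).app (V ⊓ U i) inf_le_right (res M inf_le_left s) :=
  (existsUnique_glueApp U hcov f hf V hV s).choose_spec.1 i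

lemma glueApp_unique (V : X.Opens) (hV : V ≤ W) (s : Γ(M, V)) (t : Γ(N, V))
    (ht : ∀ i, res N (inf_le_left : V ⊓ U i ≤ V) t =
      (f i).app (V ⊓ U i) inf_le_right (res M inf_le_left s)) :
    t = glueApp U hcov f hf V hV s :=
  (existsUnique_glueApp U hcov f hf V hV s).choose_spec.2 t ht

/-- Gluing of sectionwise morphisms along a cover. -/
def glueSecHom : SecHom W M N where
  app V hV :=
    { toFun := glueApp U hcov f hf V hV
      map_zero' := by
        symm
        apply glueApp_unique
        intro i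
        simp
      map_add' := by
        intro s t
        symm
        apply glueApp_unique
        intro i
        simp only [map_add, glueApp_spec] }
  app_res V V' hV h s := by
    show res N h (glueApp U hcov f hf V hV s) = glueApp U hcov f hf V' (h.trans hV) (res M h s)
    apply glueApp_unique
    intro i
    rw [res_res, res_res]
    have h1 : V' ⊓ U i ≤ V ⊓ U i := inf_le_inf_right _ h
    have := congrArg (res N h1) (glueApp_spec U hcov f hf V hV s i)
    rw [res_res, (f i).app_res, res_res] at this
    exact this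
  app_smul V hV r s := by
    show glueApp U hcov f hf V hV (r • s) = r • glueApp U hcov f hf V hV s
    symm
    apply glueApp_unique
    intro i
    rw [res_smul, glueApp_spec, res_smul, (f i).app_smul]

lemma glueSecHom_app (V : X.Opens) (hV : V ≤ W) (s : Γ(M, V)) :
    (glueSecHom U hcov f hf).app V hV s = glueApp U hcov f hf V hV s := rfl

lemma glueSecHom_restrict (hU : ∀ i, U i ≤ W) (i : κ) :
    (glueSecHom U hcov f hf).restrict (hU i) = f i := by
  ext V hV s
  show glueApp U hcov f hf V (hV.trans (hU i)) s = (f i).app V hV s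
  symm
  apply glueApp_unique
  intro j
  rw [(f i).app_res]
  exact hf i j _ _ _ _

include hcov hf in
/-- Sectionwise morphisms glue uniquely along a cover. -/
theorem SecHom.existsUnique_glue (hU : ∀ i, U i ≤ W) :
    ∃! F : SecHom W M N, ∀ i, F.restrict (hU i) = f i := by
  refine ⟨glueSecHom U hcov f hf, glueSecHom_restrict U hcov f hf hU, ?_⟩
  intro G hG
  refine SecHom.ext_of_cover U hU hcov _ _ (fun i => ?_)
  rw [hG, glueSecHom_restrict U hcov f hf hU]

end glue

end

end Fermat.Agent.JAC.Glue.HomGlue50
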