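/-
Programme JAC (S25), work package B4 (helper30): Zariski descent for `Scheme.Modules`.
Part G1: morphisms of `𝒪_X`-modules are determined by, and can be glued from, their restrictions
to the members of an open cover (given as a jointly surjective family of open immersions).
Mathlib only.
-/
import Mathlib

set_option autoImplicit false

open CategoryTheory AlgebraicGeometry TopologicalSpace Opposite

universe u

namespace Fermat.Agent.JAC.Glue.HomGlue30

open Scheme.Modules

variable {X : Scheme.{u}} {M N : X.Modules}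

/-- A morphism of `𝒪_X`-modules from a morphism of the underlying abelian presheaves which is
linear on every open. -/
noncomputable def homOfPresheafHom (α : M.presheaf ⟶ N.presheaf)
    (hα : ∀ (U : X.Opens) (r : Γ(X, U)) (m : Γ(M, U)),
      α.app (op U) (r • m) = r • α.app (op U) m) : M ⟶ N :=
  ⟨PresheafOfModules.homMk α (fun U r m => hα U.unop r m)⟩

theorem homOfPresheafHom_app (α : M.presheaf ⟶ N.presheaf)
    (hα : ∀ (U : X.Opens) (r : Γ(X, U)) (m : Γ(M, U)),
      α.app (op U) (r • m) = r • α.app (op U) m) (U : X.Opens) :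
    (homOfPresheafHom α hα).app U = α.app (op U) := rfl

section Cover

variable {ι : Type*} {Y : ι → Scheme.{u}} (j : ∀ a, Y a ⟶ X) [∀ a, IsOpenImmersion (j a)]

/-- The opens of `X` which are images of opens of the members of the cover. -/
def basisFun : (Σ a, (Y a).Opens) → X.Opens := fun p => j p.1 ''ᵁ p.2

theorem isBasis_basisFun (hj : ∀ x : X, ∃ a, x ∈ (j a).opensRange) :
    Opens.IsBasis (Set.range (basisFun j)) := by
  rw [Opens.isBasis_iff_nbhd]
  intro U x hx
  obtain ⟨a, ha⟩ := hj x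
  refine ⟨j a ''ᵁ (j a ⁻¹ᵁ U), ⟨⟨a, j a ⁻¹ᵁ U⟩, rfl⟩, ?_, (j a).image_preimage_le U⟩
  rw [Scheme.Hom.image_preimage_eq_opensRange_inf]
  exact ⟨ha, hx⟩

/-- **G1 (a)**: a morphism of `𝒪_X`-modules is determined by its restrictions to an open cover. -/
theorem hom_ext_of_cover (hj : ∀ x : X, ∃ a, x ∈ (j a).opensRange) (φ ψ : M ⟶ N)
    (h : ∀ a, (restrictFunctor (j a)).map φ = (restrictFunctor (j a)).map ψ) : φ = ψ := by
  apply (toPresheaf X).map_injective
  refine TopCat.Sheaf.hom_ext (B := basisFun j) M.presheaf ⟨N.presheaf, N.isSheaf⟩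
    (isBasis_basisFun j hj) ?_
  rintro ⟨a, W⟩
  exact congrArg (fun θ => Scheme.Modules.Hom.app θ W) (h a)


def Compatible (φ : ∀ a, M.restrict (j a) ⟶ N.restrict (j a)) : Prop :=
  ∀ (a b : ι) (W : (Y a).Opens) (W' : (Y b).Opens) (h : j a ''ᵁ W ≤ j b ''ᵁ W')
    (m : Γ(M, j b ''ᵁ W')),
    N.presheaf.map (homOfLE h).op ((φ b).app W' m) =
      (φ a).app W (M.presheaf.map (homOfLE h).op m)

variable {j}

noncomputable def basisHom (φ : ∀ a, M.restrict (j a) ⟶ N.restrict (j a))
    (hφ : Compatible j φ) :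
    (inducedFunctor (basisFun j)).op ⋙ M.presheaf ⟶
      (inducedFunctor (basisFun j)).op ⋙ N.presheaf where
  app p := (φ p.unop.1).app p.unop.2
  naturality p q f := by
    ext m
    exact (hφ q.unop.1 p.unop.1 q.unop.2 p.unop.2 (leOfHom f.unop.hom) m).symm

/-- the glued morphism of abelian presheaves. -/
noncomputable def gluePresheafHom (hj : ∀ x : X, ∃ a, x ∈ (j a).opensRange)
    (φ : ∀ a, M.restrict (j a) ⟶ N.restrict (j a)) (hφ : Compatible j φ) :
    M.presheaf ⟶ N.presheaf :=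
  TopCat.Sheaf.restrictHomEquivHom M.presheaf ⟨N.presheaf, N.isSheaf⟩ (isBasis_basisFun j hj)
    (basisHom φ hφ)

theorem gluePresheafHom_app (hj : ∀ x : X, ∃ a, x ∈ (j a).opensRange)
    (φ : ∀ a, M.restrict (j a) ⟶ N.restrict (j a)) (hφ : Compatible j φ) (a : ι)
    (W : (Y a).Opens) :
    (gluePresheafHom hj φ hφ).app (op (j a ''ᵁ W)) = (φ a).app W :=
  TopCat.Sheaf.extend_hom_app M.presheaf ⟨N.presheaf, N.isSheaf⟩ (isBasis_basisFun j hj)
    (basisHom φ hφ) ⟨a, W⟩

theorem smul_restrict {Z : Scheme.{u}} (f : Z ⟶ X) [IsOpenImmersion f] (K : X.Modules)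
    (W : Z.Opens) (s : Γ(X, f ''ᵁ W)) (m : Γ(K, f ''ᵁ W)) :
    s • m = (K.restrictAppIso f W).hom (((f.appIso W).hom s) • (K.restrictAppIso f W).inv m) := by
  simp

theorem app_smul_restrict {Z : Scheme.{u}} (f : Z ⟶ X) [IsOpenImmersion f]
    (φ : M.restrict f ⟶ N.restrict f) (W : Z.Opens) (s : Γ(X, f ''ᵁ W)) (m : Γ(M, f ''ᵁ W)) :
    (N.restrictAppIso f W).hom (φ.app W ((M.restrictAppIso f W).inv (s • m))) =
      s • (N.restrictAppIso f W).hom (φ.app W ((M.restrictAppIso f W).inv m)) := by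
  rw [smul_restrict f M W s m, smul_restrict f N W s]
  simp

theorem gluePresheafHom_smul (hj : ∀ x : X, ∃ a, x ∈ (j a).opensRange)
    (φ : ∀ a, M.restrict (j a) ⟶ N.restrict (j a)) (hφ : Compatible j φ)
    (U : X.Opens) (r : Γ(X, U)) (m : Γ(M, U)) :
    (gluePresheafHom hj φ hφ).app (op U) (r • m) = r • (gluePresheafHom hj φ hφ).app (op U) m := by
  apply TopCat.Presheaf.IsSheaf.section_ext N.isSheaf
  intro x hx
  obtain ⟨a, ha⟩ := hj x
  have hV : j a ''ᵁ (j a ⁻¹ᵁ U) ≤ U := (j a).image_preimage_le U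
  refine ⟨j a ''ᵁ (j a ⁻¹ᵁ U), hV, ?_, ?_⟩
  · rw [Scheme.Hom.image_preimage_eq_opensRange_inf]
    exact ⟨ha, hx⟩
  · have nat := fun (m' : Γ(M, U)) => ConcreteCategory.congr_hom
      ((gluePresheafHom hj φ hφ).naturality (homOfLE hV).op) m'
    simp only [CategoryTheory.comp_apply] at nat
    rw [← nat, Scheme.Modules.map_smul, Scheme.Modules.map_smul, ← nat,
      gluePresheafHom_app hj φ hφ a (j a ⁻¹ᵁ U)]
    exact app_smul_restrict (j a) (φ a) (j a ⁻¹ᵁ U) _ _


/-- **G1 (b)**: the morphism glued from a compatible family of local morphisms. -/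
noncomputable def glueHom (hj : ∀ x : X, ∃ a, x ∈ (j a).opensRange)
    (φ : ∀ a, M.restrict (j a) ⟶ N.restrict (j a)) (hφ : Compatible j φ) : M ⟶ N :=
  homOfPresheafHom (gluePresheafHom hj φ hφ) (gluePresheafHom_smul hj φ hφ)

theorem restrict_glueHom (hj : ∀ x : X, ∃ a, x ∈ (j a).opensRange)
    (φ : ∀ a, M.restrict (j a) ⟶ N.restrict (j a)) (hφ : Compatible j φ) (a : ι) :
    (restrictFunctor (j a)).map (glueHom hj φ hφ) = φ a := by
  apply Scheme.Modules.hom_ext
  intro W
  exact gluePresheafHom_app hj φ hφ a W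

/-- **G1 (b)**: existence and uniqueness of the glued morphism. -/
theorem existsUnique_glueHom (hj : ∀ x : X, ∃ a, x ∈ (j a).opensRange)
    (φ : ∀ a, M.restrict (j a) ⟶ N.restrict (j a)) (hφ : Compatible j φ) :
    ∃! θ : M ⟶ N, ∀ a, (restrictFunctor (j a)).map θ = φ a :=
  ⟨glueHom hj φ hφ, restrict_glueHom hj φ hφ, fun θ hθ =>
    hom_ext_of_cover j hj θ _ (fun a => (hθ a).trans (restrict_glueHom hj φ hφ a).symm)⟩

/-- the restrictions of a global morphism form a compatible family. -/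
theorem compatible_restrict (θ : M ⟶ N) :
    Compatible j (fun a => (restrictFunctor (j a)).map θ) := by
  intro a b W W' h m
  exact (ConcreteCategory.congr_hom (θ.mapPresheaf.naturality (homOfLE h).op) m).symm

/-- **G1 (c)**: a morphism of `𝒪_X`-modules which is an isomorphism on every member of an open
cover is an isomorphism. -/
theorem isIso_of_cover (hj : ∀ x : X, ∃ a, x ∈ (j a).opensRange) (θ : M ⟶ N)
    (h : ∀ a, IsIso ((restrictFunctor (j a)).map θ)) : IsIso θ := by
  let F : TopCat.Sheaf Ab X := ⟨M.presheaf, M.isSheaf⟩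
  let G : TopCat.Sheaf Ab X := ⟨N.presheaf, N.isSheaf⟩
  let Θ : F ⟶ G := ⟨θ.mapPresheaf⟩
  have hΘ : IsIso Θ := by
    refine TopCat.Sheaf.isIso_iff_isIso_basis (B := basisFun j) (isBasis_basisFun j hj) ?_
    rintro ⟨a, W⟩
    have := h a
    exact (inferInstance : IsIso (((restrictFunctor (j a)).map θ).app W))
  have h2 : IsIso ((toPresheaf X).map θ) :=
    Functor.map_isIso (TopCat.Sheaf.forget Ab X) Θ
  exact isIso_of_reflects_iso θ (toPresheaf X)

theorem isIso_iff_of_cover (hj : ∀ x : X, ∃ a, x ∈ (j a).opensRange) (θ : M ⟶ N) :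
    IsIso θ ↔ ∀ a, IsIso ((restrictFunctor (j a)).map θ) :=
  ⟨fun _ _ => inferInstance, isIso_of_cover hj θ⟩

end Cover

end Fermat.Agent.JAC.Glue.HomGlue30
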