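/-
Programme JAC (S25), work package B4 (helper30): Zariski descent for `Scheme.Modules`.
Part G2: multiplication by global functions; every endomorphism of an invertible `𝒪_X`-module is
multiplication by a unique global function; two isomorphisms of invertible modules differ by a
global unit.  Mathlib + the Prelude's definition of `Scheme.Modules.IsInvertible`.
-/
import Fermat.Agent.JAC.Glue.HomGlue30
import Fermat.Prelude.Def_AlgebraicGeometry_RelativePicardFunctor

set_option autoImplicit false

open CategoryTheory AlgebraicGeometry TopologicalSpace Opposite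

universe u

namespace Fermat.Agent.JAC.Glue.EndInv30

open Scheme.Modules Fermat.Agent.JAC.Glue.HomGlue30

variable {X : Scheme.{u}}

section Res

variable (M : X.Modules)

noncomputable abbrev res {U V : X.Opens} (h : U ≤ V) (m : Γ(M, V)) : Γ(M, U) :=
  M.presheaf.map (homOfLE h).op m

noncomputable abbrev resO {U V : X.Opens} (h : U ≤ V) (r : Γ(X, V)) : Γ(X, U) :=
  X.presheaf.map (homOfLE h).op r

theorem res_res {U V W : X.Opens} (h : U ≤ V) (h' : V ≤ W) (m : Γ(M, W)) :
    res M h (res M h' m) = res M (h.trans h') m := by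
  simp only [res, ← CategoryTheory.comp_apply, ← Functor.map_comp]
  rfl

theorem resO_resO {U V W : X.Opens} (h : U ≤ V) (h' : V ≤ W) (r : Γ(X, W)) :
    resO h (resO h' r) = resO (h.trans h') r := by
  simp only [resO, ← CategoryTheory.comp_apply, ← Functor.map_comp]
  rfl

theorem res_self {U : X.Opens} (h : U ≤ U) (m : Γ(M, U)) : res M h m = m := by
  have : (homOfLE h).op = 𝟙 (op U) := rfl
  simp only [res, this, CategoryTheory.Functor.map_id]
  rfl

theorem resO_self {U : X.Opens} (h : U ≤ U) (r : Γ(X, U)) : resO h r = r := by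
  have : (homOfLE h).op = 𝟙 (op U) := rfl
  simp only [resO, this, CategoryTheory.Functor.map_id]
  rfl

theorem resO_one {U V : X.Opens} (h : U ≤ V) : resO h (1 : Γ(X, V)) = 1 :=
  map_one (X.presheaf.map (homOfLE h).op).hom

theorem resO_mul {U V : X.Opens} (h : U ≤ V) (a b : Γ(X, V)) :
    resO h (a * b) = resO h a * resO h b :=
  map_mul (X.presheaf.map (homOfLE h).op).hom a b

theorem res_smul {U V : X.Opens} (h : U ≤ V) (r : Γ(X, V)) (m : Γ(M, V)) :
    res M h (r • m) = resO h r • res M h m :=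
  Scheme.Modules.map_smul M (homOfLE h) r m

theorem app_res {M N : X.Modules} (φ : M ⟶ N) {U V : X.Opens} (h : U ≤ V) (m : Γ(M, V)) :
    φ.app U (res M h m) = res N h (φ.app V m) :=
  ConcreteCategory.congr_hom (φ.mapPresheaf.naturality (homOfLE h).op) m

/-- two sections which agree locally are equal. -/
theorem eq_of_locally_eq {U : X.Opens} (m m' : Γ(M, U))
    (h : ∀ x ∈ U, ∃ (V : X.Opens) (hV : V ≤ U), x ∈ V ∧ res M hV m = res M hV m') : m = m' :=
  TopCat.Presheaf.IsSheaf.section_ext M.isSheaf h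

end Res

/-- multiplication by a global function, as an endomorphism of an `𝒪_X`-module. -/
noncomputable def smulHom (M : X.Modules) (r : Γ(X, ⊤)) : M ⟶ M :=
  homOfPresheafHom
    { app := fun U => M.smul (resO (le_top : U.unop ≤ ⊤) r)
      naturality := fun U V f => by
        have := Scheme.Modules.map_comp_smul (M := M) f.unop (resO (le_top : U.unop ≤ ⊤) r)
        have e : X.presheaf.map f.unop.op (resO (le_top : U.unop ≤ ⊤) r) =
            resO (le_top : V.unop ≤ ⊤) r := resO_resO (leOfHom f.unop) le_top r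
        rw [e] at this
        exact this.symm }
    (fun U s m => by
      simp only [Scheme.Modules.smul_apply]
      rw [smul_smul, smul_smul, mul_comm])

theorem smulHom_app (M : X.Modules) (r : Γ(X, ⊤)) (U : X.Opens) (m : Γ(M, U)) :
    (smulHom M r).app U m = resO (le_top : U ≤ ⊤) r • m := rfl

def IsLocalBasis (L : X.Modules) (V : X.Opens) (e : Γ(L, V)) : Prop :=
  ∀ (W : X.Opens) (h : W ≤ V), Function.Bijective (fun s : Γ(X, W) => s • res L h e)

theorem IsLocalBasis.res {L : X.Modules} {V : X.Opens} {e : Γ(L, V)} (he : IsLocalBasis L V e)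
    {V' : X.Opens} (h : V' ≤ V) : IsLocalBasis L V' (EndInv30.res L h e) := by
  intro W hW
  have := he W (hW.trans h)
  simpa only [res_res] using this

theorem IsLocalBasis.exists_smul {L : X.Modules} {V : X.Opens} {e : Γ(L, V)}
    (he : IsLocalBasis L V e) (φ : L ⟶ L) :
    ∃ r : Γ(X, V), ∀ (W : X.Opens) (h : W ≤ V) (m : Γ(L, W)), φ.app W m = resO h r • m := by
  obtain ⟨r, hr⟩ := (he V le_rfl).2 (φ.app V e)
  simp only [res_self] at hr
  refine ⟨r, fun W h m => ?_⟩
  obtain ⟨s, rfl⟩ := (he W h).2 m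
  simp only
  rw [Scheme.Modules.Hom.app_smul, app_res, ← hr, res_smul, smul_smul, smul_smul, mul_comm]

theorem IsLocalBasis.eq_of_smul_eq {L : X.Modules} {V : X.Opens} {e : Γ(L, V)}
    (he : IsLocalBasis L V e) {W : X.Opens} (h : W ≤ V) (a b : Γ(X, W))
    (hab : ∀ m : Γ(L, W), a • m = b • m) : a = b :=
  (he W h).1 (hab _)

/-- `L` is locally trivial (sectionwise formulation). -/
def IsLocallyTrivial (L : X.Modules) : Prop :=
  ∀ x : X, ∃ (V : X.Opens) (e : Γ(L, V)), x ∈ V ∧ IsLocalBasis L V e

/-- **G2**: every endomorphism of a locally trivial module is multiplication by a global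
function. -/
theorem exists_smulHom_eq {L : X.Modules} (hL : IsLocallyTrivial L) (φ : L ⟶ L) :
    ∃ r : Γ(X, ⊤), φ = smulHom L r := by
  choose V e hxV he using hL
  choose r hr using fun x => (he x).exists_smul φ
  have hcompat : TopCat.Presheaf.IsCompatible X.presheaf V r := by
    intro x y
    refine ((he x).res (inf_le_left : V x ⊓ V y ≤ V x)).eq_of_smul_eq le_rfl _ _ (fun m => ?_)
    exact (hr x _ inf_le_left m).symm.trans (hr y _ inf_le_right m)
  have key : ∀ s : Γ(X, ⊤), (∀ x, resO (le_top : V x ≤ ⊤) s = r x) → φ = smulHom L s := by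
    intro s hs
    apply Scheme.Modules.hom_ext
    intro U
    ext m
    rw [smulHom_app]
    apply eq_of_locally_eq
    intro x hx
    refine ⟨U ⊓ V x, inf_le_left, ⟨hx, hxV x⟩, ?_⟩
    rw [← app_res, hr x _ inf_le_right, res_smul, resO_resO]
    congr 1
    rw [← hs x]
    exact (resO_resO (inf_le_right : U ⊓ V x ≤ V x) le_top s)
  obtain ⟨s, hs, -⟩ := X.sheaf.existsUnique_gluing' V ⊤ (fun x => homOfLE le_top)
    (fun x _ => Opens.mem_iSup.mpr ⟨x, hxV x⟩) r hcompat
  exact ⟨s, key s hs⟩

theorem smulHom_injective {L : X.Modules} (hL : IsLocallyTrivial L) :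
    Function.Injective (smulHom L) := by
  intro a b hab
  apply X.sheaf.eq_of_locally_eq' (fun x : X => (hL x).choose) ⊤ (fun x => homOfLE le_top)
    (fun x _ => Opens.mem_iSup.mpr ⟨x, (hL x).choose_spec.choose_spec.1⟩)
  intro x
  obtain ⟨e, hxV, he⟩ := (hL x).choose_spec
  refine he.eq_of_smul_eq le_rfl _ _ (fun m => ?_)
  have h1 := congrArg (fun θ => Scheme.Modules.Hom.app θ (hL x).choose m) hab
  have h2 : resO (le_top : (hL x).choose ≤ ⊤) a • m = resO (le_top : (hL x).choose ≤ ⊤) b • m := by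
    simpa only [smulHom_app] using h1
  exact h2

noncomputable abbrev 𝒪 (X : Scheme.{u}) : X.Modules := SheafOfModules.unit X.ringCatSheaf

def toUnit {U : X.Opens} (s : Γ(X, U)) : Γ(𝒪 X, U) := s

theorem smul_toUnit {U : X.Opens} (r s : Γ(X, U)) : r • toUnit s = toUnit (r * s) := rfl

theorem map_toUnit {U V : X.Opens} (i : U ⟶ V) (s : Γ(X, V)) :
    (𝒪 X).presheaf.map i.op (toUnit s) = toUnit (X.presheaf.map i.op s) := rfl

theorem toUnit_bijective {U : X.Opens} : Function.Bijective (toUnit : Γ(X, U) → Γ(𝒪 X, U)) :=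
  ⟨fun _ _ h => h, fun s => ⟨s, rfl⟩⟩

/-- the local basis attached to a trivialisation of the restriction to an open immersion. -/
theorem isLocalBasis_of_iso {L : X.Modules} {Z : Scheme.{u}} (f : Z ⟶ X) [IsOpenImmersion f]
    (θ : L.restrict f ≅ 𝒪 Z) :
    IsLocalBasis L (f ''ᵁ ⊤) ((L.restrictAppIso f ⊤).hom (θ.inv.app ⊤ (toUnit 1))) := by
  intro W hW
  obtain ⟨W', rfl⟩ : ∃ W' : Z.Opens, f ''ᵁ W' = W := by
    refine ⟨f ⁻¹ᵁ W, ?_⟩
    rw [Scheme.Hom.image_preimage_eq_opensRange_inf, ← Scheme.Hom.image_top_eq_opensRange]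
    exact inf_eq_right.mpr hW
  have hbij : Function.Bijective (fun s : Γ(X, f ''ᵁ W') =>
      (L.restrictAppIso f W').hom (θ.inv.app W' (toUnit ((f.appIso W').hom s)))) := by
    have h1 : Function.Bijective ((f.appIso W').hom : Γ(X, f ''ᵁ W') → Γ(Z, W')) :=
      ConcreteCategory.bijective_of_isIso _
    have h2 : Function.Bijective (θ.inv.app W' : Γ(𝒪 Z, W') → Γ(L.restrict f, W')) :=
      ConcreteCategory.bijective_of_isIso _
    have h3 : Function.Bijective ((L.restrictAppIso f W').hom :
        Γ(L.restrict f, W') → Γ(L, f ''ᵁ W')) :=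
      ConcreteCategory.bijective_of_isIso _
    exact h3.comp (h2.comp (toUnit_bijective.comp h1))
  convert hbij using 2 with s
  have h1 : toUnit ((f.appIso W').hom s) =
      ((f.appIso W').hom s) • (𝒪 Z).presheaf.map (homOfLE (le_top : W' ≤ ⊤)).op (toUnit 1) := by
    rw [map_toUnit, smul_toUnit, map_one, mul_one]
  rw [h1, Scheme.Modules.Hom.app_smul, app_res]
  simp only [Scheme.Modules.smul_restrictAppIso_hom_apply, Iso.hom_inv_id_apply]
  rfl


/-- an invertible module in the sense of the Prelude is locally trivial in the sectionwise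
sense. -/
theorem isLocallyTrivial_of_isInvertible {L : X.Modules}
    (hL : Scheme.Modules.IsInvertible L) : IsLocallyTrivial L := by
  intro x
  obtain ⟨U, hxU, ⟨θ₀⟩⟩ := hL.exists_trivialization x
  let θ : L.restrict U.ι ≅ 𝒪 U.toScheme := (restrictFunctorIsoPullback U.ι).app L ≪≫ θ₀
  refine ⟨U.ι ''ᵁ ⊤, _, ?_, isLocalBasis_of_iso U.ι θ⟩
  rw [Scheme.Hom.image_top_eq_opensRange, Scheme.Opens.opensRange_ι]
  exact hxU

theorem smulHom_one (M : X.Modules) : smulHom M 1 = 𝟙 M := by
  apply Scheme.Modules.hom_ext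
  intro U
  ext m
  rw [smulHom_app, resO_one, one_smul]
  rfl

theorem smulHom_mul (M : X.Modules) (a b : Γ(X, ⊤)) :
    smulHom M (a * b) = smulHom M a ≫ smulHom M b := by
  apply Scheme.Modules.hom_ext
  intro U
  ext m
  rw [Scheme.Modules.Hom.comp_app, CategoryTheory.comp_apply, smulHom_app, smulHom_app,
    smulHom_app, resO_mul, smul_smul, mul_comm]

/-- multiplication by a global function commutes with every morphism. -/
theorem smulHom_naturality {M N : X.Modules} (φ : M ⟶ N) (r : Γ(X, ⊤)) :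
    smulHom M r ≫ φ = φ ≫ smulHom N r := by
  apply Scheme.Modules.hom_ext
  intro U
  ext m
  rw [Scheme.Modules.Hom.comp_app, Scheme.Modules.Hom.comp_app, CategoryTheory.comp_apply,
    CategoryTheory.comp_apply, smulHom_app, smulHom_app, Scheme.Modules.Hom.app_smul]

/-- **G2**: `End(L) = Γ(X, ⊤)` for an invertible module. -/
theorem existsUnique_smulHom_eq {L : X.Modules} (hL : Scheme.Modules.IsInvertible L)
    (φ : L ⟶ L) : ∃! r : Γ(X, ⊤), φ = smulHom L r := by
  have hL' := isLocallyTrivial_of_isInvertible hL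
  obtain ⟨r, hr⟩ := exists_smulHom_eq hL' φ
  exact ⟨r, hr, fun r' hr' => smulHom_injective hL' (hr'.symm.trans hr)⟩

/-- **G2**: two isomorphisms between invertible modules differ by a global unit. -/
theorem exists_unit_smulHom_comp {L L' : X.Modules} (hL : Scheme.Modules.IsInvertible L)
    (α β : L ≅ L') : ∃ u : (Γ(X, ⊤))ˣ, β.hom = smulHom L (u : Γ(X, ⊤)) ≫ α.hom := by
  have hL' := isLocallyTrivial_of_isInvertible hL
  obtain ⟨a, ha⟩ := exists_smulHom_eq hL' (β.hom ≫ α.inv)
  obtain ⟨b, hb⟩ := exists_smulHom_eq hL' (α.hom ≫ β.inv)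
  have hab : a * b = 1 := by
    apply smulHom_injective hL'
    rw [smulHom_mul, ← ha, ← hb, smulHom_one]
    simp
  refine ⟨⟨a, b, hab, (mul_comm b a).trans hab⟩, ?_⟩
  change β.hom = smulHom L a ≫ α.hom
  rw [← ha]
  simp

end Fermat.Agent.JAC.Glue.EndInv30
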