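/-
Programme JAC (S25), work package B4 (helper30): Zariski descent for `Scheme.Modules`.
Part G3 (core): gluing of `𝒪_X`-modules.  Given `𝒪_X`-modules `P a` (think: pushforwards of modules
on the members `U a` of an open cover) and a sectionwise descent datum (compatible linear
identifications `T a b` of `P a` and `P b` on all opens contained in `U a ⊓ U b`, with cocycle
condition), we construct the glued module `glue D` as the subsheaf of `∏ P a` of compatible
families, the projections `proj D a : glue D ⟶ P a`, and show that `proj D a` is bijective on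
sections over opens contained in `U a`.
-/
import Fermat.Agent.JAC.Glue.EndInv30

set_option autoImplicit false

open CategoryTheory AlgebraicGeometry TopologicalSpace Opposite

universe u

namespace Fermat.Agent.JAC.Glue.ObjGlue30

open Scheme.Modules Fermat.Agent.JAC.Glue.HomGlue30 Fermat.Agent.JAC.Glue.EndInv30

variable {X : Scheme.{u}} {ι : Type u} (U : ι → X.Opens) (P : ι → X.Modules)

structure DescentDatum where
  T : ∀ (a b : ι) (V : X.Opens), V ≤ U a → V ≤ U b → (Γ(P a, V) →+ Γ(P b, V))
  T_smul : ∀ (a b : ι) (V : X.Opens) (ha : V ≤ U a) (hb : V ≤ U b) (r : Γ(X, V))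
    (m : Γ(P a, V)), T a b V ha hb (r • m) = r • T a b V ha hb m
  T_res : ∀ (a b : ι) (V V' : X.Opens) (h : V' ≤ V) (ha : V ≤ U a) (hb : V ≤ U b)
    (m : Γ(P a, V)),
    T a b V' (h.trans ha) (h.trans hb) (res (P a) h m) = res (P b) h (T a b V ha hb m)
  T_self : ∀ (a : ι) (V : X.Opens) (ha : V ≤ U a) (m : Γ(P a, V)), T a a V ha ha m = m
  T_comp : ∀ (a b c : ι) (V : X.Opens) (ha : V ≤ U a) (hb : V ≤ U b) (hc : V ≤ U c)
    (m : Γ(P a, V)), T b c V hb hc (T a b V ha hb m) = T a c V ha hc m

variable {U P} (D : DescentDatum U P)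

def secs (V : X.Opens) : Submodule Γ(X, V) (∀ a, Γ(P a, V)) where
  carrier := {s | ∀ (a b : ι) (W : X.Opens) (hW : W ≤ V) (ha : W ≤ U a) (hb : W ≤ U b),
    D.T a b W ha hb (res (P a) hW (s a)) = res (P b) hW (s b)}
  zero_mem' := by
    intro a b W hW ha hb
    simp only [Pi.zero_apply, map_zero]
  add_mem' := by
    intro s t hs ht a b W hW ha hb
    simp only [Pi.add_apply, map_add]
    rw [hs a b W hW ha hb, ht a b W hW ha hb]
  smul_mem' := by
    intro r s hs a b W hW ha hb
    simp only [Pi.smul_apply]
    rw [res_smul, res_smul, D.T_smul, hs a b W hW ha hb]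

/-- restriction of sections of the glued module. -/
noncomputable def secsRes {V' V : X.Opens} (h : V' ≤ V) : secs D V →+ secs D V' where
  toFun s := ⟨fun a => res (P a) h (s.1 a), fun a b W hW ha hb => by
    simp only [res_res]
    exact s.2 a b W (hW.trans h) ha hb⟩
  map_zero' := by
    apply Subtype.ext
    funext a
    simp only [Submodule.coe_zero, Pi.zero_apply, map_zero]
  map_add' s t := by
    apply Subtype.ext
    funext a
    simp only [Submodule.coe_add, Pi.add_apply, map_add]

theorem secsRes_apply {V' V : X.Opens} (h : V' ≤ V) (s : secs D V) (a : ι) :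
    (secsRes D h s).1 a = res (P a) h (s.1 a) := rfl

/-- the underlying abelian presheaf of the glued module. -/
noncomputable def glueAb : (Opens X)ᵒᵖ ⥤ Ab.{u} where
  obj V := AddCommGrpCat.of (secs D V.unop)
  map f := AddCommGrpCat.ofHom (secsRes D (leOfHom f.unop))
  map_id V := by
    ext s a
    exact res_self (P a) _ _
  map_comp f g := by
    ext s a
    exact (res_res (P a) _ _ _).symm


noncomputable instance glueAbModule (V : (Opens X)ᵒᵖ) :
    Module (X.ringCatSheaf.obj.obj V) ((glueAb D).obj V) :=
  inferInstanceAs (Module Γ(X, V.unop) (secs D V.unop))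

/-- the glued presheaf of modules. -/
noncomputable def gluePresheaf : PresheafOfModules.{u} X.ringCatSheaf.obj :=
  PresheafOfModules.ofPresheaf (glueAb D) (by
    intro V V' f r s
    apply Subtype.ext
    funext a
    exact res_smul (P a) (leOfHom f.unop) r (s.1 a))

theorem gluePresheaf_presheaf : (gluePresheaf D).presheaf = glueAb D := rfl


theorem glueAb_isSheaf : TopCat.Presheaf.IsSheaf (glueAb D) := by
  rw [TopCat.Presheaf.isSheaf_iff_isSheafUniqueGluing]
  intro κ Vs sf hsf
  -- componentwise gluing
  have hcomp : ∀ a : ι, TopCat.Presheaf.IsCompatible (P a).presheaf Vs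
      (fun i => (sf i).1 a) := by
    intro a i j
    exact congrArg (fun t : secs D (Vs i ⊓ Vs j) => t.1 a) (hsf i j)
  have hglue := fun a : ι => TopCat.Sheaf.existsUnique_gluing
    (⟨(P a).presheaf, (P a).isSheaf⟩ : TopCat.Sheaf Ab X) Vs (fun i => (sf i).1 a) (hcomp a)
  choose g hg hguniq using hglue
  have hgres : ∀ (a : ι) (i : κ), res (P a) (le_iSup Vs i) (g a) = (sf i).1 a :=
    fun a i => hg a i
  have hmem : g ∈ secs D (iSup Vs) := by
    intro a b W hW ha hb
    apply eq_of_locally_eq
    intro x hx
    obtain ⟨i, hi⟩ := Opens.mem_iSup.mp (hW hx)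
    refine ⟨W ⊓ Vs i, inf_le_left, ⟨hx, hi⟩, ?_⟩
    rw [← D.T_res a b W (W ⊓ Vs i) inf_le_left ha hb, res_res, res_res]
    have e1 : res (P a) ((inf_le_left : W ⊓ Vs i ≤ W).trans hW) (g a) =
        res (P a) (inf_le_right : W ⊓ Vs i ≤ Vs i) ((sf i).1 a) := by
      rw [← hgres a i, res_res]
    have e2 : res (P b) ((inf_le_left : W ⊓ Vs i ≤ W).trans hW) (g b) =
        res (P b) (inf_le_right : W ⊓ Vs i ≤ Vs i) ((sf i).1 b) := by
      rw [← hgres b i, res_res]
    rw [e1, e2]
    exact (sf i).2 a b (W ⊓ Vs i) inf_le_right (inf_le_left.trans ha) (inf_le_left.trans hb)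
  refine ⟨⟨g, hmem⟩, ?_, ?_⟩
  · intro i
    apply Subtype.ext
    funext a
    exact hgres a i
  · intro s' hs'
    apply Subtype.ext
    funext a
    refine hguniq a (s'.1 a) (fun i => ?_)
    exact congrArg (fun t : secs D (Vs i) => t.1 a) (hs' i)


/-- **G3 (core)**: the glued `𝒪_X`-module. -/
noncomputable def glue : X.Modules where
  val := gluePresheaf D
  isSheaf := glueAb_isSheaf D

/-- sections of the glued module are compatible families. -/
theorem glue_sections (V : X.Opens) : (Γ(glue D, V) : Type u) = secs D V := rfl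

/-- the projection of the glued module to the `a`-th member, on sections. -/
noncomputable def projAdd (a : ι) (V : X.Opens) : secs D V →+ Γ(P a, V) where
  toFun s := s.1 a
  map_zero' := rfl
  map_add' _ _ := rfl

/-- the projection of the glued module to the `a`-th member. -/
noncomputable def proj (a : ι) : glue D ⟶ P a :=
  homOfPresheafHom
    { app := fun V => AddCommGrpCat.ofHom (projAdd D a V.unop)
      naturality := fun _ _ _ => rfl }
    (fun _ _ _ => rfl)

theorem proj_app (a : ι) (V : X.Opens) (s : secs D V) : (proj D a).app V s = s.1 a := rfl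

/-- the projections are compatible with the descent datum. -/
theorem T_proj (a b : ι) (V : X.Opens) (ha : V ≤ U a) (hb : V ≤ U b) (s : Γ(glue D, V)) :
    D.T a b V ha hb ((proj D a).app V s) = (proj D b).app V s := by
  have h := (show secs D V from s).2 a b V le_rfl ha hb
  simp only [res_self] at h
  exact h


/-- the members are supported on the corresponding opens: sections of `P b` over `V` are the
same as sections over `V ⊓ U b` (true for pushforwards from `U b`). -/
def IsSupported (U : ι → X.Opens) (P : ι → X.Modules) : Prop :=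
  ∀ (b : ι) (V : X.Opens), Function.Bijective (res (P b) (inf_le_left : V ⊓ U b ≤ V))

theorem proj_injective (hP : IsSupported U P) (a : ι) (V : X.Opens) (ha : V ≤ U a) :
    Function.Injective ((proj D a).app V) := by
  intro s s' hss'
  have hss : (show secs D V from s).1 a = (show secs D V from s').1 a := hss'
  apply Subtype.ext
  funext b
  apply (hP b V).1
  have h1 := (show secs D V from s).2 a b (V ⊓ U b) inf_le_left (inf_le_left.trans ha) inf_le_right
  have h2 := (show secs D V from s').2 a b (V ⊓ U b) inf_le_left (inf_le_left.trans ha)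
    inf_le_right
  rw [hss] at h1
  exact h1.symm.trans h2

theorem proj_surjective (hP : IsSupported U P) (a : ι) (V : X.Opens) (ha : V ≤ U a) :
    Function.Surjective ((proj D a).app V) := by
  intro m
  have hex : ∀ b : ι, ∃ sb : Γ(P b, V), res (P b) (inf_le_left : V ⊓ U b ≤ V) sb =
      D.T a b (V ⊓ U b) (inf_le_left.trans ha) inf_le_right (res (P a) inf_le_left m) :=
    fun b => (hP b V).2 _
  choose sb hsb using hex
  have key : ∀ (b : ι) (W : X.Opens) (hW : W ≤ V) (hb : W ≤ U b),
      res (P b) hW (sb b) = D.T a b W (hW.trans ha) hb (res (P a) hW m) := by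
    intro b W hW hb
    have h1 : res (P b) hW (sb b) =
        res (P b) (le_inf hW hb : W ≤ V ⊓ U b) (res (P b) inf_le_left (sb b)) := by
      rw [res_res]
    rw [h1, hsb b, ← D.T_res a b (V ⊓ U b) W (le_inf hW hb), res_res]
  have hmem : sb ∈ secs D V := by
    intro b c W hW hb hc
    rw [key b W hW hb, key c W hW hc, D.T_comp]
  refine ⟨(⟨sb, hmem⟩ : secs D V), ?_⟩
  change sb a = m
  apply (hP a V).1
  rw [hsb a, D.T_self]

theorem proj_bijective (hP : IsSupported U P) (a : ι) (V : X.Opens) (ha : V ≤ U a) :
    Function.Bijective ((proj D a).app V) :=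
  ⟨proj_injective D hP a V ha, proj_surjective D hP a V ha⟩


/-- the restriction of the projection `proj D a` to an open subscheme contained in `U a` is an
isomorphism. -/
theorem isIso_restrict_proj (hP : IsSupported U P) (a : ι) {Z : Scheme.{u}} (f : Z ⟶ X)
    [IsOpenImmersion f] (hf : f.opensRange ≤ U a) :
    IsIso ((restrictFunctor f).map (proj D a)) := by
  rw [Scheme.Modules.Hom.isIso_iff_isIso_app]
  intro W
  have hb : Function.Bijective ((proj D a).app (f ''ᵁ W)) :=
    proj_bijective D hP a (f ''ᵁ W) ((f.image_le_opensRange W).trans hf)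
  exact (ConcreteCategory.isIso_iff_bijective ((proj D a).app (f ''ᵁ W))).mpr hb

end Fermat.Agent.JAC.Glue.ObjGlue30
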