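/-
Programme JAC (S25), work package B4, part G4b (helper30): the core of the descent of rigidified
line bundles, in sectionwise form.

Setting: `σ : T ⟶ X` a morphism of schemes (in the application `X = C ×_k T` and `σ` is the
rigidifying section).  A *local rigidification* of `L : X.Modules` over an open `U` of `X` is a
local homomorphism `ℓ : LocalHom L (σ_* 𝒪_T) U` (helper1's `HomGlue1.LocalHom`) which is
*nondegenerate* (`Nondeg`): near every point `σ x` of `U` it takes a unit value on a local basis.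

* `existsUnique_ratio`: every local hom `μ : L → σ_* 𝒪_T` over `U` is `v • ℓ` for a unique
  `v ∈ Γ(T, σ⁻¹ U)`;
* `exists_mulHom_eq`: local version of G2 (local endomorphisms of a locally trivial module);
* `exists_normalised`, `eq_of_normalised`: local isomorphisms can be rescaled to respect the
  rigidifications, uniquely, on opens `U` where `σ^♯ : Γ(X, U) → Γ(T, σ⁻¹ U)` is bijective;
* `sep_core`, `glue_core`: separatedness and gluing for rigidified line bundles.
-/
import Fermat.Agent.JAC.Glue.RigAdj30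
import Fermat.Agent.JAC.Glue.RestrictHom1
import Fermat.Agent.JAC.Glue.ObjGlue30

set_option autoImplicit false
universe u
open CategoryTheory AlgebraicGeometry TopologicalSpace Opposite
open AlgebraicGeometry.Scheme.Modules
open Fermat.Agent.JAC.Glue.HomGlue30 Fermat.Agent.JAC.Glue.EndInv30
open Fermat.Agent.JAC.Glue.RigAdj30 Fermat.Agent.JAC.Glue.ObjGlue30
open Fermat.Agent.JAC.Glue.HomGlue1 (LocalHom LocalIso)

namespace Fermat.Agent.JAC.Glue.RigCore30

variable {X T : Scheme.{u}} (σ : T ⟶ X)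

theorem LocalHom_app_res {M N : X.Modules} {U : X.Opens} (a : LocalHom M N U) {V W : X.Opens}
    (hV : V ≤ U) (hWV : W ≤ V) (m : Γ(M, V)) :
    a.app W (hWV.trans hV) (res M hWV m) = res N hWV (a.app V hV m) :=
  (a.naturality hV hWV m).symm

theorem existsUnique_glue_fn {I : Type*} (V : I → T.Opens) (V₀ : T.Opens) (hle : ∀ i, V i ≤ V₀)
    (hcov : ∀ x ∈ V₀, ∃ i, x ∈ V i) (r : ∀ i, Γ(T, V i))
    (hr : ∀ i j, resO (inf_le_left : V i ⊓ V j ≤ V i) (r i) =
      resO (inf_le_right : V i ⊓ V j ≤ V j) (r j)) :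
    ∃! s : Γ(T, V₀), ∀ i, resO (hle i) s = r i :=
  T.sheaf.existsUnique_gluing' V V₀ (fun i => homOfLE (hle i))
    (fun x hx => by
      obtain ⟨i, hi⟩ := hcov x hx
      exact Opens.mem_iSup.mpr ⟨i, hi⟩) r hr

def Nondeg {L : X.Modules} {U : X.Opens} (ℓ : LocalHom L (Kσ σ) U) : Prop :=
  ∀ x : T, σ.base x ∈ U → ∃ (W : X.Opens) (hW : W ≤ U) (e : Γ(L, W)),
    σ.base x ∈ W ∧ IsLocalBasis L W e ∧ IsUnit (secT σ (ℓ.app W hW e))

variable {σ}

theorem secT_app_res {L : X.Modules} {U : X.Opens} (ℓ : LocalHom L (Kσ σ) U) {V W : X.Opens}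
    (hV : V ≤ U) (hWV : W ≤ V) (m : Γ(L, V)) :
    secT σ (ℓ.app W (hWV.trans hV) (res L hWV m)) =
      resO (σ.preimage_mono hWV) (secT σ (ℓ.app V hV m)) := by
  rw [LocalHom_app_res, secT_res]

theorem secT_app_smul {L : X.Modules} {U : X.Opens} (ℓ : LocalHom L (Kσ σ) U) {V : X.Opens}
    (hV : V ≤ U) (r : Γ(X, V)) (m : Γ(L, V)) :
    secT σ (ℓ.app V hV (r • m)) = σ.app V r * secT σ (ℓ.app V hV m) := by
  rw [ℓ.map_smul, secT_smul]

/-- `v` is a ratio of `μ` by `ℓ`: `μ = v • ℓ` sectionwise. -/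
def IsRatio {L : X.Modules} {U : X.Opens} (ℓ μ : LocalHom L (Kσ σ) U) (v : Γ(T, σ ⁻¹ᵁ U)) : Prop :=
  ∀ (W : X.Opens) (hW : W ≤ U) (m : Γ(L, W)),
    secT σ (μ.app W hW m) = resO (σ.preimage_mono hW) v * secT σ (ℓ.app W hW m)

theorem existsUnique_ratio {L : X.Modules} {U : X.Opens} (ℓ : LocalHom L (Kσ σ) U)
    (hℓ : Nondeg σ ℓ) (μ : LocalHom L (Kσ σ) U) : ∃! v : Γ(T, σ ⁻¹ᵁ U), IsRatio ℓ μ v := by
  choose W hW e hxW he hu using fun x : {x : T // σ.base x ∈ U} => hℓ x.1 x.2
  let a : ∀ x, Γ(T, σ ⁻¹ᵁ W x) := fun x => secT σ (ℓ.app (W x) (hW x) (e x))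
  let b : ∀ x, Γ(T, σ ⁻¹ᵁ W x) := fun x => secT σ (μ.app (W x) (hW x) (e x))
  let v : ∀ x, Γ(T, σ ⁻¹ᵁ W x) := fun x => b x * ↑((hu x).unit⁻¹)
  have hv : ∀ x, v x * a x = b x := by
    intro x
    change b x * ↑((hu x).unit⁻¹) * a x = b x
    rw [mul_assoc, IsUnit.val_inv_mul, mul_one]
  -- the local property
  have hloc : ∀ x (W' : X.Opens) (hW' : W' ≤ W x) (m : Γ(L, W')),
      secT σ (μ.app W' (hW'.trans (hW x)) m) =
        resO (σ.preimage_mono hW') (v x) * secT σ (ℓ.app W' (hW'.trans (hW x)) m) := by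
    intro x W' hW' m
    obtain ⟨s, rfl⟩ := ((he x) W' hW').2 m
    change secT σ (μ.app W' _ (s • res L hW' (e x))) =
      _ * secT σ (ℓ.app W' _ (s • res L hW' (e x)))
    rw [secT_app_smul, secT_app_smul, secT_app_res, secT_app_res]
    change _ * resO _ (b x) = _ * (_ * resO _ (a x))
    rw [← hv x, resO_mul]
    ring
  -- uniqueness on any open
  have huniq : ∀ x (W' : X.Opens) (hW' : W' ≤ W x) (v₁ v₂ : Γ(T, σ ⁻¹ᵁ W'))
      (h : v₁ * secT σ (ℓ.app W' (hW'.trans (hW x)) (res L hW' (e x))) =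
        v₂ * secT σ (ℓ.app W' (hW'.trans (hW x)) (res L hW' (e x)))), v₁ = v₂ := by
    intro x W' hW' v₁ v₂ h
    rw [secT_app_res ℓ (hW x) hW'] at h
    exact (resO_isUnit (σ.preimage_mono hW') (hu x)).mul_left_injective h
  -- compatibility of the local ratios
  have hcompat : ∀ x y, resO (inf_le_left : σ ⁻¹ᵁ W x ⊓ σ ⁻¹ᵁ W y ≤ σ ⁻¹ᵁ W x) (v x) =
      resO (inf_le_right : σ ⁻¹ᵁ W x ⊓ σ ⁻¹ᵁ W y ≤ σ ⁻¹ᵁ W y) (v y) := by
    intro x y
    refine huniq x (W x ⊓ W y) inf_le_left _ _ ?_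
    have h1 := hloc x (W x ⊓ W y) inf_le_left (res L inf_le_left (e x))
    have h2 := hloc y (W x ⊓ W y) inf_le_right (res L inf_le_left (e x))
    exact h1.symm.trans h2
  obtain ⟨s, hs, hs'⟩ := existsUnique_glue_fn (fun x => σ ⁻¹ᵁ W x) (σ ⁻¹ᵁ U)
    (fun x => σ.preimage_mono (hW x)) (fun y hy => ⟨⟨y, hy⟩, hxW ⟨y, hy⟩⟩) v hcompat
  refine ⟨s, ?_, ?_⟩
  · intro W' hW' m
    -- check locally on `σ⁻¹ W'`
    apply (T.sheaf).eq_of_locally_eq' (fun x : {x : T // σ.base x ∈ U} => σ ⁻¹ᵁ (W' ⊓ W x))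
      (σ ⁻¹ᵁ W') (fun x => homOfLE (σ.preimage_mono inf_le_left))
    · intro y hy
      exact Opens.mem_iSup.mpr ⟨⟨y, hW' hy⟩, ⟨hy, hxW ⟨y, hW' hy⟩⟩⟩
    · intro x
      have h1 := hloc x (W' ⊓ W x) inf_le_right (res L inf_le_left m)
      rw [secT_app_res μ hW' inf_le_left, secT_app_res ℓ hW' inf_le_left] at h1
      change resO _ _ = resO _ (_ * _)
      rw [resO_mul, resO_resO, h1, ← hs x, resO_resO]
  · intro s' hs''
    apply hs'
    intro x
    refine huniq x (W x) le_rfl _ _ ?_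
    have h1 := hs'' (W x) (hW x) (e x)
    have h2 := hloc x (W x) le_rfl (e x)
    rw [res_self]
    rw [resO_self] at h2
    exact h1.symm.trans h2

theorem isRatio_self {L : X.Modules} {U : X.Opens} (ℓ : LocalHom L (Kσ σ) U) : IsRatio ℓ ℓ 1 := by
  intro W hW m
  rw [resO_one, one_mul]

theorem IsRatio.eq {L : X.Modules} {U : X.Opens} {ℓ μ : LocalHom L (Kσ σ) U} (hℓ : Nondeg σ ℓ)
    {v v' : Γ(T, σ ⁻¹ᵁ U)} (h : IsRatio ℓ μ v) (h' : IsRatio ℓ μ v') : v = v' :=
  (existsUnique_ratio ℓ hℓ μ).unique h h'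

/-- naturality of `σ.app` with respect to restriction. -/
theorem app_resO {U V : X.Opens} (h : V ≤ U) (r : Γ(X, U)) :
    σ.app V (resO h r) = resO (σ.preimage_mono h) (σ.app U r) :=
  ConcreteCategory.congr_hom (σ.naturality (homOfLE h).op) r

/-! ### multiplication by a function as a local hom -/

/-- multiplication by `u ∈ Γ(X, U)` as a local endomorphism over `U`. -/
noncomputable def mulHom (N : X.Modules) {U : X.Opens} (u : Γ(X, U)) : LocalHom N N U where
  app V hV := (N.smul (resO hV u)).hom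
  naturality {V W} hV hWV x := by
    change res N hWV (resO hV u • x) = resO (hWV.trans hV) u • res N hWV x
    rw [res_smul, resO_resO]
  map_smul {V} hV r x := by
    change resO hV u • (r • x) = r • (resO hV u • x)
    rw [smul_smul, smul_smul, mul_comm]

theorem mulHom_app (N : X.Modules) {U : X.Opens} (u : Γ(X, U)) (V : X.Opens) (hV : V ≤ U)
    (m : Γ(N, V)) : (mulHom N u).app V hV m = resO hV u • m := rfl

theorem mulHom_one (N : X.Modules) {U : X.Opens} : mulHom N (1 : Γ(X, U)) = LocalHom.id N U := by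
  ext V hV m
  rw [mulHom_app, resO_one, one_smul]
  rfl

theorem mulHom_comp (N : X.Modules) {U : X.Opens} (u u' : Γ(X, U)) :
    (mulHom N u).comp (mulHom N u') = mulHom N (u' * u) := by
  ext V hV m
  rw [LocalHom.comp_app, mulHom_app, mulHom_app, mulHom_app, smul_smul, resO_mul]

/-- multiplication by a unit as a local automorphism. -/
noncomputable def mulIso (N : X.Modules) {U : X.Opens} (u u' : Γ(X, U)) (h : u * u' = 1) :
    LocalIso N N U where
  hom := mulHom N u
  inv := mulHom N u'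
  hom_inv_id := by rw [mulHom_comp, mul_comm, h, mulHom_one]
  inv_hom_id := by rw [mulHom_comp, h, mulHom_one]

/-- `L` is locally trivial at the points of `U`. -/
def LocTrivOn (L : X.Modules) (U : X.Opens) : Prop :=
  ∀ x ∈ U, ∃ (V : X.Opens) (_ : V ≤ U) (e : Γ(L, V)), x ∈ V ∧ IsLocalBasis L V e

/-- local version of G2: a local endomorphism of a locally trivial module is a multiplication. -/
theorem exists_mulHom_eq {L : X.Modules} {U : X.Opens} (hL : LocTrivOn L U)
    (γ : LocalHom L L U) : ∃ w : Γ(X, U), γ = mulHom L w := by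
  choose V hV e hxV he using fun x : {x : X // x ∈ U} => hL x.1 x.2
  have hex : ∀ x, ∃ r : Γ(X, V x), ∀ (W : X.Opens) (h : W ≤ V x) (m : Γ(L, W)),
      γ.app W (h.trans (hV x)) m = resO h r • m := by
    intro x
    obtain ⟨r, hr⟩ := ((he x) (V x) le_rfl).2 (γ.app (V x) (hV x) (e x))
    simp only [res_self] at hr
    refine ⟨r, fun W h m => ?_⟩
    obtain ⟨s, rfl⟩ := ((he x) W h).2 m
    change γ.app W _ (s • res L h (e x)) = resO h r • (s • res L h (e x))
    rw [γ.map_smul, LocalHom_app_res γ (hV x) h, ← hr, res_smul, smul_smul, smul_smul, mul_comm]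
  choose r hr using hex
  have hcompat : ∀ x y, resO (inf_le_left : V x ⊓ V y ≤ V x) (r x) =
      resO (inf_le_right : V x ⊓ V y ≤ V y) (r y) := by
    intro x y
    refine ((he x).res (inf_le_left : V x ⊓ V y ≤ V x)).eq_of_smul_eq le_rfl _ _ (fun m => ?_)
    exact (hr x _ inf_le_left m).symm.trans (hr y _ inf_le_right m)
  obtain ⟨w, hw, -⟩ := existsUnique_glue_fn (T := X) V U hV
    (fun y hy => ⟨⟨y, hy⟩, hxV ⟨y, hy⟩⟩) r hcompat
  refine ⟨w, ?_⟩
  ext W hW m
  rw [mulHom_app]
  apply eq_of_locally_eq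
  intro y hy
  refine ⟨W ⊓ V ⟨y, hW hy⟩, inf_le_left, ⟨hy, hxV ⟨y, hW hy⟩⟩, ?_⟩
  rw [← LocalHom_app_res γ hW inf_le_left, hr ⟨y, hW hy⟩ _ inf_le_right, res_smul, resO_resO,
    ← hw ⟨y, hW hy⟩, resO_resO]

theorem secT_injective {W : X.Opens} : Function.Injective (secT σ (W := W)) := fun _ _ h => h

/-- **normalisation**: a local isomorphism between two modules with nondegenerate local
rigidifications can be rescaled so as to respect them, over an open `U` for which every
function on `σ⁻¹ U` comes from a unique function on `U`. -/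
theorem exists_normalised {L L' : X.Modules} {U : X.Opens}
    (ℓ : LocalHom L (Kσ σ) U) (hℓ : Nondeg σ ℓ) (ℓ' : LocalHom L' (Kσ σ) U) (hℓ' : Nondeg σ ℓ')
    (hbij : Function.Bijective (σ.app U)) (α : LocalIso L L' U) :
    ∃ α' : LocalIso L L' U, α'.hom.comp ℓ' = ℓ := by
  obtain ⟨v, hv, -⟩ := existsUnique_ratio ℓ hℓ (α.hom.comp ℓ')
  obtain ⟨v', hv', -⟩ := existsUnique_ratio ℓ' hℓ' (α.inv.comp ℓ)
  have hvv : v' * v = 1 := by
    refine IsRatio.eq hℓ (fun W hW m => ?_) (isRatio_self ℓ)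
    have h1 := hv' W hW (α.hom.app W hW m)
    have h2 := hv W hW m
    rw [LocalHom.comp_app] at h1 h2
    rw [α.inv_hom_apply] at h1
    rw [resO_mul, mul_assoc, ← h2, ← h1]
  obtain ⟨u, hu⟩ := hbij.2 v
  obtain ⟨u', hu'⟩ := hbij.2 v'
  have huu : u' * u = 1 := by
    apply hbij.1
    rw [map_mul, hu, hu', hvv, map_one]
  refine ⟨α.trans (mulIso L' u' u huu), ?_⟩
  ext W hW m
  apply secT_injective
  have h2 := hv W hW m
  rw [LocalHom.comp_app] at h2
  change secT σ (ℓ'.app W hW (resO hW u' • α.hom.app W hW m)) = _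
  rw [secT_app_smul, h2, app_resO, hu', ← mul_assoc, ← resO_mul, hvv, resO_one, one_mul]

/-- **uniqueness**: two local isomorphisms respecting the local rigidifications are equal, over
an open `U` such that functions on `U` are determined by their pullback to `σ⁻¹ U`. -/
theorem eq_of_normalised {L L' : X.Modules} {U : X.Opens}
    (ℓ : LocalHom L (Kσ σ) U) (hℓ : Nondeg σ ℓ) (hL : LocTrivOn L U)
    (ℓ' : LocalHom L' (Kσ σ) U) (hinj : Function.Injective (σ.app U))
    (α β : LocalIso L L' U) (hα : α.hom.comp ℓ' = ℓ) (hβ : β.hom.comp ℓ' = ℓ) : α = β := by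
  obtain ⟨w, hw⟩ := exists_mulHom_eq hL (β.hom.comp α.inv)
  have hγ : ∀ (W : X.Opens) (hW : W ≤ U) (m : Γ(L, W)),
      α.inv.app W hW (β.hom.app W hW m) = resO hW w • m := by
    intro W hW m
    have := congrArg (fun a : LocalHom L L U => a.app W hW m) hw
    simpa only [LocalHom.comp_app, mulHom_app] using this
  have hw1 : σ.app U w = 1 := by
    refine IsRatio.eq hℓ (fun W hW m => ?_) (isRatio_self ℓ)
    have h1 : ℓ.app W hW m = ℓ'.app W hW (β.hom.app W hW m) := by
      rw [← hβ]; rfl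
    have h2 : ℓ'.app W hW (β.hom.app W hW m) = ℓ.app W hW (resO hW w • m) := by
      rw [← hγ W hW m, ← hα, LocalHom.comp_app, α.hom_inv_apply]
    conv_lhs => rw [h1, h2, secT_app_smul, app_resO]
  have hw2 : w = 1 := hinj (by rw [hw1, map_one])
  apply LocalIso.ext
  ext W hW m
  have h3 := hγ W hW m
  rw [hw2, resO_one, one_smul] at h3
  have h4 := congrArg (α.hom.app W hW) h3
  rw [α.hom_inv_apply] at h4
  exact h4.symm

theorem Nondeg.restrict {L : X.Modules} {U U' : X.Opens} {ℓ : LocalHom L (Kσ σ) U}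
    (hℓ : Nondeg σ ℓ) (h : U' ≤ U) : Nondeg σ (ℓ.restrict h) := by
  intro x hx
  obtain ⟨W, hW, e, hxW, he, hu⟩ := hℓ x (h hx)
  refine ⟨W ⊓ U', inf_le_right, res L inf_le_left e, ⟨hxW, hx⟩, he.res inf_le_left, ?_⟩
  rw [LocalHom.restrict_app, secT_app_res ℓ hW inf_le_left]
  exact resO_isUnit _ hu

theorem LocTrivOn.mono {L : X.Modules} {U U' : X.Opens} (hL : LocTrivOn L U) (h : U' ≤ U) :
    LocTrivOn L U' := by
  intro x hx
  obtain ⟨V, hV, e, hxV, he⟩ := hL x (h hx)
  exact ⟨V ⊓ U', inf_le_right, res L inf_le_left e, ⟨hxV, hx⟩, he.res inf_le_left⟩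

theorem locTrivOn_of_isLocallyTrivial {L : X.Modules} (hL : IsLocallyTrivial L) (U : X.Opens) :
    LocTrivOn L U := by
  intro x hx
  obtain ⟨V, e, hxV, he⟩ := hL x
  exact ⟨V ⊓ U, inf_le_right, res L inf_le_left e, ⟨hxV, hx⟩, he.res inf_le_left⟩

/-- **(sep), core form**: two modules with nondegenerate global rigidifications which are
locally isomorphic over a cover by opens `U a` are isomorphic, provided `σ^♯` is bijective on the
`U a` and injective on the overlaps. -/
theorem sep_core {ι : Type*} (U : ι → X.Opens) (hU : ⨆ a, U a = ⊤)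
    {L L' : X.Modules} (ℓ : LocalHom L (Kσ σ) ⊤) (hℓ : Nondeg σ ℓ) (hL : LocTrivOn L ⊤)
    (ℓ' : LocalHom L' (Kσ σ) ⊤) (hℓ' : Nondeg σ ℓ')
    (hbij : ∀ a, Function.Bijective (σ.app (U a)))
    (hinj : ∀ a b, Function.Injective (σ.app (U a ⊓ U b)))
    (α : ∀ a, LocalIso L L' (U a)) : Nonempty (L ≅ L') := by
  choose α' hα' using fun a => exists_normalised (ℓ.restrict (le_top : U a ≤ ⊤))
    (hℓ.restrict le_top) (ℓ'.restrict (le_top : U a ≤ ⊤)) (hℓ'.restrict le_top) (hbij a) (α a)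
  have hcompat : ∀ a b (V : X.Opens) (ha : V ≤ U a) (hb : V ≤ U b) (x : Γ(L, V)),
      (α' a).hom.app V ha x = (α' b).hom.app V hb x := by
    intro a b V ha hb x
    have key : (α' a).restrict (inf_le_left : U a ⊓ U b ≤ U a) =
        (α' b).restrict (inf_le_right : U a ⊓ U b ≤ U b) := by
      refine eq_of_normalised (ℓ.restrict le_top) (hℓ.restrict le_top) (hL.mono le_top)
        (ℓ'.restrict le_top) (hinj a b) _ _ ?_ ?_
      · have := congrArg (fun c => LocalHom.restrict c (inf_le_left : U a ⊓ U b ≤ U a)) (hα' a)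
        simpa only [LocalHom.restrict_comp, LocalHom.restrict_restrict, LocalIso.restrict_hom] using this
      · have := congrArg (fun c => LocalHom.restrict c (inf_le_right : U a ⊓ U b ≤ U b)) (hα' b)
        simpa only [LocalHom.restrict_comp, LocalHom.restrict_restrict, LocalIso.restrict_hom] using this
    have := congrArg (fun c : LocalIso L L' (U a ⊓ U b) => c.hom.app V (le_inf ha hb) x) key
    exact this
  exact ⟨((LocalIso.glue U α' hcompat).restrict (hU ▸ le_rfl : (⊤ : X.Opens) ≤ ⨆ a, U a)).toIso⟩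

/-- **(glue), core form**: modules `P a` supported on the members of a cover, with nondegenerate
local rigidifications and (arbitrary) local isomorphisms on the overlaps, glue to a module `N`
with a global rigidification, provided `σ^♯` is bijective on double overlaps and injective on
triple overlaps. -/
theorem glue_core {ι : Type u} (U : ι → X.Opens) (hU : ⨆ a, U a = ⊤) (P : ι → X.Modules)
    (hP : IsSupported U P) (hloc : ∀ a, LocTrivOn (P a) (U a))
    (ℓ : ∀ a, LocalHom (P a) (Kσ σ) (U a)) (hℓ : ∀ a, Nondeg σ (ℓ a))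
    (hbij : ∀ a b, Function.Bijective (σ.app (U a ⊓ U b)))
    (hinj : ∀ a b c, Function.Injective (σ.app (U a ⊓ U b ⊓ U c)))
    (β : ∀ a b, LocalIso (P a) (P b) (U a ⊓ U b)) :
    ∃ (N : X.Modules) (p : ∀ a, N ⟶ P a) (ℓN : LocalHom N (Kσ σ) ⊤),
      (∀ a (V : X.Opens), V ≤ U a → Function.Bijective ((p a).app V)) ∧
      (∀ a (V : X.Opens) (hV : V ≤ U a) (s : Γ(N, V)),
        ℓN.app V le_top s = (ℓ a).app V hV ((p a).app V s)) := by
  choose β' hβ' using fun a b => exists_normalised ((ℓ a).restrict inf_le_left)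
    ((hℓ a).restrict inf_le_left) ((ℓ b).restrict inf_le_right) ((hℓ b).restrict inf_le_right)
    (hbij a b) (β a b)
  have happ : ∀ a b (V : X.Opens) (ha : V ≤ U a) (hb : V ≤ U b) (m : Γ(P a, V)),
      (ℓ b).app V hb ((β' a b).hom.app V (le_inf ha hb) m) = (ℓ a).app V ha m := by
    intro a b V ha hb m
    exact congrArg (fun c : LocalHom (P a) (Kσ σ) (U a ⊓ U b) => c.app V (le_inf ha hb) m)
      (hβ' a b)
  have hself : ∀ a, β' a a = LocalIso.refl (P a) (U a ⊓ U a) := by
    intro a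
    refine eq_of_normalised ((ℓ a).restrict inf_le_left) ((hℓ a).restrict inf_le_left)
      ((hloc a).mono inf_le_left) ((ℓ a).restrict inf_le_right) (hbij a a).1 _ _ (hβ' a a) ?_
    exact LocalHom.id_comp _
  have hcomp : ∀ a b c,
      ((β' a b).restrict (inf_le_left : U a ⊓ U b ⊓ U c ≤ U a ⊓ U b)).trans
        ((β' b c).restrict (le_inf (inf_le_left.trans inf_le_right) inf_le_right :
          U a ⊓ U b ⊓ U c ≤ U b ⊓ U c)) =
      (β' a c).restrict (le_inf (inf_le_left.trans inf_le_left) inf_le_right :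
          U a ⊓ U b ⊓ U c ≤ U a ⊓ U c) := by
    intro a b c
    refine eq_of_normalised ((ℓ a).restrict (inf_le_left.trans inf_le_left))
      ((hℓ a).restrict _) ((hloc a).mono (inf_le_left.trans inf_le_left))
      ((ℓ c).restrict inf_le_right) (hinj a b c) _ _ ?_ ?_
    · ext V hV m
      simp only [LocalIso.trans_hom, LocalIso.restrict_hom, LocalHom.comp_app,
        LocalHom.restrict_app]
      rw [happ b c V (hV.trans (inf_le_left.trans inf_le_right)) (hV.trans inf_le_right),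
        happ a b V (hV.trans (inf_le_left.trans inf_le_left))
          (hV.trans (inf_le_left.trans inf_le_right))]
    · ext V hV m
      simp only [LocalIso.restrict_hom, LocalHom.comp_app, LocalHom.restrict_app]
      rw [happ a c V (hV.trans (inf_le_left.trans inf_le_left)) (hV.trans inf_le_right)]
  let D : DescentDatum U P :=
    { T := fun a b V ha hb => (β' a b).hom.app V (le_inf ha hb)
      T_smul := fun a b V ha hb r m => (β' a b).hom.map_smul _ r m
      T_res := fun a b V V' h ha hb m => LocalHom_app_res (β' a b).hom (le_inf ha hb) h m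
      T_self := fun a V ha m => by
        rw [hself a]
        rfl
      T_comp := fun a b c V ha hb hc m => by
        have := congrArg (fun e : LocalIso (P a) (P c) (U a ⊓ U b ⊓ U c) =>
          e.hom.app V (le_inf (le_inf ha hb) hc) m) (hcomp a b c)
        exact this }
  have hcompat : ∀ a b (V : X.Opens) (ha : V ≤ U a) (hb : V ≤ U b) (s : Γ(glue D, V)),
      ((LocalHom.ofHom (proj D a) (U a)).comp (ℓ a)).app V ha s =
        ((LocalHom.ofHom (proj D b) (U b)).comp (ℓ b)).app V hb s := by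
    intro a b V ha hb s
    simp only [LocalHom.comp_app, LocalHom.ofHom_app]
    rw [← T_proj D a b V ha hb s]
    exact (happ a b V ha hb _).symm
  refine ⟨glue D, proj D, (LocalHom.glue U _ hcompat).restrict (hU ▸ le_rfl), 
    fun a V hV => proj_bijective D hP a V hV, fun a V hV s => ?_⟩
  rw [LocalHom.restrict_app]
  exact LocalHom.glue_app_of_le U _ hcompat a hV s

/-- the glued rigidification of `glue_core` takes a unit value near every point `σ x`. -/
theorem hits_unit_of_cover {ι : Type*} (U : ι → X.Opens) (hU : ⨆ a, U a = ⊤) {N : X.Modules}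
    {P : ι → X.Modules} (p : ∀ a, N ⟶ P a) (ℓN : LocalHom N (Kσ σ) ⊤)
    (ℓ : ∀ a, LocalHom (P a) (Kσ σ) (U a)) (hℓ : ∀ a, Nondeg σ (ℓ a))
    (h1 : ∀ a (V : X.Opens), V ≤ U a → Function.Bijective ((p a).app V))
    (h2 : ∀ a (V : X.Opens) (hV : V ≤ U a) (s : Γ(N, V)),
      ℓN.app V le_top s = (ℓ a).app V hV ((p a).app V s)) (x : T) :
    ∃ (W : X.Opens) (e : Γ(N, W)), σ.base x ∈ W ∧ IsUnit (secT σ (ℓN.app W le_top e)) := by
  have hx : σ.base x ∈ ⨆ a, U a := by rw [hU]; trivial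
  obtain ⟨a, ha⟩ := Opens.mem_iSup.mp hx
  obtain ⟨W, hW, e, hxW, -, hu⟩ := hℓ a x ha
  obtain ⟨eN, heN⟩ := (h1 a W hW).2 e
  refine ⟨W, eN, hxW, ?_⟩
  rw [h2 a W hW eN, heN]
  exact hu

end Fermat.Agent.JAC.Glue.RigCore30
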