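/-
Programme JAC (S25), work package B4, part G4 (helper30): ZARISKI DESCENT FOR RIGIDIFIED LINE
BUNDLES, on the Prelude's `RelPicard.RigidifiedLineBundle.Classes`.

Setting: `c : C ⟶ Spec R`, `ε` a section of `c`, `t : T ⟶ Spec R`, `π = pullback.snd c t`,
`σ = rigSection c t ε`, and an open cover `Ts i` of `T`.  Hypothesis (H), surjective form:
`∀ V : T.Opens, Function.Surjective ((pullback.snd c t).app V)` ("`𝒪_T → π_* 𝒪` is onto").

* `classes_separated`: two classes on `t` which agree on all `(Ts i).ι ≫ t` are equal;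
* `classes_glue`: classes on the `(Ts i).ι ≫ t` which agree on the overlaps `Ts i ⊓ Ts k` come
  from a class on `t`.

Auxiliary: `openHomOver`, `homOfLEOver` (the opens of `T` as objects over `Spec R`),
`opensRange_baseChangeSnd`, `range_baseChangeSnd`, `app_bijective_of_section`, and the transport
`pushLam` / `nondeg_pushLam` of a rigidification on `C ×_R V` to a local rigidification on
`C ×_R T` over `π⁻¹ V`.
-/
import Fermat.Agent.JAC.Glue.RigCore30
import Fermat.Agent.JAC.Glue.InvStab23

set_option autoImplicit false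
universe u
open CategoryTheory CategoryTheory.Limits AlgebraicGeometry TopologicalSpace Opposite
open AlgebraicGeometry.Scheme.Modules AlgebraicGeometry.RelPicard NeronModelInfra
open Fermat.Agent.JAC.Glue.HomGlue30 Fermat.Agent.JAC.Glue.EndInv30
open Fermat.Agent.JAC.Glue.RigAdj30 Fermat.Agent.JAC.Glue.ObjGlue30
open Fermat.Agent.JAC.Glue.RigCore30
open Fermat.Agent.JAC.Glue.HomGlue1 (LocalHom LocalIso)

namespace Fermat.Agent.JAC.Glue.RigidDescent30

noncomputable section

variable {R : Type u} [CommRing R] {C : Scheme.{u}} (c : C ⟶ Spec (CommRingCat.of R))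
  (ε : SchemeHomOver (𝟙 (Spec (CommRingCat.of R))) c)
  {T : Scheme.{u}} (t : T ⟶ Spec (CommRingCat.of R))

/-- the inclusion of an open of `T`, as a morphism over `Spec R`. -/
def openHomOver (V : T.Opens) : SchemeHomOver (V.ι ≫ t) t := ⟨V.ι, rfl⟩

/-- the inclusion between two opens of `T`, as a morphism over `Spec R`. -/
def homOfLEOver {V W : T.Opens} (h : V ≤ W) : SchemeHomOver (V.ι ≫ t) (W.ι ≫ t) :=
  ⟨T.homOfLE h, by rw [← Category.assoc, Scheme.homOfLE_ι]⟩

theorem rigSection_snd : rigSection c t ε ≫ pullback.snd c t = 𝟙 T := by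
  unfold rigSection
  exact pullback.lift_snd _ _ _

instance (V : T.Opens) : IsOpenImmersion (baseChangeSnd c (openHomOver t V)) := by
  unfold baseChangeSnd openHomOver
  infer_instance

instance {V W : T.Opens} (h : V ≤ W) : IsOpenImmersion (baseChangeSnd c (homOfLEOver t h)) := by
  unfold baseChangeSnd homOfLEOver
  infer_instance

theorem baseChangeSnd_snd {T' : Scheme.{u}} {t' : T' ⟶ Spec (CommRingCat.of R)}
    (s : SchemeHomOver t' t) :
    baseChangeSnd c s ≫ pullback.snd c t = pullback.snd c t' ≫ s.1 := by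
  unfold baseChangeSnd
  exact pullback.lift_snd _ _ _

theorem range_baseChangeSnd {T' : Scheme.{u}} {t' : T' ⟶ Spec (CommRingCat.of R)}
    (s : SchemeHomOver t' t) :
    Set.range (baseChangeSnd c s).base = (pullback.snd c t).base ⁻¹' Set.range s.1.base := by
  let φ : pullback (pullback.snd c t) s.1 ≅ pullback c t' :=
    pullbackLeftPullbackSndIso c t s.1 ≪≫ pullback.congrHom rfl s.2
  have hφ : φ.hom ≫ baseChangeSnd c s = pullback.fst (pullback.snd c t) s.1 := by
    apply pullback.hom_ext
    · simp only [φ, baseChangeSnd, Iso.trans_hom, pullback.congrHom_hom, Category.assoc,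
        pullback.lift_fst, Category.comp_id, pullbackLeftPullbackSndIso_hom_fst]
    · simp only [φ, baseChangeSnd, Iso.trans_hom, pullback.congrHom_hom, Category.assoc,
        pullback.lift_snd, pullback.lift_snd_assoc, Category.comp_id,
        pullbackLeftPullbackSndIso_hom_snd_assoc, pullback.condition]
  rw [← Scheme.Pullback.range_fst, ← hφ]
  simp only [Scheme.Hom.comp_base, TopCat.hom_comp, ContinuousMap.coe_comp]
  have hsurj : Function.Surjective φ.hom.base :=
    (ConcreteCategory.bijective_of_isIso φ.hom.base).surjective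
  rw [Set.range_comp, hsurj.range_eq, Set.image_univ]

theorem opensRange_baseChangeSnd (V : T.Opens) :
    (baseChangeSnd c (openHomOver t V)).opensRange = pullback.snd c t ⁻¹ᵁ V := by
  apply Opens.ext
  rw [Scheme.Hom.coe_opensRange, range_baseChangeSnd]
  simp [openHomOver]


theorem app_bijective_of_section {X T : Scheme.{u}} (π : X ⟶ T) (σ : T ⟶ X) (h : σ ≫ π = 𝟙 T)
    (V : T.Opens) (hs : Function.Surjective (π.app V)) :
    Function.Bijective (σ.app (π ⁻¹ᵁ V)) := by
  have hiso : IsIso (π.app V ≫ σ.app (π ⁻¹ᵁ V)) := by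
    rw [← Scheme.Hom.comp_app, Scheme.Hom.congr_app h V]
    have h1 : IsIso ((𝟙 T : T ⟶ T).app V) := inferInstance
    refine IsIso.comp_isIso' h1 ?_
    exact Functor.map_isIso T.presheaf _
  have hb : Function.Bijective (σ.app (π ⁻¹ᵁ V) ∘ π.app V) :=
    ConcreteCategory.bijective_of_isIso (π.app V ≫ σ.app (π ⁻¹ᵁ V))
  refine ⟨fun a b hab => ?_, hb.2.of_comp⟩
  obtain ⟨a', rfl⟩ := hs a
  obtain ⟨b', rfl⟩ := hs b
  exact congrArg _ (hb.1 hab)

end

noncomputable section Push

variable {X T Y : Scheme.{u}} (σ : T ⟶ X) (V : T.Opens) (j : Y ⟶ X) [IsOpenImmersion j]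
  (σ' : V.toScheme ⟶ Y) (comm : σ' ≫ j = V.ι ≫ σ) (hr : σ ⁻¹ᵁ j.opensRange ≤ V)

include comm hr in
theorem image_preimage_eq_of_le {W : X.Opens} (hW : W ≤ j.opensRange) :
    V.ι ''ᵁ (σ' ⁻¹ᵁ (j ⁻¹ᵁ W)) = σ ⁻¹ᵁ W := by
  rw [← Scheme.Hom.comp_preimage, comm, Scheme.Hom.comp_preimage,
    Scheme.Hom.image_preimage_eq_opensRange_inf, Scheme.Opens.opensRange_ι]
  exact inf_eq_right.mpr ((σ.preimage_mono hW).trans hr)

/-- sections of `V.toScheme` are sections of `T`. -/
def asT {V' : V.toScheme.Opens} (s : Γ(V.toScheme, V')) : Γ(T, V.ι ''ᵁ V') := s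

theorem asT_resO {V' V'' : V.toScheme.Opens} (h : V'' ≤ V') (s : Γ(V.toScheme, V')) :
    asT V (resO h s) = resO (V.ι.image_mono h) (asT V s) := rfl

theorem map_eq_resO {Z : Scheme.{u}} {A B : Z.Opens} (f : op A ⟶ op B) (s : Γ(Z, A)) :
    Z.presheaf.map f s = resO (leOfHom f.unop) s := by
  have : f = (homOfLE (leOfHom f.unop)).op := by
    apply Quiver.Hom.unop_inj
    exact Subsingleton.elim _ _
  conv_lhs => rw [this]

theorem appLE_congr_hom {A B : Scheme.{u}} {f g : A ⟶ B} (h : f = g) (U : B.Opens) (V' : A.Opens)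
    (e : V' ≤ f ⁻¹ᵁ U) : f.appLE U V' e = g.appLE U V' (h ▸ e) := by
  subst h; rfl

include comm hr in
theorem key_hom {W : X.Opens} (hW : W ≤ j.opensRange) :
    j.app W ≫ σ'.app (j ⁻¹ᵁ W) =
      σ.app W ≫ T.presheaf.map (homOfLE (image_preimage_eq_of_le σ V j σ' comm hr hW).le).op := by
  have e : σ' ⁻¹ᵁ j ⁻¹ᵁ W ≤ (σ' ≫ j) ⁻¹ᵁ W := le_rfl
  have h1 : j.app W ≫ σ'.app (j ⁻¹ᵁ W) = (σ' ≫ j).appLE W (σ' ⁻¹ᵁ j ⁻¹ᵁ W) e := by
    rw [Scheme.Hom.comp_appLE, Scheme.Hom.appLE_eq_app]
  rw [h1, appLE_congr_hom comm, Scheme.Hom.comp_appLE]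
  exact congrArg (σ.app W ≫ ·) (Scheme.Opens.ι_appLE V _ _ _)

include comm hr in
theorem key_ring {W : X.Opens} (hW : W ≤ j.opensRange) (r : Γ(X, W)) :
    resO (image_preimage_eq_of_le σ V j σ' comm hr hW).ge
      (asT V (σ'.app (j ⁻¹ᵁ W) (j.app W r))) = σ.app W r := by
  have h := ConcreteCategory.congr_hom (key_hom σ V j σ' comm hr hW) r
  have h' : asT V (σ'.app (j ⁻¹ᵁ W) (j.app W r)) =
      resO (image_preimage_eq_of_le σ V j σ' comm hr hW).le (σ.app W r) := h
  rw [h', resO_resO, resO_self]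

variable {L' : Y.Modules} (l : L' ⟶ Kσ σ')

/-- a function on `σ⁻¹ W`, as a section of `σ_* 𝒪_T` over `W`. -/
def ofSecT {W : X.Opens} (s : Γ(T, σ ⁻¹ᵁ W)) : Γ(Kσ σ, W) := s

theorem secT_ofSecT {W : X.Opens} (s : Γ(T, σ ⁻¹ᵁ W)) : secT σ (ofSecT σ s) = s := rfl

/-- the value of the pushed-forward rigidification. -/
def pushFun {W : X.Opens} (hW : W ≤ j.opensRange) (m : Γ((pushforward j).obj L', W)) :
    Γ(T, σ ⁻¹ᵁ W) :=
  resO (image_preimage_eq_of_le σ V j σ' comm hr hW).ge
    (asT V (secT σ' (l.app (j ⁻¹ᵁ W) m)))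

theorem pushFun_add {W : X.Opens} (hW : W ≤ j.opensRange) (m m' : Γ((pushforward j).obj L', W)) :
    pushFun σ V j σ' comm hr l hW (m + m') =
      pushFun σ V j σ' comm hr l hW m + pushFun σ V j σ' comm hr l hW m' := by
  unfold pushFun
  have h0 : l.app (j ⁻¹ᵁ W) (m + m') = l.app (j ⁻¹ᵁ W) m + l.app (j ⁻¹ᵁ W) m' :=
    map_add (l.app (j ⁻¹ᵁ W)).hom m m'
  rw [h0]
  exact map_add (T.presheaf.map (homOfLE _).op).hom _ _

theorem pushFun_res {W W' : X.Opens} (hW : W ≤ j.opensRange) (h : W' ≤ W)
    (m : Γ((pushforward j).obj L', W)) :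
    pushFun σ V j σ' comm hr l (h.trans hW) (res ((pushforward j).obj L') h m) =
      resO (σ.preimage_mono h) (pushFun σ V j σ' comm hr l hW m) := by
  unfold pushFun
  have h1 : l.app (j ⁻¹ᵁ W') (res ((pushforward j).obj L') h m) =
      res (Kσ σ') (j.preimage_mono h) (l.app (j ⁻¹ᵁ W) m) :=
    app_res l (j.preimage_mono h) m
  rw [h1, secT_res, asT_resO, resO_resO, resO_resO]

theorem pushFun_smul {W : X.Opens} (hW : W ≤ j.opensRange) (r : Γ(X, W))
    (m : Γ((pushforward j).obj L', W)) :
    pushFun σ V j σ' comm hr l hW (r • m) = σ.app W r * pushFun σ V j σ' comm hr l hW m := by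
  unfold pushFun
  have h1 : l.app (j ⁻¹ᵁ W) (r • m) = (j.app W r) • l.app (j ⁻¹ᵁ W) m :=
    Scheme.Modules.Hom.app_smul l (j.app W r) m
  rw [h1, secT_smul]
  have h2 : asT V (σ'.app (j ⁻¹ᵁ W) (j.app W r) * secT σ' (l.app (j ⁻¹ᵁ W) m)) =
      asT V (σ'.app (j ⁻¹ᵁ W) (j.app W r)) * asT V (secT σ' (l.app (j ⁻¹ᵁ W) m)) := rfl
  rw [h2, resO_mul, key_ring σ V j σ' comm hr hW r]

/-- the rigidification of `L'` along `σ'`, pushed forward to a local rigidification of `j_* L'`
along `σ` over the range of `j`. -/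
def pushLam : LocalHom ((pushforward j).obj L') (Kσ σ) j.opensRange where
  app _ hW := AddMonoidHom.mk' (fun m => ofSecT σ (pushFun σ V j σ' comm hr l hW m))
    (fun m m' => pushFun_add σ V j σ' comm hr l hW m m')
  naturality hW h m := (pushFun_res σ V j σ' comm hr l hW h m).symm
  map_smul hW r m := pushFun_smul σ V j σ' comm hr l hW r m

theorem pushLam_app {W : X.Opens} (hW : W ≤ j.opensRange) (m : Γ((pushforward j).obj L', W)) :
    secT σ ((pushLam σ V j σ' comm hr l).app W hW m) = pushFun σ V j σ' comm hr l hW m := rfl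

omit comm hr in
/-- local bases push forward along open immersions. -/
theorem isLocalBasis_pushforward {W' : Y.Opens} {e : Γ(L', W')} (he : IsLocalBasis L' W' e) :
    IsLocalBasis ((pushforward j).obj L') (j ''ᵁ W')
      (res L' (le_of_eq (j.preimage_image_eq W')) e) := by
  intro W hW
  have hW' : j ⁻¹ᵁ W ≤ W' := by
    rw [← j.preimage_image_eq W']; exact j.preimage_mono hW
  have hiso := Scheme.Hom.isIso_app j W (hW.trans (j.image_le_opensRange W'))
  have h1 : Function.Bijective (j.app W) := ConcreteCategory.bijective_of_isIso _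
  have h2 := he (j ⁻¹ᵁ W) hW'
  have h3 : res ((pushforward j).obj L') hW (res L' (le_of_eq (j.preimage_image_eq W')) e) =
      res L' hW' e := by
    change res L' (j.preimage_mono hW) (res L' _ e) = _
    rw [res_res]
  simp only [h3]
  exact h2.comp h1

theorem nondeg_pushLam
    (hl : ∀ x' : V.toScheme, ∃ (W' : Y.Opens) (e' : Γ(L', W')), σ'.base x' ∈ W' ∧
      IsLocalBasis L' W' e' ∧ IsUnit (secT σ' (l.app W' e'))) :
    Nondeg σ (pushLam σ V j σ' comm hr l) := by
  intro x hx
  have hxV : x ∈ V := hr hx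
  obtain ⟨W', e', hxW', he', hu⟩ := hl ⟨x, hxV⟩
  have hpt : j.base (σ'.base ⟨x, hxV⟩) = σ.base x := by
    have := congrArg (fun f : V.toScheme ⟶ X => f.base ⟨x, hxV⟩) comm
    exact this
  refine ⟨j ''ᵁ W', j.image_le_opensRange W', res L' (le_of_eq (j.preimage_image_eq W')) e',
    ?_, isLocalBasis_pushforward j he', ?_⟩
  · rw [← hpt]
    exact ⟨_, hxW', rfl⟩
  · change IsUnit (pushFun σ V j σ' comm hr l (j.image_le_opensRange W')
      (res L' (le_of_eq (j.preimage_image_eq W')) e'))
    unfold pushFun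
    have h1 : l.app (j ⁻¹ᵁ (j ''ᵁ W')) (res L' (le_of_eq (j.preimage_image_eq W')) e') =
        res (Kσ σ') (le_of_eq (j.preimage_image_eq W')) (l.app W' e') :=
      app_res l _ e'
    rw [h1, secT_res, asT_resO]
    exact resO_isUnit _ (resO_isUnit _ hu)

end Push

noncomputable section Aux

variable {X Y : Scheme.{u}} (j : Y ⟶ X) [IsOpenImmersion j]

theorem locTrivOn_pushforward {L' : Y.Modules} (hL' : IsLocallyTrivial L') :
    LocTrivOn ((pushforward j).obj L') j.opensRange := by
  rintro x ⟨y, rfl⟩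
  obtain ⟨W', e', hyW', he'⟩ := hL' y
  exact ⟨j ''ᵁ W', j.image_le_opensRange W', res L' (le_of_eq (j.preimage_image_eq W')) e',
    ⟨y, hyW', rfl⟩, isLocalBasis_pushforward j he'⟩

theorem res_bijective_of_eq (M : X.Modules) {A B : X.Opens} (h : A ≤ B) (heq : A = B) :
    Function.Bijective (res M h) := by
  subst heq
  have : res M h = id := funext (fun m => res_self M h m)
  rw [this]
  exact Function.bijective_id

theorem preimage_inf_opensRange (V : X.Opens) : j ⁻¹ᵁ (V ⊓ j.opensRange) = j ⁻¹ᵁ V := by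
  ext y
  simp

theorem res_pushforward_bijective (L' : Y.Modules) (V : X.Opens) :
    Function.Bijective (res ((pushforward j).obj L')
      (inf_le_left : V ⊓ j.opensRange ≤ V)) :=
  res_bijective_of_eq L' (j.preimage_mono inf_le_left) (preimage_inf_opensRange j V)

/-- restricting `j_* L` along `jz = k ≫ j` is pulling `L` back along `k`. -/
def restrictPushforwardIso {Z : Scheme.{u}} (k : Z ⟶ Y) [IsOpenImmersion k] (jz : Z ⟶ X)
    [IsOpenImmersion jz] (h : jz = k ≫ j) (L : Y.Modules) :
    ((pushforward j).obj L).restrict jz ≅ (Scheme.Modules.pullback k).obj L :=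
  (restrictFunctorCongr h).app _ ≪≫ (restrictFunctorComp k j).app _ ≪≫
    (restrictFunctor k).mapIso ((restrictFunctorAdjCounitIso j).app L) ≪≫
    (restrictFunctorIsoPullback k).app L

end Aux

noncomputable section Main

variable {R : Type u} [CommRing R] {C : Scheme.{u}} (c : C ⟶ Spec (CommRingCat.of R))
  (ε : SchemeHomOver (𝟙 (Spec (CommRingCat.of R))) c)
  {T : Scheme.{u}} (t : T ⟶ Spec (CommRingCat.of R))

theorem sigma_app_bijective
    (hH : ∀ V : T.Opens, Function.Surjective ((pullback.snd c t).app V)) (V : T.Opens) :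
    Function.Bijective ((rigSection c t ε).app (pullback.snd c t ⁻¹ᵁ V)) :=
  app_bijective_of_section _ _ (rigSection_snd c ε t) V (hH V)

theorem iSup_opensRange_baseChangeSnd {ι : Type*} (Ts : ι → T.Opens) (hTs : ⨆ i, Ts i = ⊤) :
    ⨆ i, (baseChangeSnd c (openHomOver t (Ts i))).opensRange = ⊤ := by
  simp only [opensRange_baseChangeSnd]
  rw [← Scheme.Hom.preimage_iSup, hTs, Scheme.Hom.preimage_top]

/-- the global rigidification of a rigidified line bundle, in sectionwise form. -/
def globalLam (M : RigidifiedLineBundle c ε t) :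
    LocalHom M.L (Kσ (rigSection c t ε)) ⊤ :=
  LocalHom.ofHom (lamOfHom (rigSection c t ε) M.L M.rigidified.some.hom) ⊤

theorem nondeg_globalLam (M : RigidifiedLineBundle c ε t) :
    Nondeg (rigSection c t ε) (globalLam c ε t M) := by
  intro x _
  obtain ⟨W, e, hx, he, hu⟩ :=
    exists_nondeg (rigSection c t ε) M.L M.isInvertible M.rigidified.some x
  exact ⟨W, le_top, e, hx, he, hu⟩

/-- **(sep)**: two classes of rigidified line bundles on `C ×_R T` which agree on the members of
an open cover of `T` are equal, provided `𝒪_T → π_* 𝒪` is surjective. -/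
theorem classes_separated {ι : Type*} (Ts : ι → T.Opens) (hTs : ⨆ i, Ts i = ⊤)
    (hH : ∀ V : T.Opens, Function.Surjective ((pullback.snd c t).app V))
    (x y : RigidifiedLineBundle.Classes c ε t)
    (h : ∀ i, RigidifiedLineBundle.classesMap (openHomOver t (Ts i)) x =
      RigidifiedLineBundle.classesMap (openHomOver t (Ts i)) y) : x = y := by
  induction x using Quotient.ind with | _ M => ?_
  induction y using Quotient.ind with | _ M' => ?_
  apply Quotient.sound
  have hiso : ∀ i, Nonempty
      ((Scheme.Modules.pullback (baseChangeSnd c (openHomOver t (Ts i)))).obj M.L ≅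
        (Scheme.Modules.pullback (baseChangeSnd c (openHomOver t (Ts i)))).obj M'.L) :=
    fun i => Quotient.exact (h i)
  let j := fun i => baseChangeSnd c (openHomOver t (Ts i))
  let α : ∀ i, LocalIso M.L M'.L (j i).opensRange := fun i =>
    RestrictHom1.ofRestrictIso (j i) ((restrictFunctorIsoPullback (j i)).app M.L ≪≫ (hiso i).some ≪≫
      ((restrictFunctorIsoPullback (j i)).app M'.L).symm)
  refine sep_core (fun i => (j i).opensRange) (iSup_opensRange_baseChangeSnd c t Ts hTs)
    (globalLam c ε t M) (nondeg_globalLam c ε t M)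
    (locTrivOn_of_isLocallyTrivial (isLocallyTrivial_of_isInvertible M.isInvertible) ⊤)
    (globalLam c ε t M') (nondeg_globalLam c ε t M') ?_ ?_ α
  · intro a
    change Function.Bijective ((rigSection c t ε).app
      (baseChangeSnd c (openHomOver t (Ts a))).opensRange)
    rw [opensRange_baseChangeSnd]
    exact sigma_app_bijective c ε t hH (Ts a)
  · intro a b
    change Function.Injective ((rigSection c t ε).app
      ((baseChangeSnd c (openHomOver t (Ts a))).opensRange ⊓
        (baseChangeSnd c (openHomOver t (Ts b))).opensRange))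
    rw [opensRange_baseChangeSnd, opensRange_baseChangeSnd]
    exact (sigma_app_bijective c ε t hH (Ts a ⊓ Ts b)).1

theorem postComp_openHomOver {V W : T.Opens} (h : V ≤ W) :
    postComp (openHomOver t W) (homOfLEOver t h) = openHomOver t V :=
  Subtype.ext (Scheme.homOfLE_ι T h)

theorem baseChangeSnd_homOfLE_comp {V W : T.Opens} (h : V ≤ W) :
    baseChangeSnd c (openHomOver t V) =
      baseChangeSnd c (homOfLEOver t h) ≫ baseChangeSnd c (openHomOver t W) := by
  rw [baseChangeSnd_comp, postComp_openHomOver]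

theorem preimage_opensRange_le (V : T.Opens) :
    rigSection c t ε ⁻¹ᵁ (baseChangeSnd c (openHomOver t V)).opensRange ≤ V := by
  rw [opensRange_baseChangeSnd, ← Scheme.Hom.comp_preimage, rigSection_snd,
    Scheme.Hom.id_preimage]

/-- **(glue)**: classes of rigidified line bundles on the members of an open cover of `T` which
agree on the overlaps come from a class on `T`, provided `𝒪_T → π_* 𝒪` is surjective. -/
theorem classes_glue {ι : Type u} (Ts : ι → T.Opens) (hTs : ⨆ i, Ts i = ⊤)
    (hH : ∀ V : T.Opens, Function.Surjective ((pullback.snd c t).app V))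
    (x : ∀ i, RigidifiedLineBundle.Classes c ε ((Ts i).ι ≫ t))
    (hx : ∀ i k, RigidifiedLineBundle.classesMap
        (homOfLEOver t (inf_le_left : Ts i ⊓ Ts k ≤ Ts i)) (x i) =
      RigidifiedLineBundle.classesMap
        (homOfLEOver t (inf_le_right : Ts i ⊓ Ts k ≤ Ts k)) (x k)) :
    ∃ y : RigidifiedLineBundle.Classes c ε t,
      ∀ i, RigidifiedLineBundle.classesMap (openHomOver t (Ts i)) y = x i := by
  choose M hM using fun i => Quotient.exists_rep (x i)
  let σ := rigSection c t ε
  let j := fun i => baseChangeSnd c (openHomOver t (Ts i))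
  let U := fun i => (j i).opensRange
  let P := fun i => (pushforward (j i)).obj (M i).L
  have hU : ⨆ i, U i = ⊤ := iSup_opensRange_baseChangeSnd c t Ts hTs
  have hUinf : ∀ i k, U i ⊓ U k =
      (baseChangeSnd c (openHomOver t (Ts i ⊓ Ts k))).opensRange := by
    intro i k
    change (baseChangeSnd c (openHomOver t (Ts i))).opensRange ⊓
      (baseChangeSnd c (openHomOver t (Ts k))).opensRange = _
    rw [opensRange_baseChangeSnd, opensRange_baseChangeSnd, opensRange_baseChangeSnd]
    rfl
  -- the overlap isomorphisms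
  have hov : ∀ i k, Nonempty
      ((Scheme.Modules.pullback (baseChangeSnd c
          (homOfLEOver t (inf_le_left : Ts i ⊓ Ts k ≤ Ts i)))).obj (M i).L ≅
        (Scheme.Modules.pullback (baseChangeSnd c
          (homOfLEOver t (inf_le_right : Ts i ⊓ Ts k ≤ Ts k)))).obj (M k).L) := by
    intro i k
    have := hx i k
    rw [← hM i, ← hM k] at this
    exact Quotient.exact this
  let β : ∀ i k, LocalIso (P i) (P k) (U i ⊓ U k) := fun i k =>
    (RestrictHom1.ofRestrictIso (baseChangeSnd c (openHomOver t (Ts i ⊓ Ts k)))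
      (restrictPushforwardIso (j i) _ _ (baseChangeSnd_homOfLE_comp c t inf_le_left) (M i).L ≪≫
        (hov i k).some ≪≫
        (restrictPushforwardIso (j k) _ _
          (baseChangeSnd_homOfLE_comp c t inf_le_right) (M k).L).symm)).restrict
      (le_of_eq (hUinf i k))
  -- the local rigidifications
  let ℓ : ∀ i, LocalHom (P i) (Kσ σ) (U i) := fun i =>
    pushLam σ (Ts i) (j i) (rigSection c ((Ts i).ι ≫ t) ε)
      (rigSection_baseChangeSnd c ε (openHomOver t (Ts i))) (preimage_opensRange_le c ε t (Ts i))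
      (lamOfHom (rigSection c ((Ts i).ι ≫ t) ε) (M i).L (M i).rigidified.some.hom)
  have hℓ : ∀ i, Nondeg σ (ℓ i) := fun i =>
    nondeg_pushLam σ (Ts i) (j i) _ _ _ _ (fun x' =>
      exists_nondeg (rigSection c ((Ts i).ι ≫ t) ε) (M i).L (M i).isInvertible
        (M i).rigidified.some x')
  have hP : IsSupported U P := fun b V => res_pushforward_bijective (j b) (M b).L V
  have hloc : ∀ i, LocTrivOn (P i) (U i) := fun i =>
    locTrivOn_pushforward (j i) (isLocallyTrivial_of_isInvertible (M i).isInvertible)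
  have hbij : ∀ i k, Function.Bijective (σ.app (U i ⊓ U k)) := by
    intro i k
    rw [hUinf i k, opensRange_baseChangeSnd]
    exact sigma_app_bijective c ε t hH _
  have hinj : ∀ i k m, Function.Injective (σ.app (U i ⊓ U k ⊓ U m)) := by
    intro i k m
    have : U i ⊓ U k ⊓ U m = pullback.snd c t ⁻¹ᵁ (Ts i ⊓ Ts k ⊓ Ts m) := by
      change (baseChangeSnd c (openHomOver t (Ts i))).opensRange ⊓
        (baseChangeSnd c (openHomOver t (Ts k))).opensRange ⊓
        (baseChangeSnd c (openHomOver t (Ts m))).opensRange = _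
      rw [opensRange_baseChangeSnd, opensRange_baseChangeSnd, opensRange_baseChangeSnd]
      rfl
    rw [this]
    exact (sigma_app_bijective c ε t hH _).1
  obtain ⟨N, p, ℓN, hp, hℓN⟩ := glue_core U hU P hP hloc ℓ hℓ hbij hinj β
  -- the restrictions of `N`
  have hpiso : ∀ i, IsIso ((restrictFunctor (j i)).map (p i)) := by
    intro i
    rw [Scheme.Modules.Hom.isIso_iff_isIso_app]
    intro W
    have hb : Function.Bijective ((p i).app (j i ''ᵁ W)) :=
      hp i (j i ''ᵁ W) ((j i).image_le_opensRange W)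
    exact (ConcreteCategory.isIso_iff_bijective ((p i).app (j i ''ᵁ W))).mpr hb
  let e : ∀ i, N.restrict (j i) ≅ (M i).L := fun i =>
    @asIso _ _ _ _ _ (hpiso i) ≪≫ (restrictFunctorAdjCounitIso (j i)).app (M i).L
  have hN : Scheme.Modules.IsInvertible N := by
    refine InvStab23.isInvertible_of_cover j (fun x => ?_)
      (fun i => InvStab23.IsInvertible.of_iso (e i).symm (M i).isInvertible)
    have hx : x ∈ ⨆ i, U i := by rw [hU]; trivial
    exact Opens.mem_iSup.mp hx
  -- the rigidification of `N`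
  have hhit := hits_unit_of_cover U hU p ℓN ℓ hℓ hp hℓN
  have hρ : IsIso (homOfLam σ N (LocalHom.toHom ℓN)) := isIso_homOfLam σ N hN _ hhit
  refine ⟨Quotient.mk _ ⟨N, hN, ⟨@asIso _ _ _ _ _ hρ⟩⟩, fun i => ?_⟩
  rw [← hM i]
  exact Quotient.sound ⟨((restrictFunctorIsoPullback (j i)).app N).symm ≪≫ e i⟩

end Main

end Fermat.Agent.JAC.Glue.RigidDescent30
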