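/-
Programme JAC (S25), work package B4 / G4 (RigidDescent), BRIDGE layer (helper1).

For `c : C ⟶ Spec R`, `t : T ⟶ Spec R` and an open immersion `ψ : T' ⟶ T` over `Spec R`, the
Prelude's `baseChangeSnd c ψ : C ×_R T' ⟶ C ×_R T` is an open immersion whose range is the preimage
of the range of `ψ` under the projection; an open cover of `T` gives an open cover of `C ×_R T`;
isomorphisms between Prelude pullbacks `(M.pullbackAlong ψ).L` are the same thing as local
isomorphisms (`HomGlue1.LocalIso`) over that preimage.  This translates the `OpenCover` /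
`pullbackAlong` form of Zariski descent (`Repr/Wiring10.CutDescent.of_bundles`) into statements
about opens of the one scheme `C ×_R T`.
-/
import Fermat.Agent.JAC.Glue.RestrictHom1
import Fermat.Agent.JAC.Glue.InvStab23

set_option autoImplicit false

universe u

open CategoryTheory CategoryTheory.Limits AlgebraicGeometry AlgebraicGeometry.RelPicard
  NeronModelInfra TopologicalSpace Opposite

namespace Fermat.Agent.JAC.Glue.BaseCover1

open Fermat.Agent.JAC.Glue.HomGlue1 Fermat.Agent.JAC.Glue.RestrictHom1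
  Fermat.Agent.JAC.Glue.InvStab23

noncomputable section

variable {R : Type u} [CommRing R] {C : Scheme.{u}} (c : C ⟶ Spec (CommRingCat.of R))

/-! ### `baseChangeSnd` along an open immersion -/

section OneMap

variable {T T' : Scheme.{u}} {t : T ⟶ Spec (CommRingCat.of R)}
  {t' : T' ⟶ Spec (CommRingCat.of R)} (ψ : SchemeHomOver t' t)

@[reassoc]
lemma baseChangeSnd_fst : baseChangeSnd c ψ ≫ pullback.fst c t = pullback.fst c t' :=
  (pullback.lift_fst _ _ _).trans (Category.comp_id _)

@[reassoc]
lemma baseChangeSnd_snd : baseChangeSnd c ψ ≫ pullback.snd c t = pullback.snd c t' ≫ ψ.1 :=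
  pullback.lift_snd _ _ _

instance isOpenImmersion_baseChangeSnd [IsOpenImmersion ψ.1] :
    IsOpenImmersion (baseChangeSnd c ψ) := by
  unfold baseChangeSnd
  infer_instance

/-- The open of `C ×_R T` lying over an open of `T`. -/
abbrev overOpen (t : T ⟶ Spec (CommRingCat.of R)) (U : T.Opens) : (pullback c t).Opens :=
  pullback.snd c t ⁻¹ᵁ U

lemma opensRange_baseChangeSnd [IsOpenImmersion ψ.1] :
    (baseChangeSnd c ψ).opensRange = overOpen c t ψ.1.opensRange := by
  apply Opens.ext
  change Set.range (baseChangeSnd c ψ) = (pullback.snd c t) ⁻¹' Set.range ψ.1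
  unfold baseChangeSnd
  rw [Scheme.Pullback.range_map]
  simp

variable (ε : SchemeHomOver (𝟙 (Spec (CommRingCat.of R))) c)

@[reassoc (attr := simp)]
lemma rigSection_snd (t : T ⟶ Spec (CommRingCat.of R)) :
    rigSection c t ε ≫ pullback.snd c t = 𝟙 T :=
  pullback.lift_snd _ _ _

lemma rigSection_preimage_overOpen (t : T ⟶ Spec (CommRingCat.of R)) (U : T.Opens) :
    rigSection c t ε ⁻¹ᵁ overOpen c t U = U := by
  rw [overOpen, ← Scheme.Hom.comp_preimage, rigSection_snd]
  rfl

end OneMap

/-! ### Covers -/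

section Cover

variable {T : Scheme.{u}} (t : T ⟶ Spec (CommRingCat.of R)) (𝒰 : Scheme.OpenCover.{u} T)

/-- a member of an open cover of `T`, as a morphism over `Spec R` -/
def coverHom (i : 𝒰.I₀) : SchemeHomOver (𝒰.f i ≫ t) t := ⟨𝒰.f i, rfl⟩

instance (i : 𝒰.I₀) : IsOpenImmersion (coverHom t 𝒰 i).1 :=
  inferInstanceAs (IsOpenImmersion (𝒰.f i))

/-- the open of `C ×_R T` over the `i`-th member of the cover -/
abbrev coverOpen (i : 𝒰.I₀) : (pullback c t).Opens := overOpen c t (𝒰.f i).opensRange

lemma opensRange_baseChangeSnd_coverHom (i : 𝒰.I₀) :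
    (baseChangeSnd c (coverHom t 𝒰 i)).opensRange = coverOpen c t 𝒰 i :=
  opensRange_baseChangeSnd c (coverHom t 𝒰 i)

lemma exists_mem_coverOpen (x : ↥(pullback c t)) : ∃ i, x ∈ coverOpen c t 𝒰 i := by
  obtain ⟨i, y, hy⟩ := 𝒰.exists_eq (pullback.snd c t x)
  exact ⟨i, show pullback.snd c t x ∈ Set.range (𝒰.f i) from ⟨y, hy⟩⟩

lemma iSup_coverOpen : ⨆ i, coverOpen c t 𝒰 i = ⊤ := by
  rw [eq_top_iff]
  intro x _
  obtain ⟨i, hi⟩ := exists_mem_coverOpen c t 𝒰 x
  exact Opens.mem_iSup.2 ⟨i, hi⟩

/-- the open cover of `C ×_R T` induced by an open cover of `T` (Mathlib's `openCoverOfRight`;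
its maps are `baseChangeSnd c (coverHom t 𝒰 i)`) -/
def baseCover : Scheme.OpenCover.{u} (pullback c t) :=
  Scheme.Pullback.openCoverOfRight 𝒰 c t

lemma baseCover_f (i : 𝒰.I₀) : (baseCover c t 𝒰).f i = baseChangeSnd c (coverHom t 𝒰 i) := rfl

end Cover

/-! ### Isomorphisms of pullbacks along open immersions are local isomorphisms -/

section LocalIso

variable {X Y : Scheme.{u}} (f : Y ⟶ X) [IsOpenImmersion f] (M N : X.Modules)

/-- Isomorphisms between the pullbacks of two modules along an open immersion are the same as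
local isomorphisms over its range. -/
def pullbackIsoEquivLocalIso :
    ((Scheme.Modules.pullback f).obj M ≅ (Scheme.Modules.pullback f).obj N) ≃
      LocalIso M N f.opensRange :=
  ({ toFun := fun e => restrictIsoPullback f M ≪≫ e ≪≫ (restrictIsoPullback f N).symm
     invFun := fun e => (restrictIsoPullback f M).symm ≪≫ e ≪≫ restrictIsoPullback f N
     left_inv := fun e => by ext1; simp
     right_inv := fun e => by ext1; simp } :
    ((Scheme.Modules.pullback f).obj M ≅ (Scheme.Modules.pullback f).obj N) ≃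
      (M.restrict f ≅ N.restrict f)).trans (restrictIsoEquiv f)

lemma nonempty_pullbackIso_iff :
    Nonempty ((Scheme.Modules.pullback f).obj M ≅ (Scheme.Modules.pullback f).obj N) ↔
      Nonempty (LocalIso M N f.opensRange) :=
  (pullbackIsoEquivLocalIso f M N).nonempty_congr

/-- transport of a local isomorphism along an equality of opens -/
def localIsoCongr {U U' : X.Opens} (h : U = U') (e : LocalIso M N U) : LocalIso M N U' :=
  e.restrict h.ge

end LocalIso

section Pushforward

variable {X Y Y' Z : Scheme.{u}} (f : Y ⟶ X) [IsOpenImmersion f] (g : Z ⟶ Y) [IsOpenImmersion g]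
  (h : Z ⟶ X) [IsOpenImmersion h] (w : g ≫ f = h)

/-- The restriction to `Y` of the pushforward of a module on `Y` along an open immersion `f : Y ⟶ X`
is the module itself. -/
def restrictPushforwardIso (L : Y.Modules) :
    ((Scheme.Modules.pushforward f).obj L).restrict f ≅ L :=
  (Scheme.Modules.restrictFunctorAdjCounitIso f).app L

/-- For open immersions `g ≫ f = h`, the pullback of `L` along `g` is the restriction along `h` of
the pushforward of `L` along `f`. -/
def pullbackIsoRestrictPushforward (L : Y.Modules) :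
    (Scheme.Modules.pullback g).obj L ≅ ((Scheme.Modules.pushforward f).obj L).restrict h :=
  (restrictIsoPullback g L).symm ≪≫
    (Scheme.Modules.restrictFunctor g).mapIso (restrictPushforwardIso f L).symm ≪≫
    ((Scheme.Modules.restrictFunctorComp g f).app _).symm ≪≫
    (Scheme.Modules.restrictFunctorCongr w).app _

variable (f' : Y' ⟶ X) [IsOpenImmersion f'] (g' : Z ⟶ Y') [IsOpenImmersion g']
  (w' : g' ≫ f' = h)

/-- Isomorphisms between pullbacks to a common open subscheme `Z` of modules living on two open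
subschemes `Y`, `Y'` of `X` are local isomorphisms between the pushforwards over the range
of `Z`. -/
def pullbackIsoEquivLocalIsoPushforward (L : Y.Modules) (L' : Y'.Modules) :
    ((Scheme.Modules.pullback g).obj L ≅ (Scheme.Modules.pullback g').obj L') ≃
      LocalIso ((Scheme.Modules.pushforward f).obj L) ((Scheme.Modules.pushforward f').obj L')
        h.opensRange :=
  ({ toFun := fun e => (pullbackIsoRestrictPushforward f g h w L).symm ≪≫ e ≪≫
        pullbackIsoRestrictPushforward f' g' h w' L'
     invFun := fun e => pullbackIsoRestrictPushforward f g h w L ≪≫ e ≪≫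
        (pullbackIsoRestrictPushforward f' g' h w' L').symm
     left_inv := fun e => by ext1; simp
     right_inv := fun e => by ext1; simp } :
    ((Scheme.Modules.pullback g).obj L ≅ (Scheme.Modules.pullback g').obj L') ≃
      (((Scheme.Modules.pushforward f).obj L).restrict h ≅
        ((Scheme.Modules.pushforward f').obj L').restrict h)).trans (restrictIsoEquiv h)

/-- The pullback along an open immersion `f` of a module `M` on `X` is isomorphic to `L` iff
`M` is locally isomorphic to the pushforward of `L` over the range of `f`. -/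
def pullbackIsoEquivLocalIsoPushforward' (M : X.Modules) (L : Y.Modules) :
    ((Scheme.Modules.pullback f).obj M ≅ L) ≃
      LocalIso M ((Scheme.Modules.pushforward f).obj L) f.opensRange :=
  ({ toFun := fun e => restrictIsoPullback f M ≪≫ e ≪≫ (restrictPushforwardIso f L).symm
     invFun := fun e => (restrictIsoPullback f M).symm ≪≫ e ≪≫ restrictPushforwardIso f L
     left_inv := fun e => by ext1; simp
     right_inv := fun e => by ext1; simp } :
    ((Scheme.Modules.pullback f).obj M ≅ L) ≃
      (M.restrict f ≅ ((Scheme.Modules.pushforward f).obj L).restrict f)).trans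
    (restrictIsoEquiv f)

end Pushforward

/-! ### Overlaps -/

section Overlap

variable {T : Scheme.{u}} (t : T ⟶ Spec (CommRingCat.of R)) (𝒰 : Scheme.OpenCover.{u} T)
  (i j : 𝒰.I₀)

/-- the structure morphism of the overlap of two members of an open cover -/
def overlapBase : pullback (𝒰.f i) (𝒰.f j) ⟶ Spec (CommRingCat.of R) :=
  pullback.fst (𝒰.f i) (𝒰.f j) ≫ 𝒰.f i ≫ t

/-- the first projection of an overlap, as a morphism over `Spec R` -/
def fstHom : SchemeHomOver (overlapBase t 𝒰 i j) (𝒰.f i ≫ t) :=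
  ⟨pullback.fst (𝒰.f i) (𝒰.f j), rfl⟩

/-- the second projection of an overlap, as a morphism over `Spec R` -/
def sndHom : SchemeHomOver (overlapBase t 𝒰 i j) (𝒰.f j ≫ t) :=
  ⟨pullback.snd (𝒰.f i) (𝒰.f j), by
    rw [overlapBase, ← Category.assoc, ← pullback.condition, Category.assoc]⟩

/-- the inclusion of an overlap into `T`, as a morphism over `Spec R` -/
def overlapHom : SchemeHomOver (overlapBase t 𝒰 i j) t :=
  ⟨pullback.fst (𝒰.f i) (𝒰.f j) ≫ 𝒰.f i, Category.assoc _ _ _⟩

instance : IsOpenImmersion (fstHom t 𝒰 i j).1 :=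
  inferInstanceAs (IsOpenImmersion (pullback.fst (𝒰.f i) (𝒰.f j)))

instance : IsOpenImmersion (sndHom t 𝒰 i j).1 :=
  inferInstanceAs (IsOpenImmersion (pullback.snd (𝒰.f i) (𝒰.f j)))

instance : IsOpenImmersion (overlapHom t 𝒰 i j).1 :=
  inferInstanceAs (IsOpenImmersion (pullback.fst (𝒰.f i) (𝒰.f j) ≫ 𝒰.f i))

lemma postComp_fstHom : postComp (coverHom t 𝒰 i) (fstHom t 𝒰 i j) = overlapHom t 𝒰 i j := rfl

lemma postComp_sndHom : postComp (coverHom t 𝒰 j) (sndHom t 𝒰 i j) = overlapHom t 𝒰 i j :=
  Subtype.ext pullback.condition.symm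

lemma baseChangeSnd_fstHom_comp :
    baseChangeSnd c (fstHom t 𝒰 i j) ≫ baseChangeSnd c (coverHom t 𝒰 i) =
      baseChangeSnd c (overlapHom t 𝒰 i j) := by
  rw [baseChangeSnd_comp, postComp_fstHom]

lemma baseChangeSnd_sndHom_comp :
    baseChangeSnd c (sndHom t 𝒰 i j) ≫ baseChangeSnd c (coverHom t 𝒰 j) =
      baseChangeSnd c (overlapHom t 𝒰 i j) := by
  rw [baseChangeSnd_comp, postComp_sndHom]

lemma opensRange_overlapHom :
    (overlapHom t 𝒰 i j).1.opensRange = (𝒰.f i).opensRange ⊓ (𝒰.f j).opensRange := by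
  apply Opens.ext
  change Set.range (pullback.fst (𝒰.f i) (𝒰.f j) ≫ 𝒰.f i) = _
  rw [Scheme.Pullback.range_fst_comp]
  rfl

lemma opensRange_baseChangeSnd_overlapHom :
    (baseChangeSnd c (overlapHom t 𝒰 i j)).opensRange =
      coverOpen c t 𝒰 i ⊓ coverOpen c t 𝒰 j := by
  rw [opensRange_baseChangeSnd, opensRange_overlapHom]
  rfl

end Overlap

section Bundles

variable {c} {ε : SchemeHomOver (𝟙 (Spec (CommRingCat.of R))) c}
  {T T' : Scheme.{u}} {t : T ⟶ Spec (CommRingCat.of R)} {t' : T' ⟶ Spec (CommRingCat.of R)}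

/-- **Bridge for separatedness.** For an open immersion `ψ` over `Spec R`, the Prelude pullbacks of
two rigidified line bundles along `ψ` are isomorphic iff the bundles are locally isomorphic over
the preimage of the range of `ψ`. -/
theorem nonempty_pullbackAlong_iso_iff (ψ : SchemeHomOver t' t) [IsOpenImmersion ψ.1]
    (M M' : RigidifiedLineBundle c ε t) :
    Nonempty ((M.pullbackAlong ψ).L ≅ (M'.pullbackAlong ψ).L) ↔
      Nonempty (LocalIso M.L M'.L (overOpen c t ψ.1.opensRange)) := by
  rw [← opensRange_baseChangeSnd c ψ]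
  exact nonempty_pullbackIso_iff (baseChangeSnd c ψ) M.L M'.L

/-- The pushforward to `C ×_R T` of a rigidified line bundle over a member of an open cover. -/
def pushBundle {T : Scheme.{u}} (t : T ⟶ Spec (CommRingCat.of R)) (𝒰 : Scheme.OpenCover.{u} T)
    (i : 𝒰.I₀) (M : RigidifiedLineBundle c ε (𝒰.f i ≫ t)) : (pullback c t).Modules :=
  (Scheme.Modules.pushforward (baseChangeSnd c (coverHom t 𝒰 i))).obj M.L

/-- **Bridge for gluing, overlaps.** The Prelude pullbacks to the overlap of two rigidified line
bundles over two members of an open cover are isomorphic iff their pushforwards to `C ×_R T` are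
locally isomorphic over the intersection of the two opens. -/
theorem nonempty_overlap_iso_iff {T : Scheme.{u}} (t : T ⟶ Spec (CommRingCat.of R))
    (𝒰 : Scheme.OpenCover.{u} T) (i j : 𝒰.I₀) (M : RigidifiedLineBundle c ε (𝒰.f i ≫ t))
    (M' : RigidifiedLineBundle c ε (𝒰.f j ≫ t)) :
    Nonempty ((M.pullbackAlong (fstHom t 𝒰 i j)).L ≅ (M'.pullbackAlong (sndHom t 𝒰 i j)).L) ↔
      Nonempty (LocalIso (pushBundle t 𝒰 i M) (pushBundle t 𝒰 j M')
        (coverOpen c t 𝒰 i ⊓ coverOpen c t 𝒰 j)) := by
  rw [← opensRange_baseChangeSnd_overlapHom c t 𝒰 i j]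
  exact (pullbackIsoEquivLocalIsoPushforward (baseChangeSnd c (coverHom t 𝒰 i))
    (baseChangeSnd c (fstHom t 𝒰 i j)) (baseChangeSnd c (overlapHom t 𝒰 i j))
    (baseChangeSnd_fstHom_comp c t 𝒰 i j) (baseChangeSnd c (coverHom t 𝒰 j))
    (baseChangeSnd c (sndHom t 𝒰 i j)) (baseChangeSnd_sndHom_comp c t 𝒰 i j) M.L M'.L).nonempty_congr

/-- **Bridge for gluing, output.** The Prelude pullback of a bundle on `C ×_R T` to a member of the
cover is isomorphic to a given bundle iff the bundle is locally isomorphic to its pushforward. -/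
theorem nonempty_pullbackAlong_iso_iff' {T : Scheme.{u}} (t : T ⟶ Spec (CommRingCat.of R))
    (𝒰 : Scheme.OpenCover.{u} T) (i : 𝒰.I₀) (M₀ : RigidifiedLineBundle c ε t)
    (M : RigidifiedLineBundle c ε (𝒰.f i ≫ t)) :
    Nonempty ((M₀.pullbackAlong (coverHom t 𝒰 i)).L ≅ M.L) ↔
      Nonempty (LocalIso M₀.L (pushBundle t 𝒰 i M) (coverOpen c t 𝒰 i)) := by
  rw [← opensRange_baseChangeSnd_coverHom c t 𝒰 i]
  exact (pullbackIsoEquivLocalIsoPushforward' (baseChangeSnd c (coverHom t 𝒰 i)) M₀.L
    M.L).nonempty_congr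

end Bundles

end

end Fermat.Agent.JAC.Glue.BaseCover1
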