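import Fermat.Agent.JAC.Glue.Sec50
set_option autoImplicit false
open AlgebraicGeometry CategoryTheory TopologicalSpace Opposite
universe u
namespace Fermat.Agent.JAC.Glue.CechGlue50

open Fermat.Agent.JAC.Glue.Sec50

noncomputable section

variable {X : Scheme.{u}}

/-- Sectionwise Čech gluing datum. -/
structure SecDatum (X : Scheme.{u}) (ι : Type u) where
  U : ι → X.Opens
  N : ι → X.Modules
  g : ∀ (i j : ι) (V : X.Opens), V ≤ U i → V ≤ U j → (Γ(N i, V) →+ Γ(N j, V))
  g_res : ∀ (i j : ι) (V V' : X.Opens) (hi : V ≤ U i) (hj : V ≤ U j) (h : V' ≤ V) (s : Γ(N i, V)),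
    res (N j) h (g i j V hi hj s) = g i j V' (h.trans hi) (h.trans hj) (res (N i) h s)
  g_smul : ∀ (i j : ι) (V : X.Opens) (hi : V ≤ U i) (hj : V ≤ U j) (r : Γ(X, V)) (s : Γ(N i, V)),
    g i j V hi hj (r • s) = r • g i j V hi hj s
  g_self : ∀ (i : ι) (V : X.Opens) (hi : V ≤ U i) (s : Γ(N i, V)), g i i V hi hi s = s
  g_comp : ∀ (i j k : ι) (V : X.Opens) (hi : V ≤ U i) (hj : V ≤ U j) (hk : V ≤ U k)
    (s : Γ(N i, V)), g j k V hj hk (g i j V hi hj s) = g i k V hi hk s

namespace SecDatum

variable {ι : Type u} (D : SecDatum X ι)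

/-- Compatibility of a family of local sections. -/
def IsCompat (W : X.Opens) (s : ∀ i, Γ(D.N i, W ⊓ D.U i)) : Prop :=
  ∀ (i j : ι) (V : X.Opens) (hW : V ≤ W) (hi : V ≤ D.U i) (hj : V ≤ D.U j),
    D.g i j V hi hj (res (D.N i) (le_inf hW hi) (s i)) = res (D.N j) (le_inf hW hj) (s j)

/-- The subgroup of compatible families. -/
def secs (W : X.Opens) : AddSubgroup (∀ i, Γ(D.N i, W ⊓ D.U i)) where
  carrier := {s | D.IsCompat W s}
  add_mem' := by
    intro s t hs ht i j V hW hi hj
    simp only [Pi.add_apply, map_add, hs i j V hW hi hj, ht i j V hW hi hj]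
  zero_mem' := by
    intro i j V hW hi hj
    simp
  neg_mem' := by
    intro s hs i j V hW hi hj
    simp only [Pi.neg_apply, map_neg, hs i j V hW hi hj]

lemma mem_secs {W : X.Opens} {s : ∀ i, Γ(D.N i, W ⊓ D.U i)} : s ∈ D.secs W ↔ D.IsCompat W s :=
  Iff.rfl

/-- Restriction of compatible families. -/
noncomputable def secsRes {W' W : X.Opens} (h : W' ≤ W) : D.secs W →+ D.secs W' where
  toFun s := ⟨fun i => res (D.N i) (inf_le_inf_right _ h) (s.1 i), by
    intro i j V hW hi hj
    simp only [res_res]
    exact s.2 i j V (hW.trans h) hi hj⟩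
  map_zero' := by
    ext i
    simp
  map_add' := by
    intro s t
    ext i
    simp

@[simp] lemma secsRes_apply {W' W : X.Opens} (h : W' ≤ W) (s : D.secs W) (i : ι) :
    (D.secsRes h s).1 i = res (D.N i) (inf_le_inf_right _ h) (s.1 i) := rfl

/-- Scalar multiplication on compatible families. -/
noncomputable instance instSMulSecs (W : X.Opens) : SMul Γ(X, W) (D.secs W) where
  smul r s := ⟨fun i => resR X (inf_le_left : W ⊓ D.U i ≤ W) r • s.1 i, by
    intro i j V hW hi hj
    simp only [res_smul, D.g_smul, resR_resR]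
    rw [s.2 i j V hW hi hj]⟩

@[simp] lemma smul_secs_apply {W : X.Opens} (r : Γ(X, W)) (s : D.secs W) (i : ι) :
    (r • s).1 i = resR X (inf_le_left : W ⊓ D.U i ≤ W) r • s.1 i := rfl

noncomputable instance instModuleSecs (W : X.Opens) : Module Γ(X, W) (D.secs W) where
  one_smul s := by ext i; simp
  mul_smul r r' s := by ext i; simp [mul_smul]
  smul_zero r := by ext i; simp
  smul_add r s t := by ext i; simp
  add_smul r r' s := by ext i; simp [add_smul]
  zero_smul s := by ext i; simp


/-- The presheaf of abelian groups underlying the glued module. -/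
noncomputable def abPresheaf : TopCat.Presheaf Ab X where
  obj W := AddCommGrpCat.of (D.secs W.unop)
  map f := AddCommGrpCat.ofHom (D.secsRes (leOfHom f.unop))
  map_id W := by
    ext s i
    simp
  map_comp f g := by
    ext s i
    simp

noncomputable instance instModuleAbPresheaf (W : X.Opensᵒᵖ) :
    Module (X.ringCatSheaf.obj.obj W) (D.abPresheaf.obj W) :=
  D.instModuleSecs W.unop

lemma secsRes_smul {W' W : X.Opens} (h : W' ≤ W) (r : Γ(X, W)) (s : D.secs W) :
    D.secsRes h (r • s) = resR X h r • D.secsRes h s := by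
  apply Subtype.ext
  funext i
  simp only [secsRes_apply, smul_secs_apply, res_smul, resR_resR]

/-- The presheaf of modules underlying the glued module. -/
noncomputable def presheafOfModules : PresheafOfModules X.ringCatSheaf.obj :=
  PresheafOfModules.ofPresheaf D.abPresheaf
    (fun _ _ f r m => D.secsRes_smul (leOfHom f.unop) r m)

lemma le_iSup_inf {κ : Type*} (V : κ → X.Opens) (T : X.Opens) :
    (⨆ a, V a) ⊓ T ≤ ⨆ a, V a ⊓ T := by
  rw [iSup_inf_eq]

lemma le_iSup_inf' {κ : Type*} (V : κ → X.Opens) (Z : X.Opens) (h : Z ≤ ⨆ a, V a) :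
    Z ≤ ⨆ a, Z ⊓ V a := by
  rw [← inf_iSup_eq]
  exact le_inf le_rfl h

theorem abPresheaf_isSheaf : D.abPresheaf.IsSheaf := by
  rw [TopCat.Presheaf.isSheaf_iff_isSheafUniqueGluing]
  intro κ V sf hsf
  -- componentwise compatibility
  have hcomp : ∀ (i : ι) (a b : κ),
      res (D.N i) (inf_le_left : (V a ⊓ D.U i) ⊓ (V b ⊓ D.U i) ≤ V a ⊓ D.U i) ((sf a).1 i) =
      res (D.N i) (inf_le_right : (V a ⊓ D.U i) ⊓ (V b ⊓ D.U i) ≤ V b ⊓ D.U i) ((sf b).1 i) := by
    intro i a b
    have h1 := congrArg (fun t : D.secs (V a ⊓ V b) => t.1 i) (hsf a b)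
    have hle : (V a ⊓ D.U i) ⊓ (V b ⊓ D.U i) ≤ (V a ⊓ V b) ⊓ D.U i :=
      le_inf (le_inf (inf_le_left.trans inf_le_left) (inf_le_right.trans inf_le_left))
        (inf_le_left.trans inf_le_right)
    have h2 := congrArg (res (D.N i) hle) h1
    change res (D.N i) hle (res (D.N i) _ ((sf a).1 i)) =
      res (D.N i) hle (res (D.N i) _ ((sf b).1 i)) at h2
    simpa only [res_res] using h2
  have hglue : ∀ i : ι, ∃! s : Γ(D.N i, (⨆ a, V a) ⊓ D.U i),
      ∀ a, res (D.N i) (inf_le_inf_right (D.U i) (le_iSup V a)) s = (sf a).1 i := fun i =>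
    existsUnique_glue (D.N i) (fun a => V a ⊓ D.U i)
      (fun a => inf_le_inf_right (D.U i) (le_iSup V a)) (le_iSup_inf V (D.U i))
      (fun a => (sf a).1 i) (hcomp i)
  choose s hs hs' using hglue
  have hscompat : D.IsCompat (⨆ a, V a) s := by
    intro i j Z hW hi hj
    refine ext_of_cover (D.N j) (fun a => Z ⊓ V a) (fun a => inf_le_left) (le_iSup_inf' V Z hW)
      _ _ (fun a => ?_)
    rw [D.g_res, res_res, res_res]
    have e1 : res (D.N i) ((inf_le_left : Z ⊓ V a ≤ Z).trans (le_inf hW hi)) (s i) =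
        res (D.N i) (le_inf inf_le_right (inf_le_left.trans hi)) ((sf a).1 i) := by
      rw [← hs i a, res_res]
    have e2 : res (D.N j) ((inf_le_left : Z ⊓ V a ≤ Z).trans (le_inf hW hj)) (s j) =
        res (D.N j) (le_inf inf_le_right (inf_le_left.trans hj)) ((sf a).1 j) := by
      rw [← hs j a, res_res]
    rw [e1, e2]
    exact (sf a).2 i j (Z ⊓ V a) inf_le_right (inf_le_left.trans hi) (inf_le_left.trans hj)
  refine ⟨⟨s, hscompat⟩, ?_, ?_⟩
  · intro a
    apply Subtype.ext
    funext i
    exact hs i a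
  · intro t ht
    apply Subtype.ext
    funext i
    refine hs' i (t.1 i) (fun a => ?_)
    have := congrArg (fun t : D.secs (V a) => t.1 i) (ht a)
    exact this

/-- The glued module. -/
noncomputable def glued : X.Modules := ⟨D.presheafOfModules, D.abPresheaf_isSheaf⟩

/-- Sections of the glued module are compatible families (definitionally). -/
noncomputable def toSecs (W : X.Opens) : Γ(D.glued, W) ≃+ D.secs W := AddEquiv.refl _

@[simp] lemma toSecs_res {W' W : X.Opens} (h : W' ≤ W) (s : Γ(D.glued, W)) :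
    D.toSecs W' (res D.glued h s) = D.secsRes h (D.toSecs W s) := rfl

@[simp] lemma toSecs_smul {W : X.Opens} (r : Γ(X, W)) (s : Γ(D.glued, W)) :
    D.toSecs W (r • s) = r • D.toSecs W s := rfl

/-- The projection of the glued module onto the `k`-th local piece, over opens inside `U k`. -/
noncomputable def proj (k : ι) : SecHom (D.U k) D.glued (D.N k) where
  app V hV :=
    { toFun := fun s => res (D.N k) (le_inf le_rfl hV) ((D.toSecs V s).1 k)
      map_zero' := by simp
      map_add' := by intro s t; simp }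
  app_res V V' hV h s := by
    show res (D.N k) h (res (D.N k) _ ((D.toSecs V s).1 k)) =
      res (D.N k) _ ((D.toSecs V' (res D.glued h s)).1 k)
    rw [toSecs_res, secsRes_apply, res_res, res_res]
  app_smul V hV r s := by
    show res (D.N k) _ ((D.toSecs V (r • s)).1 k) = r • res (D.N k) _ ((D.toSecs V s).1 k)
    rw [toSecs_smul, smul_secs_apply, res_smul, resR_resR, resR_self]

lemma proj_app (k : ι) (V : X.Opens) (hV : V ≤ D.U k) (s : Γ(D.glued, V)) :
    (D.proj k).app V hV s = res (D.N k) (le_inf le_rfl hV) ((D.toSecs V s).1 k) := rfl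

/-- The compatible family generated by a section of the `k`-th local piece. -/
noncomputable def liftSecs (k : ι) (V : X.Opens) (hV : V ≤ D.U k) (t : Γ(D.N k, V)) : D.secs V :=
  ⟨fun i => D.g k i (V ⊓ D.U i) (inf_le_left.trans hV) inf_le_right (res (D.N k) inf_le_left t), by
    intro i j Z hZ hi hj
    rw [D.g_res, D.g_res, res_res, res_res, D.g_comp]⟩

@[simp] lemma liftSecs_apply (k : ι) (V : X.Opens) (hV : V ≤ D.U k) (t : Γ(D.N k, V)) (i : ι) :
    (D.liftSecs k V hV t).1 i =
      D.g k i (V ⊓ D.U i) (inf_le_left.trans hV) inf_le_right (res (D.N k) inf_le_left t) := rfl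

/-- The inverse of the projection. -/
noncomputable def lift (k : ι) : SecHom (D.U k) (D.N k) D.glued where
  app V hV :=
    { toFun := fun t => (D.toSecs V).symm (D.liftSecs k V hV t)
      map_zero' := by
        apply (D.toSecs V).injective
        apply Subtype.ext
        funext i
        simp
      map_add' := by
        intro s t
        apply (D.toSecs V).injective
        apply Subtype.ext
        funext i
        simp }
  app_res V V' hV h t := by
    apply (D.toSecs V').injective
    apply Subtype.ext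
    funext i
    show (D.toSecs V' (res D.glued h ((D.toSecs V).symm (D.liftSecs k V hV t)))).1 i =
      (D.toSecs V' ((D.toSecs V').symm (D.liftSecs k V' (h.trans hV) (res (D.N k) h t)))).1 i
    rw [toSecs_res, AddEquiv.apply_symm_apply, AddEquiv.apply_symm_apply, secsRes_apply,
      liftSecs_apply, liftSecs_apply, D.g_res, res_res, res_res]
  app_smul V hV r t := by
    apply (D.toSecs V).injective
    apply Subtype.ext
    funext i
    show (D.toSecs V ((D.toSecs V).symm (D.liftSecs k V hV (r • t)))).1 i =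
      (D.toSecs V (r • (D.toSecs V).symm (D.liftSecs k V hV t))).1 i
    rw [toSecs_smul, AddEquiv.apply_symm_apply, AddEquiv.apply_symm_apply, smul_secs_apply,
      liftSecs_apply, liftSecs_apply, res_smul, D.g_smul]

lemma lift_app (k : ι) (V : X.Opens) (hV : V ≤ D.U k) (t : Γ(D.N k, V)) :
    (D.lift k).app V hV t = (D.toSecs V).symm (D.liftSecs k V hV t) := rfl

lemma lift_comp_proj (k : ι) : (D.lift k).comp (D.proj k) = SecHom.id (D.U k) (D.N k) := by
  ext V hV t
  show (D.proj k).app V hV ((D.lift k).app V hV t) = t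
  rw [lift_app, proj_app, AddEquiv.apply_symm_apply, liftSecs_apply, D.g_res, D.g_self, res_res,
    res_self]

lemma proj_comp_lift (k : ι) : (D.proj k).comp (D.lift k) = SecHom.id (D.U k) D.glued := by
  ext V hV s
  show (D.lift k).app V hV ((D.proj k).app V hV s) = s
  rw [lift_app, proj_app]
  apply (D.toSecs V).injective
  rw [AddEquiv.apply_symm_apply]
  apply Subtype.ext
  funext i
  rw [liftSecs_apply, res_res]
  have := (D.toSecs V s).2 k i (V ⊓ D.U i) inf_le_left (inf_le_left.trans hV) inf_le_right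
  rw [this, res_self]

/-- The glued module restricted to `U k` is the `k`-th local piece restricted to `U k`. -/
noncomputable def restrictIso (k : ι) : D.glued.restrict (D.U k).ι ≅ (D.N k).restrict (D.U k).ι :=
  SecHom.isoOfInverse (D.proj k) (D.lift k) (D.proj_comp_lift k) (D.lift_comp_proj k)

/-- The projections are compatible with the gluing maps. -/
lemma g_proj (i j : ι) (V : X.Opens) (hi : V ≤ D.U i) (hj : V ≤ D.U j) (s : Γ(D.glued, V)) :
    D.g i j V hi hj ((D.proj i).app V hi s) = (D.proj j).app V hj s := by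
  rw [proj_app, proj_app]
  exact (D.toSecs V s).2 i j V le_rfl hi hj

end SecDatum

end

end Fermat.Agent.JAC.Glue.CechGlue50
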