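/-
Programme JAC (S25), work package B4 (helper1): local endomorphisms of invertible modules are
scalars, in `HomGlue1.LocalHom` form.

* `smulLocal M r : LocalHom M M U` : multiplication by a function `r : Γ(X, U)`.
* `existsUnique_smulLocal` : for a locally freely generated (e.g. invertible) module `L`, every
  `a : LocalHom L L U` is `smulLocal L r` for a unique `r : Γ(X, U)`.
* `LocalIso` corollaries: two local isomorphisms `L ≅ L'` over `U` differ by a unique unit of
  `Γ(X, U)`.
-/
import Fermat.Agent.JAC.Glue.HomGlue1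
import Fermat.Agent.JAC.Glue.EndInv23

set_option autoImplicit false

universe u

open CategoryTheory AlgebraicGeometry TopologicalSpace Opposite

namespace Fermat.Agent.JAC.Glue.EndLocal1

open Fermat.Agent.JAC.Glue.HomGlue1 Fermat.Agent.JAC.Glue.EndInv23

noncomputable section

variable {X : Scheme.{u}}

/-- Multiplication by a function, as a local endomorphism. -/
def smulLocal (M : X.Modules) {U : X.Opens} (r : Γ(X, U)) : LocalHom M M U where
  app V hV := AddMonoidHom.mk' (fun x => HomGlue1.resO X hV r • x) (fun x y => smul_add _ x y)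
  naturality {V W} hV hWV x := by
    change res M hWV (HomGlue1.resO X hV r • x) = HomGlue1.resO X (hWV.trans hV) r • res M hWV x
    rw [res_smul, resO_resO]
  map_smul {V} hV c x := by
    change HomGlue1.resO X hV r • c • x = c • HomGlue1.resO X hV r • x
    rw [smul_smul, smul_smul, mul_comm]

@[simp] lemma smulLocal_app (M : X.Modules) {U : X.Opens} (r : Γ(X, U)) {V : X.Opens} (hV : V ≤ U)
    (x : Γ(M, V)) : (smulLocal M r).app V hV x = HomGlue1.resO X hV r • x := rfl

lemma smulLocal_one (M : X.Modules) (U : X.Opens) : smulLocal M (1 : Γ(X, U)) = LocalHom.id M U := by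
  ext V hV x
  rw [smulLocal_app, map_one, one_smul]
  rfl

lemma smulLocal_mul (M : X.Modules) {U : X.Opens} (r r' : Γ(X, U)) :
    smulLocal M (r * r') = (smulLocal M r').comp (smulLocal M r) := by
  ext V hV x
  change HomGlue1.resO X hV (r * r') • x = HomGlue1.resO X hV r • HomGlue1.resO X hV r' • x
  rw [map_mul, mul_smul]

lemma smulLocal_restrict (M : X.Modules) {U U' : X.Opens} (h : U' ≤ U) (r : Γ(X, U)) :
    (smulLocal M r).restrict h = smulLocal M (HomGlue1.resO X h r) := by
  ext V hV x
  change HomGlue1.resO X (hV.trans h) r • x = HomGlue1.resO X hV (HomGlue1.resO X h r) • x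
  rw [resO_resO]

/-- a local homomorphism commutes with multiplication by functions -/
lemma comp_smulLocal {M N : X.Modules} {U : X.Opens} (a : LocalHom M N U) (r : Γ(X, U)) :
    (smulLocal M r).comp a = a.comp (smulLocal N r) := by
  ext V hV x
  change a.app V hV (HomGlue1.resO X hV r • x) = HomGlue1.resO X hV r • a.app V hV x
  exact a.map_smul hV _ x

section Gen

variable {L : X.Modules}

lemma resM_eq_res {V U : X.Opens} (h : V ≤ U) (s : Γ(L, U)) :
    EndInv23.resM L h s = res L h s := rfl

lemma resO_eq_resO {V U : X.Opens} (h : V ≤ U) (r : Γ(X, U)) :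
    EndInv23.resO X h r = HomGlue1.resO X h r := rfl

/-- On an open where `L` is freely generated, a local endomorphism is a scalar. -/
lemma exists_smul_of_isGen {U W : X.Opens} {e : Γ(L, W)} (he : IsGen L W e) (hW : W ≤ U)
    (a : LocalHom L L U) :
    ∃ c : Γ(X, W), ∀ (V : X.Opens) (h : V ≤ W) (s : Γ(L, V)),
      a.app V (h.trans hW) s = HomGlue1.resO X h c • s := by
  obtain ⟨c, hc⟩ := (he W le_rfl).2 (a.app W hW e)
  refine ⟨c, fun V h s => ?_⟩
  have hc' : c • e = a.app W hW e := by
    have := hc
    simp only [] at this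
    rwa [resM_eq_res, res_self] at this
  obtain ⟨b, hb⟩ := (he V h).2 s
  have hb' : b • res L h e = s := hb
  rw [← hb', a.map_smul, ← a.naturality hW h, ← hc', res_smul, smul_smul, smul_smul, mul_comm]

lemma eq_of_smul_eq_of_isGen {W : X.Opens} {e : Γ(L, W)} (he : IsGen L W e) {c c' : Γ(X, W)}
    (h : c • e = c' • e) : c = c' :=
  he.eq_of_smul_eq h

variable (hL : LocallyGen L)

include hL in
/-- Multiplication by a function on a locally freely generated module determines the function. -/
lemma smulLocal_injective {U : X.Opens} {r r' : Γ(X, U)}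
    (h : smulLocal L r = smulLocal L r') : r = r' := by
  choose W e hxW he using hL
  apply TopCat.Sheaf.eq_of_locally_eq' X.sheaf (fun x : U => U ⊓ W x.1) U
    (fun x => homOfLE inf_le_left)
  · intro x hx
    exact Opens.mem_iSup.mpr ⟨⟨x, hx⟩, hx, hxW x⟩
  · intro x
    have hle : U ⊓ W x.1 ≤ W x.1 := inf_le_right
    have he' := (he x.1).restrict hle
    apply he'.eq_of_smul_eq
    have h1 := congrArg (fun a : LocalHom L L U => a.app (U ⊓ W x.1) inf_le_left
      (res L hle (e x.1))) h
    exact h1

include hL in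
/-- **Local endomorphisms of a locally freely generated module are scalars.** -/
theorem exists_smulLocal_eq {U : X.Opens} (a : LocalHom L L U) :
    ∃ r : Γ(X, U), a = smulLocal L r := by
  choose W e hxW he using hL
  -- the local scalars
  have hloc : ∀ x : U, ∃ c : Γ(X, U ⊓ W x.1), ∀ (V : X.Opens) (h : V ≤ U ⊓ W x.1) (s : Γ(L, V)),
      a.app V (h.trans inf_le_left) s = HomGlue1.resO X h c • s := fun x =>
    exists_smul_of_isGen ((he x.1).restrict (inf_le_right : U ⊓ W x.1 ≤ W x.1)) inf_le_left a
  choose c hc using hloc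
  have hcompat : TopCat.Presheaf.IsCompatible X.presheaf (fun x : U => U ⊓ W x.1) c := by
    intro x y
    have hle : (U ⊓ W x.1) ⊓ (U ⊓ W y.1) ≤ W x.1 := inf_le_left.trans inf_le_right
    have he' := (he x.1).restrict hle
    apply he'.eq_of_smul_eq
    have h1 := hc x _ inf_le_left (res L hle (e x.1))
    have h2 := hc y _ inf_le_right (res L hle (e x.1))
    exact h1.symm.trans h2
  obtain ⟨(r : Γ(X, U)), hr, -⟩ := TopCat.Sheaf.existsUnique_gluing' X.sheaf (fun x : U => U ⊓ W x.1) U
    (fun x => homOfLE inf_le_left)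
    (fun x hx => Opens.mem_iSup.mpr ⟨⟨x, hx⟩, hx, hxW x⟩) c hcompat
  refine ⟨r, ?_⟩
  ext V hV s
  rw [smulLocal_app]
  apply eq_of_res_eq L (fun x : U => U ⊓ W x.1) (V := V)
    (fun y hy => Opens.mem_iSup.mpr ⟨⟨y, hV hy⟩, hV hy, hxW y⟩)
  intro x
  have hle : V ⊓ (U ⊓ W x.1) ≤ U ⊓ W x.1 := inf_le_right
  rw [a.naturality hV inf_le_left, res_smul, resO_resO, hc x _ hle]
  congr 1
  have hrx : HomGlue1.resO X (inf_le_left : U ⊓ W x.1 ≤ U) r = c x := hr x
  rw [← hrx, resO_resO]

include hL in
theorem existsUnique_smulLocal_eq {U : X.Opens} (a : LocalHom L L U) :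
    ∃! r : Γ(X, U), a = smulLocal L r := by
  obtain ⟨r, hr⟩ := exists_smulLocal_eq hL a
  exact ⟨r, hr, fun r' hr' => smulLocal_injective hL (hr'.symm.trans hr)⟩

end Gen

/-- For an invertible module, local endomorphisms are scalars. -/
theorem existsUnique_smulLocal_eq_of_isInvertible {L : X.Modules}
    (hL : Scheme.Modules.IsInvertible L) {U : X.Opens} (a : LocalHom L L U) :
    ∃! r : Γ(X, U), a = smulLocal L r :=
  existsUnique_smulLocal_eq (locallyGen_of_isInvertible hL) a

/-! ### Local isomorphisms differ by units -/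

section Units

variable {L L' : X.Modules} {U : X.Opens}

/-- multiplication by a unit, as a local automorphism -/
def smulLocalIso (M : X.Modules) (r : Γ(X, U)ˣ) : LocalIso M M U where
  hom := smulLocal M (r : Γ(X, U))
  inv := smulLocal M ((r⁻¹ : Γ(X, U)ˣ) : Γ(X, U))
  hom_inv_id := by rw [← smulLocal_mul, Units.inv_mul, smulLocal_one]
  inv_hom_id := by rw [← smulLocal_mul, Units.mul_inv, smulLocal_one]

/-- **Two local isomorphisms between invertible modules differ by a unique unit.** -/
theorem existsUnique_unit_of_localIso (hL : Scheme.Modules.IsInvertible L)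
    (e e' : LocalIso L L' U) :
    ∃! r : Γ(X, U)ˣ, e'.hom = (smulLocal L (r : Γ(X, U))).comp e.hom := by
  obtain ⟨r, hr, hr'⟩ := existsUnique_smulLocal_eq_of_isInvertible hL (e'.hom.comp e.inv)
  obtain ⟨q, hq, -⟩ := existsUnique_smulLocal_eq_of_isInvertible hL (e.hom.comp e'.inv)
  have hinj := fun {a b : Γ(X, U)} (h : smulLocal L a = smulLocal L b) =>
    smulLocal_injective (locallyGen_of_isInvertible hL) h
  have h1 : r * q = 1 := by
    apply hinj
    rw [smulLocal_mul, ← hq, ← hr, smulLocal_one, LocalHom.comp_assoc,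
      ← LocalHom.comp_assoc e'.inv, e'.inv_hom_id, LocalHom.id_comp, e.hom_inv_id]
  have h2 : q * r = 1 := by rw [mul_comm]; exact h1
  refine ⟨⟨r, q, h1, h2⟩, ?_, ?_⟩
  · change e'.hom = (smulLocal L r).comp e.hom
    rw [← hr, LocalHom.comp_assoc, e.inv_hom_id, LocalHom.comp_id]
  · intro r' h'
    apply Units.ext
    apply hr'
    rw [h', LocalHom.comp_assoc, e.hom_inv_id, LocalHom.comp_id]

end Units

end

end Fermat.Agent.JAC.Glue.EndLocal1
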