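/-
Programme JAC (S25), work package B4, part G4a (helper30): rigidifications of a line bundle
along a section, in adjoint ("λ") form.

For a morphism of schemes `σ : T ⟶ X` and `L : X.Modules`, a morphism
`g : σ^* L ⟶ 𝒪_T` is the same as its adjoint `lamOfHom σ L g : L ⟶ σ_* 𝒪_T`, whose sections
`Γ(L, W) → Γ(T, σ⁻¹ W)` are completely concrete.  We prove

* `exists_nondeg` (N): if `L` is invertible and `ρ : σ^* L ≅ 𝒪_T` is an isomorphism then the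
  adjoint `λ` of `ρ` is *nondegenerate*: near every point `σ x` there is a local basis `e` of `L`
  such that `λ e` is a unit;
* `isIso_homOfLam` (N'): conversely, if `L` is invertible and `l : L ⟶ σ_* 𝒪_T` hits a unit near
  every `σ x`, then the adjoint `σ^* L ⟶ 𝒪_T` of `l` is an isomorphism.

No pseudofunctor coherence is used: (N) is proved by mapping `L` to a test module, (N') by a
local computation on `T`.
-/
import Fermat.Agent.JAC.Glue.EndInv30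

set_option autoImplicit false
universe u
open CategoryTheory AlgebraicGeometry TopologicalSpace Opposite
open AlgebraicGeometry.Scheme.Modules
open Fermat.Agent.JAC.Glue.HomGlue30 Fermat.Agent.JAC.Glue.EndInv30

namespace Fermat.Agent.JAC.Glue.RigAdj30

variable {X T : Scheme.{u}} (σ : T ⟶ X)

/-- the target `σ_* 𝒪_T` of sectionwise rigidifications. -/
noncomputable abbrev Kσ : X.Modules := (pushforward σ).obj (𝒪 T)

/-- sections of the structure sheaf, seen as a module, are functions. -/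
def ofUnit {Y : Scheme.{u}} {U : Y.Opens} (s : Γ(𝒪 Y, U)) : Γ(Y, U) := s

theorem toUnit_ofUnit {Y : Scheme.{u}} {U : Y.Opens} (s : Γ(𝒪 Y, U)) : toUnit (ofUnit s) = s := rfl

theorem ofUnit_toUnit {Y : Scheme.{u}} {U : Y.Opens} (s : Γ(Y, U)) : ofUnit (toUnit s) = s := rfl

theorem ofUnit_res {Y : Scheme.{u}} {U V : Y.Opens} (h : U ≤ V) (s : Γ(𝒪 Y, V)) :
    ofUnit (res (𝒪 Y) h s) = resO h (ofUnit s) := rfl

theorem ofUnit_smul {Y : Scheme.{u}} {U : Y.Opens} (r : Γ(Y, U)) (s : Γ(𝒪 Y, U)) :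
    ofUnit (r • s) = r * ofUnit s := rfl

/-- sections of `σ_* 𝒪_T` over `W` are functions on `σ⁻¹ W`. -/
def secT {W : X.Opens} (k : Γ(Kσ σ, W)) : Γ(T, σ ⁻¹ᵁ W) := k

theorem secT_smul {W : X.Opens} (r : Γ(X, W)) (k : Γ(Kσ σ, W)) :
    secT σ (r • k) = σ.app W r * secT σ k := rfl

theorem secT_res {W W' : X.Opens} (h : W' ≤ W) (k : Γ(Kσ σ, W)) :
    secT σ (res (Kσ σ) h k) = resO (σ.preimage_mono h) (secT σ k) := rfl

theorem resO_isUnit {Y : Scheme.{u}} {U V : Y.Opens} (h : U ≤ V) {r : Γ(Y, V)} (hr : IsUnit r) :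
    IsUnit (resO h r) :=
  hr.map (Y.presheaf.map (homOfLE h).op).hom

variable (L : X.Modules)

/-- the adjoint of a morphism `σ^* L ⟶ 𝒪_T`. -/
noncomputable def lamOfHom (g : (pullback σ).obj L ⟶ 𝒪 T) : L ⟶ Kσ σ :=
  (pullbackPushforwardAdjunction σ).homEquiv L (𝒪 T) g

/-- the adjoint of a morphism `L ⟶ σ_* 𝒪_T`. -/
noncomputable def homOfLam (l : L ⟶ Kσ σ) : (pullback σ).obj L ⟶ 𝒪 T :=
  ((pullbackPushforwardAdjunction σ).homEquiv L (𝒪 T)).symm l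

theorem lamOfHom_homOfLam (l : L ⟶ Kσ σ) : lamOfHom σ L (homOfLam σ L l) = l :=
  Equiv.apply_symm_apply _ _

theorem homOfLam_lamOfHom (g : (pullback σ).obj L ⟶ 𝒪 T) : homOfLam σ L (lamOfHom σ L g) = g :=
  Equiv.symm_apply_apply _ _

theorem lamOfHom_app (g : (pullback σ).obj L ⟶ 𝒪 T) (W : X.Opens) (m : Γ(L, W)) :
    (lamOfHom σ L g).app W m =
      g.app (σ ⁻¹ᵁ W) (((pullbackPushforwardAdjunction σ).unit.app L).app W m) := by
  unfold lamOfHom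
  rw [Adjunction.homEquiv_unit]
  rfl

/-- if `ρ` is an isomorphism, every morphism `L ⟶ σ_* K` factors through the adjoint of `ρ`. -/
theorem exists_factor (ρ : (pullback σ).obj L ≅ 𝒪 T) (K : T.Modules)
    (φ : L ⟶ (pushforward σ).obj K) :
    ∃ h : 𝒪 T ⟶ K, φ = lamOfHom σ L ρ.hom ≫ (pushforward σ).map h := by
  refine ⟨ρ.inv ≫ ((pullbackPushforwardAdjunction σ).homEquiv L K).symm φ, ?_⟩
  unfold lamOfHom
  rw [← Adjunction.homEquiv_naturality_right, Iso.hom_inv_id_assoc, Equiv.apply_symm_apply]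

theorem hom_inv_app {Y : Scheme.{u}} {M N : Y.Modules} (θ : M ≅ N) (V : Y.Opens) (n : Γ(N, V)) :
    θ.hom.app V (θ.inv.app V n) = n := by
  have : θ.inv.app V ≫ θ.hom.app V = 𝟙 _ := by
    rw [← Scheme.Modules.Hom.comp_app, θ.inv_hom_id]; rfl
  exact ConcreteCategory.congr_hom this n

theorem inv_hom_app {Y : Scheme.{u}} {M N : Y.Modules} (θ : M ≅ N) (V : Y.Opens) (m : Γ(M, V)) :
    θ.inv.app V (θ.hom.app V m) = m :=
  hom_inv_app θ.symm V m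

section Test

variable (W : X.Opens) (θ : L.restrict W.ι ≅ 𝒪 W.toScheme)

/-- the test module `(ι_{W'})_* 𝒪_{W'}` with `W' = σ⁻¹ W`. -/
noncomputable abbrev testK : T.Modules := (pushforward (σ ⁻¹ᵁ W).ι).obj (𝒪 (σ ⁻¹ᵁ W).toScheme)

/-- `𝒪_W ⟶ (σ_W)_* 𝒪_{W'}`. -/
noncomputable def psiW : 𝒪 W.toScheme ⟶ (pushforward (σ ∣_ W)).obj (𝒪 (σ ⁻¹ᵁ W).toScheme) :=
  SheafOfModules.unitToPushforwardObjUnit (σ ∣_ W).toRingCatSheafHom

theorem psiW_app (V : W.toScheme.Opens) (s : Γ(W.toScheme, V)) :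
    (psiW σ W).app V (toUnit s) = toUnit ((σ ∣_ W).app V s) := rfl

/-- the test morphism: restrict to `W`, trivialise, pull functions back along `σ`. -/
noncomputable def testPhi : L ⟶ (pushforward σ).obj (testK σ W) :=
  (restrictAdjunction W.ι).unit.app L ≫ (pushforward W.ι).map (θ.hom ≫ psiW σ W) ≫
    (pushforwardComp (σ ∣_ W) W.ι).hom.app _ ≫
    (pushforwardCongr (morphismRestrict_ι σ W)).hom.app _ ≫
    (pushforwardComp (σ ⁻¹ᵁ W).ι σ).inv.app _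

theorem preimage_eq (V : X.Opens) :
    (σ ⁻¹ᵁ W).ι ⁻¹ᵁ (σ ⁻¹ᵁ V) = (σ ∣_ W) ⁻¹ᵁ (W.ι ⁻¹ᵁ V) := by
  rw [← Scheme.Hom.comp_preimage, ← Scheme.Hom.comp_preimage, morphismRestrict_ι]

theorem testPhi_app (V : X.Opens) (m : Γ(L, V)) :
    (testPhi σ L W θ).app V m =
      (𝒪 (σ ⁻¹ᵁ W).toScheme).presheaf.map (eqToHom (preimage_eq σ W V)).op
        ((psiW σ W).app (W.ι ⁻¹ᵁ V) (θ.hom.app (W.ι ⁻¹ᵁ V)
          (L.presheaf.map (homOfLE (W.ι.image_preimage_le V)).op m))) := by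
  rfl

theorem testPhi_app_basis :
    (testPhi σ L W θ).app (W.ι ''ᵁ ⊤) ((L.restrictAppIso W.ι ⊤).hom (θ.inv.app ⊤ (toUnit 1))) =
      toUnit 1 := by
  rw [testPhi_app]
  have h1 : L.presheaf.map (homOfLE (W.ι.image_preimage_le (W.ι ''ᵁ ⊤))).op
      ((L.restrictAppIso W.ι ⊤).hom (θ.inv.app ⊤ (toUnit 1))) =
      res (L.restrict W.ι) (le_top : W.ι ⁻¹ᵁ (W.ι ''ᵁ ⊤) ≤ ⊤) (θ.inv.app ⊤ (toUnit 1)) := rfl
  rw [h1, ← app_res θ.inv, hom_inv_app]
  have h3 : res (𝒪 W.toScheme) (le_top : W.ι ⁻¹ᵁ (W.ι ''ᵁ ⊤) ≤ ⊤) (toUnit 1) = toUnit 1 := by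
    unfold res
    rw [map_toUnit, map_one]
  rw [h3, psiW_app, map_one, map_toUnit, map_one]

/-- the adjoint of an isomorphism `σ^* L ≅ 𝒪_T` takes a unit value on the local basis attached
to a trivialisation of `L`. -/
theorem isUnit_lam_basis (ρ : (pullback σ).obj L ≅ 𝒪 T) :
    IsUnit (secT σ ((lamOfHom σ L ρ.hom).app (W.ι ''ᵁ ⊤)
      ((L.restrictAppIso W.ι ⊤).hom (θ.inv.app ⊤ (toUnit 1))))) := by
  obtain ⟨h, hh⟩ := exists_factor σ L ρ (testK σ W) (testPhi σ L W θ)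
  have h1 := testPhi_app_basis σ L W θ
  rw [hh] at h1
  set e := (L.restrictAppIso W.ι ⊤).hom (θ.inv.app ⊤ (toUnit 1)) with he
  set a : Γ(T, σ ⁻¹ᵁ (W.ι ''ᵁ ⊤)) := secT σ ((lamOfHom σ L ρ.hom).app (W.ι ''ᵁ ⊤) e) with ha
  have h2 : (lamOfHom σ L ρ.hom).app (W.ι ''ᵁ ⊤) e =
      a • (toUnit 1 : Γ(𝒪 T, σ ⁻¹ᵁ (W.ι ''ᵁ ⊤))) := by
    rw [smul_toUnit, mul_one]; rfl
  have h3 : h.app (σ ⁻¹ᵁ (W.ι ''ᵁ ⊤)) (a • (toUnit 1 : Γ(𝒪 T, σ ⁻¹ᵁ (W.ι ''ᵁ ⊤)))) =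
      toUnit 1 := by
    rw [← h2]; exact h1
  rw [Scheme.Modules.Hom.app_smul] at h3
  have h4 : (σ ⁻¹ᵁ W).ι.app (σ ⁻¹ᵁ (W.ι ''ᵁ ⊤)) a *
      ofUnit (h.app (σ ⁻¹ᵁ (W.ι ''ᵁ ⊤)) (toUnit 1)) = 1 := h3
  have h5 : IsUnit ((σ ⁻¹ᵁ W).ι.app (σ ⁻¹ᵁ (W.ι ''ᵁ ⊤)) a) := IsUnit.of_mul_eq_one _ h4
  have hle : σ ⁻¹ᵁ (W.ι ''ᵁ ⊤) ≤ (σ ⁻¹ᵁ W).ι.opensRange := by
    rw [Scheme.Opens.ι_image_top, Scheme.Opens.opensRange_ι]
  have := Scheme.Hom.isIso_app (σ ⁻¹ᵁ W).ι _ hle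
  exact isUnit_of_map_unit ((σ ⁻¹ᵁ W).ι.app (σ ⁻¹ᵁ (W.ι ''ᵁ ⊤))).hom a h5

end Test

/-- **(N)**: the adjoint of a rigidification of an invertible module is nondegenerate. -/
theorem exists_nondeg (hL : Scheme.Modules.IsInvertible L) (ρ : (pullback σ).obj L ≅ 𝒪 T)
    (x : T) :
    ∃ (W : X.Opens) (e : Γ(L, W)), σ.base x ∈ W ∧ IsLocalBasis L W e ∧
      IsUnit (secT σ ((lamOfHom σ L ρ.hom).app W e)) := by
  obtain ⟨U, hxU, ⟨θ₀⟩⟩ := hL.exists_trivialization (σ.base x)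
  let θ : L.restrict U.ι ≅ 𝒪 U.toScheme := (restrictFunctorIsoPullback U.ι).app L ≪≫ θ₀
  refine ⟨U.ι ''ᵁ ⊤, _, ?_, isLocalBasis_of_iso U.ι θ, isUnit_lam_basis σ L U θ ρ⟩
  rw [Scheme.Opens.ι_image_top]
  exact hxU

/-- a morphism from a locally trivial module to `𝒪` which hits a unit near every point is an
isomorphism. -/
theorem isIso_of_locally_hits_unit {K : T.Modules} (hK : IsLocallyTrivial K) (g : K ⟶ 𝒪 T)
    (hg : ∀ x : T, ∃ (V : T.Opens) (k : Γ(K, V)), x ∈ V ∧ IsUnit (ofUnit (g.app V k))) :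
    IsIso g := by
  have key : ∀ x : T, ∃ V' : T.Opens, x ∈ V' ∧
      ∀ V'' : T.Opens, V'' ≤ V' → Function.Bijective (g.app V'') := by
    intro x
    obtain ⟨V, k₁, hxV, hk₁⟩ := hK x
    obtain ⟨V₂, k, hxV₂, hk⟩ := hg x
    refine ⟨V ⊓ V₂, ⟨hxV, hxV₂⟩, ?_⟩
    obtain ⟨r, hr⟩ := (hk₁ (V ⊓ V₂) inf_le_left).2 (res K inf_le_right k)
    have hu : IsUnit (ofUnit (g.app (V ⊓ V₂) (res K inf_le_left k₁))) := by
      have h1 : ofUnit (g.app (V ⊓ V₂) (res K (inf_le_right : V ⊓ V₂ ≤ V₂) k)) =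
          r * ofUnit (g.app (V ⊓ V₂) (res K inf_le_left k₁)) := by
        rw [← hr]
        change ofUnit (g.app (V ⊓ V₂) (r • res K inf_le_left k₁)) = _
        rw [Scheme.Modules.Hom.app_smul, ofUnit_smul]
      have h2 : IsUnit (ofUnit (g.app (V ⊓ V₂) (res K (inf_le_right : V ⊓ V₂ ≤ V₂) k))) := by
        rw [app_res, ofUnit_res]
        exact resO_isUnit _ hk
      rw [h1] at h2
      exact isUnit_of_mul_isUnit_right h2
    intro V'' hV''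
    have hb1 := hk₁ V'' (hV''.trans inf_le_left)
    have hcomp : (g.app V'' : Γ(K, V'') → Γ(𝒪 T, V'')) ∘
        (fun s : Γ(T, V'') => s • res K (hV''.trans inf_le_left) k₁) =
        fun s : Γ(T, V'') => toUnit (s * resO hV''
          (ofUnit (g.app (V ⊓ V₂) (res K inf_le_left k₁)))) := by
      funext s
      change g.app V'' (s • res K (hV''.trans inf_le_left) k₁) = _
      rw [Scheme.Modules.Hom.app_smul, ← res_res K hV'' inf_le_left, app_res]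
      rfl
    have hb2 : Function.Bijective (fun s : Γ(T, V'') => toUnit (s * resO hV''
          (ofUnit (g.app (V ⊓ V₂) (res K inf_le_left k₁))))) := by
      refine toUnit_bijective.comp ?_
      exact (resO_isUnit hV'' hu).unit.mulRight_bijective
    rw [← hcomp] at hb2
    exact (Function.Bijective.of_comp_iff _ hb1).mp hb2
  choose V' hxV' hV' using key
  refine isIso_of_cover (j := fun x : T => (V' x).ι) (fun x => ⟨x, ?_⟩) g ?_
  · rw [Scheme.Opens.opensRange_ι]; exact hxV' x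
  · intro x
    rw [Scheme.Modules.Hom.isIso_iff_isIso_app]
    intro W
    have hb : Function.Bijective (g.app ((V' x).ι ''ᵁ W)) :=
      hV' x _ (((V' x).ι.image_le_opensRange W).trans (by rw [Scheme.Opens.opensRange_ι]))
    exact (ConcreteCategory.isIso_iff_bijective (g.app ((V' x).ι ''ᵁ W))).mpr hb

/-- **(N')**: if `L` is invertible and `l : L ⟶ σ_* 𝒪_T` hits a unit near every point `σ x`, the
adjoint `σ^* L ⟶ 𝒪_T` of `l` is an isomorphism. -/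
theorem isIso_homOfLam (hL : Scheme.Modules.IsInvertible L) (l : L ⟶ Kσ σ)
    (hl : ∀ x : T, ∃ (W : X.Opens) (e : Γ(L, W)), σ.base x ∈ W ∧ IsUnit (secT σ (l.app W e))) :
    IsIso (homOfLam σ L l) := by
  apply isIso_of_locally_hits_unit (isLocallyTrivial_of_isInvertible (hL.pullback σ))
  intro x
  obtain ⟨W, e, hxW, he⟩ := hl x
  refine ⟨σ ⁻¹ᵁ W, ((pullbackPushforwardAdjunction σ).unit.app L).app W e, hxW, ?_⟩
  rw [← lamOfHom_app, lamOfHom_homOfLam]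
  exact he

end Fermat.Agent.JAC.Glue.RigAdj30
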