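import Mathlib
set_option autoImplicit false
open AlgebraicGeometry CategoryTheory TopologicalSpace Opposite
universe u
namespace Fermat.Agent.JAC.Glue.Sec50

noncomputable section

variable {X : Scheme.{u}}

noncomputable def res (M : X.Modules) {V W : X.Opens} (h : V ≤ W) : Γ(M, W) →+ Γ(M, V) :=
  (M.presheaf.map (homOfLE h).op).hom

noncomputable def resR (X : Scheme.{u}) {V W : X.Opens} (h : V ≤ W) : Γ(X, W) →+* Γ(X, V) :=
  (X.presheaf.map (homOfLE h).op).hom

section
variable (M N : X.Modules)

@[simp] lemma res_self {W : X.Opens} (s : Γ(M, W)) : res M (le_refl W) s = s := by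
  simp [res]

@[simp] lemma res_res {V W Z : X.Opens} (h : V ≤ W) (h' : W ≤ Z) (s : Γ(M, Z)) :
    res M h (res M h' s) = res M (h.trans h') s := by
  simp only [res]
  rw [← AddCommGrpCat.comp_apply, ← Functor.map_comp]
  rfl

lemma res_smul {V W : X.Opens} (h : V ≤ W) (r : Γ(X, W)) (s : Γ(M, W)) :
    res M h (r • s) = resR X h r • res M h s :=
  M.map_smul (homOfLE h) r s

@[simp] lemma resR_self {W : X.Opens} (r : Γ(X, W)) : resR X (le_refl W) r = r := by
  simp [resR]

@[simp] lemma resR_resR {V W Z : X.Opens} (h : V ≤ W) (h' : W ≤ Z) (r : Γ(X, Z)) :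
    resR X h (resR X h' r) = resR X (h.trans h') r := by
  simp only [resR]
  rw [← CommRingCat.comp_apply, ← Functor.map_comp]
  rfl
end

lemma hom_app_res {M N : X.Modules} (φ : M ⟶ N) {V W : X.Opens} (h : V ≤ W) (s : Γ(M, W)) :
    (φ.app V).hom (res M h s) = res N h ((φ.app W).hom s) := by
  have := φ.mapPresheaf.naturality (homOfLE h).op
  exact congr($this s)

section
variable (M : X.Modules)

/-- The underlying sheaf of abelian groups. -/
noncomputable def abSheaf : TopCat.Sheaf Ab X := ⟨M.presheaf, M.isSheaf⟩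

lemma ext_of_cover {κ : Type*} {W : X.Opens} (V : κ → X.Opens) (hV : ∀ a, V a ≤ W)
    (hcov : W ≤ ⨆ a, V a) (s t : Γ(M, W)) (h : ∀ a, res M (hV a) s = res M (hV a) t) : s = t :=
  TopCat.Sheaf.eq_of_locally_eq' (abSheaf M) V W (fun a => homOfLE (hV a)) hcov s t h

lemma existsUnique_glue {κ : Type*} {W : X.Opens} (V : κ → X.Opens) (hV : ∀ a, V a ≤ W)
    (hcov : W ≤ ⨆ a, V a) (sf : ∀ a, Γ(M, V a))
    (hcompat : ∀ a b, res M (inf_le_left : V a ⊓ V b ≤ V a) (sf a) =
      res M (inf_le_right : V a ⊓ V b ≤ V b) (sf b)) :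
    ∃! s : Γ(M, W), ∀ a, res M (hV a) s = sf a :=
  TopCat.Sheaf.existsUnique_gluing' (abSheaf M) V W (fun a => homOfLE (hV a)) hcov sf hcompat

end

section restrictSec

variable {U : X.Opens} (M : X.Modules)

/-- Sections of the restriction `M|_U` over `A` are sections of `M` over the image of `A`
(a definitional identification, made explicit to keep terms well-typed). -/
def restrictSec (A : U.toScheme.Opens) : Γ(M.restrict U.ι, A) ≃+ Γ(M, U.ι ''ᵁ A) :=
  AddEquiv.refl _

lemma restrictSec_res {A A' : U.toScheme.Opens} (h : A' ≤ A) (x : Γ(M.restrict U.ι, A)) :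
    restrictSec M A' (res (M.restrict U.ι) h x) =
      res M (U.ι.image_mono h) (restrictSec M A x) := rfl

lemma restrictSec_symm_res {A A' : U.toScheme.Opens} (h : A' ≤ A) (x : Γ(M, U.ι ''ᵁ A)) :
    (restrictSec M A').symm (res M (U.ι.image_mono h) x) =
      res (M.restrict U.ι) h ((restrictSec M A).symm x) := rfl

lemma restrictSec_smul (A : U.toScheme.Opens) (r : Γ(U.toScheme, A)) (x : Γ(M.restrict U.ι, A)) :
    restrictSec M A (r • x) = (U.ι.appIso A).inv r • restrictSec M A x := rfl

lemma restrictSec_symm_smul (A : U.toScheme.Opens) (r : Γ(X, U.ι ''ᵁ A)) (x : Γ(M, U.ι ''ᵁ A)) :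
    (restrictSec M A).symm (r • x) = (U.ι.appIso A).hom r • (restrictSec M A).symm x := by
  apply (restrictSec M A).injective
  rw [restrictSec_smul]
  have : (U.ι.appIso A).inv ((U.ι.appIso A).hom r) = r := by
    rw [← CommRingCat.comp_apply, Iso.hom_inv_id]
    rfl
  rw [this]
  simp

end restrictSec

/-- Sectionwise morphisms between two modules over the opens contained in `U`. -/
@[ext]
structure SecHom (U : X.Opens) (M N : X.Modules) where
  app : ∀ (V : X.Opens), V ≤ U → (Γ(M, V) →+ Γ(N, V))
  app_res : ∀ (V V' : X.Opens) (hV : V ≤ U) (h : V' ≤ V) (s : Γ(M, V)),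
    res N h (app V hV s) = app V' (h.trans hV) (res M h s)
  app_smul : ∀ (V : X.Opens) (hV : V ≤ U) (r : Γ(X, V)) (s : Γ(M, V)),
    app V hV (r • s) = r • app V hV s

namespace SecHom

variable {U : X.Opens} {M N P : X.Modules}

/-- Identity. -/
def id (U : X.Opens) (M : X.Modules) : SecHom U M M where
  app _ _ := AddMonoidHom.id _
  app_res _ _ _ _ _ := rfl
  app_smul _ _ _ _ := rfl

/-- Composition. -/
def comp (f : SecHom U M N) (g : SecHom U N P) : SecHom U M P where
  app V hV := (g.app V hV).comp (f.app V hV)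
  app_res V V' hV h s := by
    simp only [AddMonoidHom.comp_apply, g.app_res, f.app_res]
  app_smul V hV r s := by
    simp only [AddMonoidHom.comp_apply, g.app_smul, f.app_smul]

/-- Restriction to a smaller open. -/
def restrict (f : SecHom U M N) {U' : X.Opens} (h : U' ≤ U) : SecHom U' M N where
  app V hV := f.app V (hV.trans h)
  app_res V V' hV h' s := f.app_res V V' (hV.trans h) h' s
  app_smul V hV r s := f.app_smul V (hV.trans h) r s

/-- The sectionwise morphism attached to a morphism of modules. -/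
noncomputable def ofHom (U : X.Opens) (φ : M ⟶ N) : SecHom U M N where
  app V _ := (φ.app V).hom
  app_res V V' _ h s := by
    have := φ.mapPresheaf.naturality (homOfLE h).op
    exact (congr($this s)).symm
  app_smul V _ r s := Scheme.Modules.Hom.app_smul φ r s

/-- The morphism between restrictions attached to a sectionwise morphism. -/
noncomputable def toRestrict (f : SecHom U M N) : M.restrict U.ι ⟶ N.restrict U.ι :=
  ⟨PresheafOfModules.homMk
    { app := fun V => AddCommGrpCat.ofHom
        ((restrictSec N V.unop).symm.toAddMonoidHom.comp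
          ((f.app (U.ι ''ᵁ V.unop) (U.ι_image_le _)).comp (restrictSec M V.unop).toAddMonoidHom))
      naturality := by
        intro V V' i
        ext s
        exact (f.app_res (U.ι ''ᵁ V.unop) (U.ι ''ᵁ V'.unop) (U.ι_image_le _)
          (U.ι.image_mono (leOfHom i.unop)) s).symm }
    (by
      intro V r m
      exact f.app_smul (U.ι ''ᵁ V.unop) (U.ι_image_le _) ((U.ι.appIso V.unop).inv r) m)⟩

lemma toRestrict_app (f : SecHom U M N) (V : U.toScheme.Opens) (s : Γ(M.restrict U.ι, V)) :
    (f.toRestrict.app V).hom s =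
      (restrictSec N V).symm (f.app (U.ι ''ᵁ V) (U.ι_image_le _) (restrictSec M V s)) := rfl

lemma le_image_preimage {V : X.Opens} (hV : V ≤ U) : V ≤ U.ι ''ᵁ U.ι ⁻¹ᵁ V := by
  rw [Scheme.Hom.image_preimage_eq_opensRange_inf, Scheme.Opens.opensRange_ι]
  exact le_inf hV le_rfl

lemma image_preimage_le' (V : X.Opens) : U.ι ''ᵁ U.ι ⁻¹ᵁ V ≤ V := by
  rw [Scheme.Hom.image_preimage_eq_opensRange_inf]
  exact inf_le_right

/-- The sectionwise morphism attached to a morphism between restrictions. -/
noncomputable def ofRestrict (φ : M.restrict U.ι ⟶ N.restrict U.ι) : SecHom U M N where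
  app V hV := (res N (le_image_preimage hV)).comp
    ((restrictSec N (U.ι ⁻¹ᵁ V)).toAddMonoidHom.comp
      ((φ.app (U.ι ⁻¹ᵁ V)).hom.comp
        ((restrictSec M (U.ι ⁻¹ᵁ V)).symm.toAddMonoidHom.comp (res M (image_preimage_le' V)))))
  app_res V V' hV h s := by
    show res N h (res N (le_image_preimage hV) (restrictSec N _ ((φ.app (U.ι ⁻¹ᵁ V)).hom
      ((restrictSec M _).symm (res M (image_preimage_le' V) s))))) =
      res N (le_image_preimage (h.trans hV)) (restrictSec N _ ((φ.app (U.ι ⁻¹ᵁ V')).hom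
        ((restrictSec M _).symm (res M (image_preimage_le' V') (res M h s)))))
    have hle : U.ι ⁻¹ᵁ V' ≤ U.ι ⁻¹ᵁ V := U.ι.preimage_mono h
    have h1 := hom_app_res φ hle ((restrictSec M _).symm (res M (image_preimage_le' V) s))
    rw [← restrictSec_symm_res] at h1
    simp only [res_res] at h1 ⊢
    rw [h1, restrictSec_res, res_res]
  app_smul V hV r s := by
    show res N (le_image_preimage hV) (restrictSec N _ ((φ.app (U.ι ⁻¹ᵁ V)).hom
      ((restrictSec M _).symm (res M (image_preimage_le' V) (r • s))))) =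
      r • res N (le_image_preimage hV) (restrictSec N _ ((φ.app (U.ι ⁻¹ᵁ V)).hom
      ((restrictSec M _).symm (res M (image_preimage_le' V) s))))
    rw [res_smul, restrictSec_symm_smul, Scheme.Modules.Hom.app_smul, restrictSec_smul, res_smul]
    congr 1
    have : ∀ t : Γ(X, U.ι ''ᵁ U.ι ⁻¹ᵁ V), (U.ι.appIso (U.ι ⁻¹ᵁ V)).inv
        ((U.ι.appIso (U.ι ⁻¹ᵁ V)).hom t) = t := by
      intro t
      rw [← CommRingCat.comp_apply, Iso.hom_inv_id]
      rfl
    rw [this, resR_resR, resR_self]

lemma ofRestrict_app (φ : M.restrict U.ι ⟶ N.restrict U.ι) (V : X.Opens) (hV : V ≤ U)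
    (s : Γ(M, V)) :
    (ofRestrict φ).app V hV s = res N (le_image_preimage hV) (restrictSec N _
      ((φ.app (U.ι ⁻¹ᵁ V)).hom ((restrictSec M _).symm (res M (image_preimage_le' V) s)))) := rfl

@[simp] lemma ofRestrict_toRestrict (f : SecHom U M N) : ofRestrict (toRestrict f) = f := by
  ext V hV s
  rw [ofRestrict_app, toRestrict_app, AddEquiv.apply_symm_apply, AddEquiv.apply_symm_apply,
    f.app_res, res_res, res_self]

@[simp] lemma toRestrict_ofRestrict (φ : M.restrict U.ι ⟶ N.restrict U.ι) :
    toRestrict (ofRestrict φ) = φ := by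
  apply Scheme.Modules.hom_ext
  intro A
  ext s
  rw [toRestrict_app, ofRestrict_app]
  have hA : U.ι ⁻¹ᵁ U.ι ''ᵁ A = A := U.ι.preimage_image_eq A
  have h1 : U.ι ⁻¹ᵁ U.ι ''ᵁ A ≤ A := hA.le
  have h2 : A ≤ U.ι ⁻¹ᵁ U.ι ''ᵁ A := hA.ge
  have e1 := hom_app_res φ h1 s
  have e2 : (restrictSec M (U.ι ⁻¹ᵁ U.ι ''ᵁ A)).symm
      (res M (image_preimage_le' (U.ι ''ᵁ A)) (restrictSec M A s)) =
      res (M.restrict U.ι) h1 s := by
    rw [restrictSec_symm_res M h1, AddEquiv.symm_apply_apply]
  rw [e2, e1, restrictSec_res, res_res, res_self, AddEquiv.symm_apply_apply]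

@[simp] lemma toRestrict_id (U : X.Opens) (M : X.Modules) :
    toRestrict (SecHom.id U M) = 𝟙 (M.restrict U.ι) := by
  apply Scheme.Modules.hom_ext
  intro A
  ext s
  rw [toRestrict_app]
  simp [SecHom.id]

@[simp] lemma toRestrict_comp (f : SecHom U M N) (g : SecHom U N P) :
    toRestrict (f.comp g) = toRestrict f ≫ toRestrict g := by
  apply Scheme.Modules.hom_ext
  intro A
  ext s
  rw [toRestrict_app, Scheme.Modules.Hom.comp_app, AddCommGrpCat.comp_apply]
  change _ = (g.toRestrict.app A).hom ((f.toRestrict.app A).hom s)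
  rw [toRestrict_app, toRestrict_app, AddEquiv.apply_symm_apply]
  rfl

/-- A pair of mutually inverse sectionwise morphisms gives an isomorphism of restrictions. -/
noncomputable def isoOfInverse (f : SecHom U M N) (g : SecHom U N M)
    (hfg : f.comp g = SecHom.id U M) (hgf : g.comp f = SecHom.id U N) :
    M.restrict U.ι ≅ N.restrict U.ι where
  hom := toRestrict f
  inv := toRestrict g
  hom_inv_id := by rw [← toRestrict_comp, hfg, toRestrict_id]
  inv_hom_id := by rw [← toRestrict_comp, hgf, toRestrict_id]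

/-- Morphisms between the restrictions to `U` are the same as sectionwise morphisms over `U`. -/
noncomputable def restrictHomEquiv : (M.restrict U.ι ⟶ N.restrict U.ι) ≃ SecHom U M N where
  toFun := ofRestrict
  invFun := toRestrict
  left_inv := toRestrict_ofRestrict
  right_inv := ofRestrict_toRestrict

end SecHom

end

end Fermat.Agent.JAC.Glue.Sec50
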